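import Mathlib
import Fermat.Agent.H22.ES.KLModel
import Fermat.Agent.H27.KLGB.Prim

/-!
# P-SS row 665 (SS-A2, two-sided `q`-expansion principle, model side): leaf statements (helper66)

Statements of three small leaves used by the assembly `Fermat.Agent.H66.SS.modelQExp2`.

* `ModelIntegralStatement N` (L-INT): every `Y ∈ ℤ[j(t^d) : d ∣ N] ⊆ ℤ((t))` is the expansion of
  an element of the model field `E = ModelField K₁ N` which is integral over `A₀[x]`, `x = j`.
* `ModelFinrankStatement N` (L-DEG): `[E : K₁(x)] = ψ(N)`.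
* `FrobStatement` (L-FROB): `f(t^q) = f(t)^q` for the image in characteristic `q` of a series
  with integer coefficients.
-/

set_option autoImplicit false

noncomputable section

namespace Fermat.Agent.H66.SS

open Polynomial ModularCurve
open Fermat.Agent.H22.KL Fermat.Agent.H27.KLGB

/-- **(L-INT)** elements of `ℤ[j(t^d) : d ∣ N]` give elements of the model field which are
integral over `A₀[x]`. -/
def ModelIntegralStatement (N : ℕ) : Prop :=
  ∀ (K₁ : Type) [Field K₁] [Algebra ℚ K₁]
    (A₀ : Type) [CommRing A₀] [IsDomain A₀] [Algebra A₀ K₁] [IsFractionRing A₀ K₁]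
    [Algebra A₀ (ModelField K₁ N)] [IsScalarTower A₀ K₁ (ModelField K₁ N)]
    (x : ModelField K₁ N), (x : LaurentSeries K₁) = coeffEmb K₁ jq →
    ∀ (Y : LaurentSeries ℤ), Y ∈ Algebra.adjoin ℤ (gensR ℤ N) →
      ∃ y : ModelField K₁ N, (y : LaurentSeries K₁) = coeffMap (Int.castRingHom K₁) Y ∧
        y ∈ chartClosure A₀ (ModelField K₁ N) x

/-- **(L-DEG)** the degree of the model field over the chart field is `ψ(N)`. -/
def ModelFinrankStatement (N : ℕ) : Prop :=
  ∀ (K₁ : Type) [Field K₁] [Algebra ℚ K₁]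
    (A₀ : Type) [CommRing A₀] [IsDomain A₀] [Algebra A₀ K₁] [IsFractionRing A₀ K₁]
    [Algebra A₀ (ModelField K₁ N)] [IsScalarTower A₀ K₁ (ModelField K₁ N)]
    (x : ModelField K₁ N), (x : LaurentSeries K₁) = coeffEmb K₁ jq →
    Module.finrank (chartField A₀ (ModelField K₁ N) x) (ModelField K₁ N) = dedekindPsi N

/-- **(L-FROB)** Frobenius on series with coefficients in the prime field. -/
def FrobStatement : Prop :=
  ∀ (k : Type) [Field k] (q : ℕ) [NeZero q], q.Prime → CharP k q →
    ∀ Y : LaurentSeries ℤ,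
      qExpand k q (coeffMap (Int.castRingHom k) Y) = (coeffMap (Int.castRingHom k) Y) ^ q

end Fermat.Agent.H66.SS
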