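import Mathlib
import Fermat.Agent.H66.SS.Leaves
import Fermat.Agent.H87.KL.KumGauss
import Fermat.Agent.H27.KLGB.Model

/-!
# P-SS row 700 (SS-A2-INT), backup proof (helper66): `ModelIntegralStatement N`

Every `Y ∈ ℤ[j(t^d) : d ∣ N] ⊆ ℤ((t))` is the expansion of an element of the model field
`ModelField K₁ N` which is integral over `A₀[x]`, `x = j`.
-/

set_option autoImplicit false
set_option linter.unusedSectionVars false
set_option synthInstance.maxHeartbeats 400000
set_option maxHeartbeats 1600000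

noncomputable section

namespace Fermat.Agent.H66.SS

open Polynomial ModularCurve
open Fermat.Agent.H22.KL Fermat.Agent.H27 Fermat.Agent.H27.KLGB Fermat.Agent.H87.KL

section

variable {K₁ : Type} [Field K₁] [Algebra ℚ K₁] {N : ℕ} [NeZero N]
  {A₀ : Type} [CommRing A₀] [IsDomain A₀] [Algebra A₀ K₁] [IsFractionRing A₀ K₁]
  [Algebra A₀ (ModelField K₁ N)] [IsScalarTower A₀ K₁ (ModelField K₁ N)]

/-- the generators are integral over `A₀[x]` -/
theorem smi_gen (x : ModelField K₁ N) (hx : (x : LaurentSeries K₁) = coeffEmb K₁ jq)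
    (y : ModelField K₁ N) (d : ℕ) [NeZero d]
    (hy : (y : LaurentSeries K₁) = qExpand K₁ d (jqModC K₁)) :
    IntX (A := A₀) x y := by
  set j : ModelField K₁ N →+* LaurentSeries K₁ :=
    algebraMap (ModelField K₁ N) (LaurentSeries K₁) with hj
  have hjinj : Function.Injective j := FaithfulSMul.algebraMap_injective _ _
  let _ : Algebra A₀[X] (LaurentSeries K₁) := (j.comp (evX (A := A₀) x)).toAlgebra
  have hjx : j x = jqModC K₁ := by
    rw [← coeffEmb_jq, ← hx]
    rfl
  have h1 : IsIntegral A₀[X] (jqModC K₁) := by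
    have : jqModC K₁ = algebraMap A₀[X] (LaurentSeries K₁) Polynomial.X := by
      show _ = j (evX (A := A₀) x Polynomial.X)
      rw [← hjx]
      congr 1
      simp [evX]
    rw [this]
    exact isIntegral_algebraMap
  have h2 := isIntegral_jLev_of_isIntegral (S := K₁) (R := A₀[X]) h1 d (NeZero.ne d)
  rw [jLev_eq] at h2
  obtain ⟨p, hpm, hp⟩ := h2
  refine ⟨p, hpm, ?_⟩
  apply hjinj
  rw [map_zero, Polynomial.hom_eval₂]
  have hy' : j y = qExpand K₁ d (jqModC K₁) := hy
  rw [hy']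
  exact hp

end

/-- **(L-INT)** -/
theorem modelIntegral (N : ℕ) [NeZero N] : ModelIntegralStatement N := by
  intro K₁ _ _ A₀ _ _ _ _ _ _ x hx Y hY
  induction hY using Algebra.adjoin_induction with
  | mem Y hY =>
    obtain ⟨d, hd, hdN, rfl⟩ := hY
    have := hd
    have hmem : qExpand K₁ d (jqModC K₁) ∈ laurentBaseChange K₁ (modularFunctionFieldFull N) := by
      have h : qExpand K₁ d (jqModC K₁) = coeffEmb K₁ (qExpand ℚ d jq) := by
        rw [coeffEmb, coeffMap_qExpand, ← jqModC_rat, coeffMap_jqModC]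
      rw [h]
      exact coeffEmb_mem_laurentBaseChange _ (jqd_mem_full N hdN)
    refine ⟨⟨_, hmem⟩, ?_, ?_⟩
    · rw [coeffMap_qExpand, coeffMap_jqModC]
    · exact (mem_chartClosure_iff x _).2 (smi_gen x hx ⟨_, hmem⟩ d rfl)
  | algebraMap n =>
    refine ⟨((n : ℤ) : ModelField K₁ N), ?_, ?_⟩
    · rw [coeffMap_algebraMap_int]
      push_cast
      rfl
    · exact intCast_mem _ n
  | add Y Z _ _ hY hZ =>
    obtain ⟨y, hy, hy'⟩ := hY
    obtain ⟨z, hz, hz'⟩ := hZ
    refine ⟨y + z, ?_, add_mem hy' hz'⟩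
    rw [map_add, ← hy, ← hz]
    rfl
  | mul Y Z _ _ hY hZ =>
    obtain ⟨y, hy, hy'⟩ := hY
    obtain ⟨z, hz, hz'⟩ := hZ
    refine ⟨y * z, ?_, mul_mem hy' hz'⟩
    rw [map_mul, ← hy, ← hz]
    rfl

end Fermat.Agent.H66.SS
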