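import Mathlib
import Fermat.Agent.H82.SS.QExp2Core

/-!
# P-SS row 665 (SS-A2), part 1 (helper66): generic lemmas around `qexp2_core`

Setting of `Fermat.Agent.H82.SS.qexp2_core`, with a family indexed by an arbitrary finite type.

* `ssc_reduce` : a relation `Σ p_i(x) e_i = 0` over `A₀[x]` reduces modulo `ϖ` along an
  embedding with integral expansions.
* `ssc_poly_indep` : two-sided Gauss independence implies independence over `A₀[x]`.
* `ssc_indep` : ... and over the chart field `K₁(x)`.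
* `ssc_span` : an independent family of cardinality `[E : K₁(x)]` spans.
* `ssc_qexp2` : `qexp2_core` for a family indexed by a finite type, with the spanning hypothesis
  replaced by the degree.
-/

set_option autoImplicit false
set_option maxSynthPendingDepth 3
set_option linter.unusedSectionVars false

noncomputable section

namespace Fermat.Agent.H66.SS

open Polynomial ModularCurve
open Fermat.Agent.H22.KL
open Fermat.Agent.H48.QExp

variable {K₁ : Type} [Field K₁] {A₀ : Type} [CommRing A₀] [IsDomain A₀]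
  [IsDiscreteValuationRing A₀] [Algebra A₀ K₁] [IsFractionRing A₀ K₁]
  {E : Type} [Field E] [Algebra K₁ E] [Algebra A₀ E] [IsScalarTower A₀ K₁ E]
  {ι : Type} [Fintype ι]

/-- a relation over `A₀[x]` reduces modulo `ϖ` -/
theorem ssc_reduce (j : E →ₐ[K₁] LaurentSeries K₁) (x : E) (xA : LaurentSeries A₀)
    (hxA : coeffMap (algebraMap A₀ K₁) xA = j x)
    (e : ι → E) (eA : ι → LaurentSeries A₀)
    (heA : ∀ i, coeffMap (algebraMap A₀ K₁) (eA i) = j (e i))
    (p : ι → A₀[X]) (h : ∑ i, aeval x (p i) * e i = 0) :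
    ∑ i, aeval (coeffMap (IsLocalRing.residue A₀) xA) ((p i).map (IsLocalRing.residue A₀)) *
      coeffMap (IsLocalRing.residue A₀) (eA i) = 0 := by
  have hφ : Function.Injective (algebraMap A₀ K₁) := IsFractionRing.injective A₀ K₁
  have hcm := coeffMap_inj (algebraMap A₀ K₁) hφ
  have hA : ∑ i, aeval xA (p i) * eA i = 0 := by
    apply hcm
    rw [map_zero, map_sum]
    have h1 := congrArg j h
    rw [map_zero, map_sum] at h1
    rw [← h1]
    refine Finset.sum_congr rfl fun i _ => ?_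
    rw [map_mul, map_mul, heA, map_aeval_eq_coeffMap j x xA hxA]
  have h2 := congrArg (coeffMap (IsLocalRing.residue A₀)) hA
  rw [map_zero, map_sum] at h2
  rw [← h2]
  refine Finset.sum_congr rfl fun i _ => ?_
  rw [map_mul, coeffMap_aeval]

/-- two-sided Gauss independence implies independence over `A₀[x]` -/
theorem ssc_poly_indep (j₁ j₂ : E →ₐ[K₁] LaurentSeries K₁) (ϖ : A₀) (hϖ : Irreducible ϖ)
    (x : E) (xA₁ xA₂ : LaurentSeries A₀)
    (hxA₁ : coeffMap (algebraMap A₀ K₁) xA₁ = j₁ x)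
    (hxA₂ : coeffMap (algebraMap A₀ K₁) xA₂ = j₂ x)
    (e : ι → E) (eA₁ eA₂ : ι → LaurentSeries A₀)
    (heA₁ : ∀ i, coeffMap (algebraMap A₀ K₁) (eA₁ i) = j₁ (e i))
    (heA₂ : ∀ i, coeffMap (algebraMap A₀ K₁) (eA₂ i) = j₂ (e i))
    (hGI : ∀ p : ι → (IsLocalRing.ResidueField A₀)[X],
      ∑ i, aeval (coeffMap (IsLocalRing.residue A₀) xA₁) (p i) *
        coeffMap (IsLocalRing.residue A₀) (eA₁ i) = 0 →
      ∑ i, aeval (coeffMap (IsLocalRing.residue A₀) xA₂) (p i) *
        coeffMap (IsLocalRing.residue A₀) (eA₂ i) = 0 → ∀ i, p i = 0)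
    (p : ι → A₀[X]) (h : ∑ i, aeval x (p i) * e i = 0) : ∀ i, p i = 0 := by
  classical
  have hφ : Function.Injective (algebraMap A₀ K₁) := IsFractionRing.injective A₀ K₁
  have hAE : Function.Injective (algebraMap A₀ E) := by
    rw [IsScalarTower.algebraMap_eq A₀ K₁ E]
    exact (algebraMap K₁ E).injective.comp hφ
  have hϖ0 : algebraMap A₀ E ϖ ≠ 0 := by
    intro h0
    exact hϖ.ne_zero (hAE (by rw [h0, map_zero]))
  -- divisibility by every power of `ϖ`
  have key : ∀ m : ℕ, ∀ p : ι → A₀[X], ∑ i, aeval x (p i) * e i = 0 →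
      ∀ i, (C ϖ) ^ m ∣ p i := by
    intro m
    induction m with
    | zero => intro p _ i; rw [pow_zero]; exact one_dvd _
    | succ m ih =>
      intro p hp
      have h1 := ssc_reduce j₁ x xA₁ hxA₁ e eA₁ heA₁ p hp
      have h2 := ssc_reduce j₂ x xA₂ hxA₂ e eA₂ heA₂ p hp
      have h3 := hGI _ h1 h2
      have h4 : ∀ i, C ϖ ∣ p i := fun i => (map_residue_eq_zero_iff hϖ (p i)).1 (h3 i)
      choose p' hp' using h4
      have hrel : ∑ i, aeval x (p' i) * e i = 0 := by
        apply mul_left_cancel₀ hϖ0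
        rw [mul_zero, ← hp, Finset.mul_sum]
        refine Finset.sum_congr rfl fun i _ => ?_
        rw [hp' i, map_mul, aeval_C]
        ring
      intro i
      rw [hp' i, pow_succ']
      exact mul_dvd_mul_left _ (ih p' hrel i)
  intro i
  by_contra hi
  have hnu : ¬ IsUnit (C ϖ : A₀[X]) := by
    rw [Polynomial.isUnit_C]
    exact hϖ.not_isUnit
  obtain ⟨m, hm⟩ := FiniteMultiplicity.of_not_isUnit hnu hi
  exact hm (key (m + 1) p h i)

/-- two-sided Gauss independence implies independence over the chart field -/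
theorem ssc_indep (j₁ j₂ : E →ₐ[K₁] LaurentSeries K₁) (ϖ : A₀) (hϖ : Irreducible ϖ)
    (x : E) (xA₁ xA₂ : LaurentSeries A₀)
    (hxA₁ : coeffMap (algebraMap A₀ K₁) xA₁ = j₁ x)
    (hxA₂ : coeffMap (algebraMap A₀ K₁) xA₂ = j₂ x)
    (e : ι → E) (eA₁ eA₂ : ι → LaurentSeries A₀)
    (heA₁ : ∀ i, coeffMap (algebraMap A₀ K₁) (eA₁ i) = j₁ (e i))
    (heA₂ : ∀ i, coeffMap (algebraMap A₀ K₁) (eA₂ i) = j₂ (e i))
    (hGI : ∀ p : ι → (IsLocalRing.ResidueField A₀)[X],
      ∑ i, aeval (coeffMap (IsLocalRing.residue A₀) xA₁) (p i) *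
        coeffMap (IsLocalRing.residue A₀) (eA₁ i) = 0 →
      ∑ i, aeval (coeffMap (IsLocalRing.residue A₀) xA₂) (p i) *
        coeffMap (IsLocalRing.residue A₀) (eA₂ i) = 0 → ∀ i, p i = 0)
    (c : ι → E) (hc : ∀ i, c i ∈ chartField A₀ E x) (h : ∑ i, c i * e i = 0) :
    ∀ i, c i = 0 := by
  classical
  obtain ⟨h₀, hh₀, hp₀⟩ := exists_common_denominator (A := A₀) Finset.univ x c
    fun i _ => hc i
  choose p hp using fun i => hp₀ i (Finset.mem_univ i)
  have hrel : ∑ i, aeval x (p i) * e i = 0 := by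
    have : ∑ i, aeval x (p i) * e i = aeval x h₀ * ∑ i, c i * e i := by
      rw [Finset.mul_sum]
      refine Finset.sum_congr rfl fun i _ => ?_
      rw [← hp i]
      ring
    rw [this, h, mul_zero]
  have hp0 := ssc_poly_indep j₁ j₂ ϖ hϖ x xA₁ xA₂ hxA₁ hxA₂ e eA₁ eA₂ heA₁ heA₂ hGI p hrel
  intro i
  have h1 := hp i
  rw [hp0 i, map_zero] at h1
  exact (mul_eq_zero.1 h1).resolve_right hh₀

/-- an independent family of cardinality `[E : K₁(x)]` spans -/
theorem ssc_span [Nonempty ι] (x : E) (e : ι → E)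
    (hfin : Module.finrank (chartField A₀ E x) E = Fintype.card ι)
    (hind : ∀ c : ι → E, (∀ i, c i ∈ chartField A₀ E x) → ∑ i, c i * e i = 0 → ∀ i, c i = 0)
    (y : E) : ∃ c : ι → E, (∀ i, c i ∈ chartField A₀ E x) ∧ y = ∑ i, c i * e i := by
  classical
  have hli : LinearIndependent (chartField A₀ E x) e := by
    rw [Fintype.linearIndependent_iff]
    intro g hg i
    have h1 := hind (fun i => (g i : E)) (fun i => (g i).2) (by
      rw [← hg]
      exact Finset.sum_congr rfl fun i _ => rfl) i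
    exact Subtype.ext h1
  let b := basisOfLinearIndependentOfCardEqFinrank hli hfin.symm
  refine ⟨fun i => ((b.repr y i : chartField A₀ E x) : E), fun i => (b.repr y i).2, ?_⟩
  have h1 := b.sum_repr y
  conv_lhs => rw [← h1]
  refine Finset.sum_congr rfl fun i _ => ?_
  rw [coe_basisOfLinearIndependentOfCardEqFinrank]
  rfl

/-- **`qexp2_core` for a family indexed by a finite type**, the spanning hypothesis being
replaced by the degree `[E : K₁(x)] = #ι`. -/
theorem ssc_qexp2 [Nonempty ι] (j₁ j₂ : E →ₐ[K₁] LaurentSeries K₁) (ϖ : A₀)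
    (hϖ : Irreducible ϖ)
    (x : E) (xA₁ xA₂ : LaurentSeries A₀)
    (hxA₁ : coeffMap (algebraMap A₀ K₁) xA₁ = j₁ x)
    (hxA₂ : coeffMap (algebraMap A₀ K₁) xA₂ = j₂ x)
    (hx : Transcendental A₀ x) (e : ι → E)
    (eA₁ eA₂ : ι → LaurentSeries A₀)
    (heA₁ : ∀ i, coeffMap (algebraMap A₀ K₁) (eA₁ i) = j₁ (e i))
    (heA₂ : ∀ i, coeffMap (algebraMap A₀ K₁) (eA₂ i) = j₂ (e i))
    (he : ∀ i, e i ∈ chartClosure A₀ E x)
    (hfin : Module.finrank (chartField A₀ E x) E = Fintype.card ι)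
    (hGI : ∀ p : ι → (IsLocalRing.ResidueField A₀)[X],
      ∑ i, aeval (coeffMap (IsLocalRing.residue A₀) xA₁) (p i) *
        coeffMap (IsLocalRing.residue A₀) (eA₁ i) = 0 →
      ∑ i, aeval (coeffMap (IsLocalRing.residue A₀) xA₂) (p i) *
        coeffMap (IsLocalRing.residue A₀) (eA₂ i) = 0 → ∀ i, p i = 0)
    (a b a' b' : E)
    (ha : ∀ m : ℤ, (j₁ a).coeff m ∈ (algebraMap A₀ K₁).range)
    (hb : ∀ m : ℤ, (j₁ b).coeff m ∈ (algebraMap A₀ K₁).range)
    (hbu : ∃ (m : ℤ) (c : A₀), IsUnit c ∧ algebraMap A₀ K₁ c = (j₁ b).coeff m)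
    (ha' : ∀ m : ℤ, (j₂ a').coeff m ∈ (algebraMap A₀ K₁).range)
    (hb' : ∀ m : ℤ, (j₂ b').coeff m ∈ (algebraMap A₀ K₁).range)
    (hbu' : ∃ (m : ℤ) (c : A₀), IsUnit c ∧ algebraMap A₀ K₁ c = (j₂ b').coeff m)
    (hz : a * b' = a' * b) :
    a / b ∈ gaussClosure A₀ E ϖ x := by
  classical
  have hind := ssc_indep j₁ j₂ ϖ hϖ x xA₁ xA₂ hxA₁ hxA₂ e eA₁ eA₂ heA₁ heA₂ hGI
  have hspan := ssc_span (A₀ := A₀) x e hfin hind
  set σ : ι ≃ Fin (Fintype.card ι) := Fintype.equivFin ι with hσ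
  refine Fermat.Agent.H82.SS.qexp2_core j₁ j₂ ϖ hϖ x xA₁ xA₂ hxA₁ hxA₂ hx (Fintype.card ι)
    (fun k => e (σ.symm k)) (fun k => eA₁ (σ.symm k)) (fun k => eA₂ (σ.symm k))
    (fun k => heA₁ _) (fun k => heA₂ _) (fun k => he _) ?_ ?_ a b a' b' ha hb hbu ha' hb' hbu' hz
  · intro y
    obtain ⟨c, hc, hy⟩ := hspan y
    refine ⟨fun k => c (σ.symm k), fun k => hc _, ?_⟩
    rw [hy]
    exact (Equiv.sum_comp σ.symm (fun i => c i * e i)).symm
  · intro p h1 h2 k
    have h1' : ∑ i, aeval (coeffMap (IsLocalRing.residue A₀) xA₁) (p (σ i)) *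
        coeffMap (IsLocalRing.residue A₀) (eA₁ i) = 0 := by
      rw [← h1]
      rw [← Equiv.sum_comp σ]
      refine Finset.sum_congr rfl fun i _ => ?_
      rw [Equiv.symm_apply_apply]
    have h2' : ∑ i, aeval (coeffMap (IsLocalRing.residue A₀) xA₂) (p (σ i)) *
        coeffMap (IsLocalRing.residue A₀) (eA₂ i) = 0 := by
      rw [← h2]
      rw [← Equiv.sum_comp σ]
      refine Finset.sum_congr rfl fun i _ => ?_
      rw [Equiv.symm_apply_apply]
    have h3 := hGI (fun i => p (σ i)) h1' h2' (σ.symm k)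
    simpa using h3

end Fermat.Agent.H66.SS
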