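import Mathlib
import Fermat.Agent.H66.SS.Core

/-!
# P-SS rows 929 / 942 (FRAC), part 1 (helper66): the normalised expansion

Setting of `Fermat.Agent.H82.SS.qexp2_core` / `Fermat.Agent.H66.SS.ssc_qexp2`.

* `ssc_expansion_fin` / `ssc_expansion` : every `z = a / b = a' / b'` in `V_∞ ∩ V_0` has an
  expansion `h(x) z = ∑ p_s(x) e_s` with `h, p_s ∈ A₀[X]` and `ϖ ∤ h`.
-/

set_option autoImplicit false
set_option maxSynthPendingDepth 3
set_option linter.unusedSectionVars false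

noncomputable section

namespace Fermat.Agent.H66.SS

open Polynomial ModularCurve
open Fermat.Agent.H22.KL
open Fermat.Agent.H48.QExp
open Fermat.Agent.H87.KL

variable {K₁ : Type} [Field K₁] {A₀ : Type} [CommRing A₀] [IsDomain A₀]
  [IsDiscreteValuationRing A₀] [Algebra A₀ K₁] [IsFractionRing A₀ K₁]
  {E : Type} [Field E] [Algebra K₁ E] [Algebra A₀ E] [IsScalarTower A₀ K₁ E]

/-- the normalised expansion, family indexed by `Fin n` -/
theorem ssc_expansion_fin (ι₁ ι₂ : E →ₐ[K₁] LaurentSeries K₁) (ϖ : A₀) (hϖ : Irreducible ϖ)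
    (x : E) (xA₁ xA₂ : LaurentSeries A₀)
    (hxA₁ : coeffMap (algebraMap A₀ K₁) xA₁ = ι₁ x)
    (hxA₂ : coeffMap (algebraMap A₀ K₁) xA₂ = ι₂ x)
    (n : ℕ) (e : Fin n → E)
    (eA₁ eA₂ : Fin n → LaurentSeries A₀)
    (heA₁ : ∀ i, coeffMap (algebraMap A₀ K₁) (eA₁ i) = ι₁ (e i))
    (heA₂ : ∀ i, coeffMap (algebraMap A₀ K₁) (eA₂ i) = ι₂ (e i))
    (hspan : ∀ y : E, ∃ c : Fin n → E, (∀ i, c i ∈ chartField A₀ E x) ∧
      y = ∑ i, c i * e i)
    (hGI : ∀ p : Fin n → (IsLocalRing.ResidueField A₀)[X],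
      ∑ i, aeval (coeffMap (IsLocalRing.residue A₀) xA₁) (p i) *
        coeffMap (IsLocalRing.residue A₀) (eA₁ i) = 0 →
      ∑ i, aeval (coeffMap (IsLocalRing.residue A₀) xA₂) (p i) *
        coeffMap (IsLocalRing.residue A₀) (eA₂ i) = 0 → ∀ i, p i = 0)
    (a b a' b' : E)
    (ha : ∀ m : ℤ, (ι₁ a).coeff m ∈ (algebraMap A₀ K₁).range)
    (hb : ∀ m : ℤ, (ι₁ b).coeff m ∈ (algebraMap A₀ K₁).range)
    (hbu : ∃ (m : ℤ) (c : A₀), IsUnit c ∧ algebraMap A₀ K₁ c = (ι₁ b).coeff m)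
    (ha' : ∀ m : ℤ, (ι₂ a').coeff m ∈ (algebraMap A₀ K₁).range)
    (hb' : ∀ m : ℤ, (ι₂ b').coeff m ∈ (algebraMap A₀ K₁).range)
    (hbu' : ∃ (m : ℤ) (c : A₀), IsUnit c ∧ algebraMap A₀ K₁ c = (ι₂ b').coeff m)
    (hz : a * b' = a' * b) :
    ∃ (h : A₀[X]) (p : Fin n → A₀[X]), ¬ C ϖ ∣ h ∧
      aeval x h * (a / b) = ∑ i, aeval x (p i) * e i := by
  classical
  have hφ : Function.Injective (algebraMap A₀ K₁) := IsFractionRing.injective A₀ K₁
  have hAE : Function.Injective (algebraMap A₀ E) := by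
    rw [IsScalarTower.algebraMap_eq A₀ K₁ E]
    exact (algebraMap K₁ E).injective.comp hφ
  have hne : ∀ (ι : E →ₐ[K₁] LaurentSeries K₁) (b : E),
      (∃ (m : ℤ) (c : A₀), IsUnit c ∧ algebraMap A₀ K₁ c = (ι b).coeff m) → b ≠ 0 := by
    rintro ι b ⟨m, c, hc, hcm⟩ rfl
    rw [map_zero, HahnSeries.coeff_zero] at hcm
    have : c = 0 := hφ (by rw [hcm, map_zero])
    exact hc.ne_zero this
  have hb0 : b ≠ 0 := hne ι₁ b hbu
  have hb0' : b' ≠ 0 := hne ι₂ b' hbu'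
  have hzz : a / b = a' / b' := by
    rw [div_eq_div_iff hb0 hb0']
    exact hz
  obtain ⟨c, hc, hy⟩ := hspan (a / b)
  obtain ⟨h₀, hh₀, hp₀⟩ := exists_common_denominator (A := A₀) Finset.univ x c
    fun i _ => hc i
  choose p₀ hp₀ using fun i => hp₀ i (Finset.mem_univ i)
  obtain ⟨h, p, hh, hp, hnorm⟩ := exists_normalized hAE hϖ x c h₀ hh₀ p₀ hp₀
  have hsum : aeval x h * (a / b) = ∑ i, aeval x (p i) * e i := by
    rw [hy, Finset.mul_sum]
    refine Finset.sum_congr rfl fun i _ => ?_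
    rw [← hp i]
    ring
  have heq : aeval x h * a = b * ∑ i, aeval x (p i) * e i := by
    rw [← hsum]
    field_simp
  have heq' : aeval x h * a' = b' * ∑ i, aeval x (p i) * e i := by
    rw [← hsum, hzz]
    field_simp
  refine ⟨h, p, ?_, hsum⟩
  intro hd
  apply hnorm
  refine ⟨hd, ?_⟩
  have hd0 : h.map (IsLocalRing.residue A₀) = 0 := (map_residue_eq_zero_iff hϖ h).2 hd
  have h1 := Fermat.Agent.H82.SS.qexp2_reduce ι₁ ϖ x xA₁ hxA₁ n e eA₁ heA₁ a b ha hb hbu h p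
    heq hd0
  have h2 := Fermat.Agent.H82.SS.qexp2_reduce ι₂ ϖ x xA₂ hxA₂ n e eA₂ heA₂ a' b' ha' hb' hbu' h p
    heq' hd0
  intro i
  exact (map_residue_eq_zero_iff hϖ (p i)).1 (hGI _ h1 h2 i)

variable {ι : Type} [Fintype ι]

/-- **the normalised expansion** of an element of `V_∞ ∩ V_0` over a two-sided Gauss
independent family of cardinality `[E : K₁(x)]` -/
theorem ssc_expansion [Nonempty ι] (j₁ j₂ : E →ₐ[K₁] LaurentSeries K₁) (ϖ : A₀)
    (hϖ : Irreducible ϖ)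
    (x : E) (xA₁ xA₂ : LaurentSeries A₀)
    (hxA₁ : coeffMap (algebraMap A₀ K₁) xA₁ = j₁ x)
    (hxA₂ : coeffMap (algebraMap A₀ K₁) xA₂ = j₂ x)
    (e : ι → E)
    (eA₁ eA₂ : ι → LaurentSeries A₀)
    (heA₁ : ∀ i, coeffMap (algebraMap A₀ K₁) (eA₁ i) = j₁ (e i))
    (heA₂ : ∀ i, coeffMap (algebraMap A₀ K₁) (eA₂ i) = j₂ (e i))
    (hfin : Module.finrank (chartField A₀ E x) E = Fintype.card ι)
    (hGI : ∀ p : ι → (IsLocalRing.ResidueField A₀)[X],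
      ∑ i, aeval (coeffMap (IsLocalRing.residue A₀) xA₁) (p i) *
        coeffMap (IsLocalRing.residue A₀) (eA₁ i) = 0 →
      ∑ i, aeval (coeffMap (IsLocalRing.residue A₀) xA₂) (p i) *
        coeffMap (IsLocalRing.residue A₀) (eA₂ i) = 0 → ∀ i, p i = 0)
    (a b a' b' : E)
    (ha : ∀ m : ℤ, (j₁ a).coeff m ∈ (algebraMap A₀ K₁).range)
    (hb : ∀ m : ℤ, (j₁ b).coeff m ∈ (algebraMap A₀ K₁).range)
    (hbu : ∃ (m : ℤ) (c : A₀), IsUnit c ∧ algebraMap A₀ K₁ c = (j₁ b).coeff m)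
    (ha' : ∀ m : ℤ, (j₂ a').coeff m ∈ (algebraMap A₀ K₁).range)
    (hb' : ∀ m : ℤ, (j₂ b').coeff m ∈ (algebraMap A₀ K₁).range)
    (hbu' : ∃ (m : ℤ) (c : A₀), IsUnit c ∧ algebraMap A₀ K₁ c = (j₂ b').coeff m)
    (hz : a * b' = a' * b) :
    ∃ (h : A₀[X]) (p : ι → A₀[X]), ¬ C ϖ ∣ h ∧
      aeval x h * (a / b) = ∑ s, aeval x (p s) * e s := by
  classical
  have hind := ssc_indep j₁ j₂ ϖ hϖ x xA₁ xA₂ hxA₁ hxA₂ e eA₁ eA₂ heA₁ heA₂ hGI
  have hspan := ssc_span (A₀ := A₀) x e hfin hind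
  set σ : ι ≃ Fin (Fintype.card ι) := Fintype.equivFin ι with hσ
  have hspan' : ∀ y : E, ∃ c : Fin (Fintype.card ι) → E, (∀ i, c i ∈ chartField A₀ E x) ∧
      y = ∑ i, c i * e (σ.symm i) := by
    intro y
    obtain ⟨c, hc, hy⟩ := hspan y
    refine ⟨fun k => c (σ.symm k), fun k => hc _, ?_⟩
    rw [hy]
    exact (Equiv.sum_comp σ.symm (fun i => c i * e i)).symm
  have hGI' : ∀ p : Fin (Fintype.card ι) → (IsLocalRing.ResidueField A₀)[X],
      ∑ i, aeval (coeffMap (IsLocalRing.residue A₀) xA₁) (p i) *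
        coeffMap (IsLocalRing.residue A₀) (eA₁ (σ.symm i)) = 0 →
      ∑ i, aeval (coeffMap (IsLocalRing.residue A₀) xA₂) (p i) *
        coeffMap (IsLocalRing.residue A₀) (eA₂ (σ.symm i)) = 0 → ∀ i, p i = 0 := by
    intro p h1 h2 k
    have h1' : ∑ i, aeval (coeffMap (IsLocalRing.residue A₀) xA₁) (p (σ i)) *
        coeffMap (IsLocalRing.residue A₀) (eA₁ i) = 0 := by
      rw [← h1]
      rw [← Equiv.sum_comp σ]
      refine Finset.sum_congr rfl fun i _ => ?_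
      rw [Equiv.symm_apply_apply]
    have h2' : ∑ i, aeval (coeffMap (IsLocalRing.residue A₀) xA₂) (p (σ i)) *
        coeffMap (IsLocalRing.residue A₀) (eA₂ i) = 0 := by
      rw [← h2]
      rw [← Equiv.sum_comp σ]
      refine Finset.sum_congr rfl fun i _ => ?_
      rw [Equiv.symm_apply_apply]
    have h3 := hGI (fun i => p (σ i)) h1' h2' (σ.symm k)
    simpa using h3
  obtain ⟨h, p, hh, hp⟩ := ssc_expansion_fin j₁ j₂ ϖ hϖ x xA₁ xA₂ hxA₁ hxA₂ (Fintype.card ι)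
    (fun k => e (σ.symm k)) (fun k => eA₁ (σ.symm k)) (fun k => eA₂ (σ.symm k))
    (fun k => heA₁ _) (fun k => heA₂ _) hspan' hGI' a b a' b' ha hb hbu ha' hb' hbu' hz
  refine ⟨h, fun s => p (σ s), hh, ?_⟩
  rw [hp, ← Equiv.sum_comp σ]
  refine Finset.sum_congr rfl fun s _ => ?_
  rw [Equiv.symm_apply_apply]

end Fermat.Agent.H66.SS
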