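import Mathlib
import Fermat.Agent.H82.SS.Model
import Fermat.Prelude.Thm_ModularCurve_coeffMap_qExpand

/-!
# P-SS row 665 (SS-A2), part 2 (helper66): the two-sided family and its Gauss independence

For series `x, θ` over a commutative ring `R`, a prime `q` and `d : ℕ` the two families indexed
by `Fin d ⊕ (Fin d × Fin q)`

* `famInf`  : `θ^i`  and  `θ^i (x(t^q) - x^q) x(t^q)^j`   (expansions at `∞`),
* `famZero` : `θ(t^q)^i`  and  `θ(t^q)^i (x - x(t^q)^q) x^j`   (expansions at `0`).

`ssq_twoSidedGI` : in characteristic `q` (more precisely: if `x(t^q) = x^q`), if the `θ^i` are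
independent over `k[x]` and `x ∉ k((t^q))`, the pairs `(famInf s, famZero s)` are independent over
`k[X]` acting through `(x, x(t^q))`.
-/

set_option autoImplicit false

noncomputable section

namespace Fermat.Agent.H66.SS

open Polynomial ModularCurve

section Families

variable (R : Type*) [CommRing R] (q : ℕ) [NeZero q]

/-- the family at the cusp `∞` -/
def famInf (x θ : LaurentSeries R) (d : ℕ) : Fin d ⊕ (Fin d × Fin q) → LaurentSeries R
  | Sum.inl i => θ ^ (i : ℕ)
  | Sum.inr (i, j) => θ ^ (i : ℕ) * (qExpand R q x - x ^ q) * (qExpand R q x) ^ (j : ℕ)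

/-- the family at the cusp `0` -/
def famZero (x θ : LaurentSeries R) (d : ℕ) : Fin d ⊕ (Fin d × Fin q) → LaurentSeries R
  | Sum.inl i => (qExpand R q θ) ^ (i : ℕ)
  | Sum.inr (i, j) => (qExpand R q θ) ^ (i : ℕ) * (x - (qExpand R q x) ^ q) * x ^ (j : ℕ)

variable {R}

theorem coeffMap_famInf {S : Type*} [CommRing S] (f : R →+* S) (x θ : LaurentSeries R) (d : ℕ)
    (s : Fin d ⊕ (Fin d × Fin q)) :
    coeffMap f (famInf R q x θ d s) = famInf S q (coeffMap f x) (coeffMap f θ) d s := by
  rcases s with i | ⟨i, j⟩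
  · simp only [famInf, map_pow]
  · simp only [famInf, map_pow, map_mul, map_sub, coeffMap_qExpand]

theorem coeffMap_famZero {S : Type*} [CommRing S] (f : R →+* S) (x θ : LaurentSeries R) (d : ℕ)
    (s : Fin d ⊕ (Fin d × Fin q)) :
    coeffMap f (famZero R q x θ d s) = famZero S q (coeffMap f x) (coeffMap f θ) d s := by
  rcases s with i | ⟨i, j⟩
  · simp only [famZero, map_pow, coeffMap_qExpand]
  · simp only [famZero, map_pow, map_mul, map_sub, coeffMap_qExpand]

end Families

/-- **Two-sided Gauss independence** of the family in characteristic `q`. -/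
theorem ssq_twoSidedGI (hTw : Fermat.Agent.H82.SS.TwistIndepStatement)
    (k : Type) [Field k] (q : ℕ) [NeZero q] (hq : q.Prime)
    (x θ : LaurentSeries k) (d : ℕ)
    (hGI : ∀ p : Fin d → k[X], ∑ i, aeval x (p i) * θ ^ (i : ℕ) = 0 → ∀ i, p i = 0)
    (hx : ∃ m : ℤ, ¬ (q : ℤ) ∣ m ∧ x.coeff m ≠ 0)
    (hfrob : qExpand k q x = x ^ q)
    (p : Fin d ⊕ (Fin d × Fin q) → k[X])
    (h1 : ∑ s, aeval x (p s) * famInf k q x θ d s = 0)
    (h2 : ∑ s, aeval (qExpand k q x) (p s) * famZero k q x θ d s = 0) :
    ∀ s, p s = 0 := by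
  classical
  -- the `∞`-side kills the first group
  have hl : ∀ i, p (Sum.inl i) = 0 := by
    apply hGI
    rw [Fintype.sum_sum_type] at h1
    have hz : ∑ s : Fin d × Fin q, aeval x (p (Sum.inr s)) * famInf k q x θ d (Sum.inr s) = 0 := by
      refine Finset.sum_eq_zero fun s _ => ?_
      obtain ⟨i, j⟩ := s
      simp only [famInf]
      rw [hfrob, sub_self, mul_zero, zero_mul, mul_zero]
    rw [hz, add_zero] at h1
    exact h1
  -- `x - x(t^q)^q ≠ 0`
  have hne : x - (qExpand k q x) ^ q ≠ 0 := by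
    obtain ⟨m, hm, hxm⟩ := hx
    intro h0
    apply hxm
    have h3 := congrArg (fun y : LaurentSeries k => y.coeff m) h0
    simp only [HahnSeries.coeff_sub, HahnSeries.coeff_zero] at h3
    rw [← map_pow, qExpand_coeff_of_not_dvd q _ hm, sub_zero] at h3
    exact h3
  -- the `0`-side kills the second group
  have hr : ∀ i j, p (Sum.inr (i, j)) = 0 := by
    apply hTw k q hq x θ d hGI hx
    rw [Fintype.sum_sum_type] at h2
    have hz : ∑ i : Fin d, aeval (qExpand k q x) (p (Sum.inl i)) * famZero k q x θ d (Sum.inl i)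
        = 0 := by
      refine Finset.sum_eq_zero fun i _ => ?_
      rw [hl i, map_zero, zero_mul]
    rw [hz, zero_add, Fintype.sum_prod_type] at h2
    apply mul_left_cancel₀ hne
    rw [mul_zero, ← h2, Finset.mul_sum]
    refine Finset.sum_congr rfl fun i _ => ?_
    rw [Finset.mul_sum]
    refine Finset.sum_congr rfl fun j _ => ?_
    simp only [famZero]
    ring
  rintro (i | ⟨i, j⟩)
  · exact hl i
  · exact hr i j

end Fermat.Agent.H66.SS
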