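import Mathlib
import Fermat.Agent.H66.SS.CharQ
import Fermat.Agent.H66.SS.Leaves

/-!
# P-SS row 665 (SS-A2), part 3 (helper66): the two-sided family lives in `ℤ[j(t^d) : d ∣ M q]`
-/

set_option autoImplicit false
set_option linter.unusedSectionVars false

noncomputable section

namespace Fermat.Agent.H66.SS

open Polynomial ModularCurve
open Fermat.Agent.H27.KLGB

variable (M q : ℕ) [NeZero M] [NeZero q]

theorem ssf_gensR_subset : gensR ℤ M ⊆ gensR ℤ (M * q) := by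
  rintro y ⟨d, hd, hdM, rfl⟩
  exact ⟨d, hd, Dvd.dvd.mul_right hdM q, rfl⟩

theorem ssf_adjoin_le :
    Algebra.adjoin ℤ (gensR ℤ M) ≤ Algebra.adjoin ℤ (gensR ℤ (M * q)) :=
  Algebra.adjoin_mono (ssf_gensR_subset M q)

theorem ssf_jq_mem : jqModC ℤ ∈ Algebra.adjoin ℤ (gensR ℤ (M * q)) :=
  Algebra.subset_adjoin (jqModC_mem_gensR ℤ (M * q))

theorem ssf_jq_q_mem : qExpand ℤ q (jqModC ℤ) ∈ Algebra.adjoin ℤ (gensR ℤ (M * q)) :=
  Algebra.subset_adjoin ⟨q, inferInstance, Dvd.intro_left M rfl, rfl⟩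

theorem ssf_qExpand_mem {Y : LaurentSeries ℤ} (hY : Y ∈ Algebra.adjoin ℤ (gensR ℤ M)) :
    qExpand ℤ q Y ∈ Algebra.adjoin ℤ (gensR ℤ (M * q)) := by
  induction hY using Algebra.adjoin_induction with
  | mem y hy =>
    obtain ⟨d, hd, hdM, rfl⟩ := hy
    have := hd
    have hne : NeZero (q * d) := ⟨Nat.mul_ne_zero (NeZero.ne q) (NeZero.ne d)⟩
    rw [qExpand_qExpand]
    refine Algebra.subset_adjoin ⟨q * d, hne, ?_, rfl⟩
    rw [mul_comm q d]
    exact Nat.mul_dvd_mul_right hdM q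
  | algebraMap n =>
    have h : qExpand ℤ q (algebraMap ℤ (LaurentSeries ℤ) n) = algebraMap ℤ (LaurentSeries ℤ) n := by
      rw [eq_intCast, map_intCast]
    rw [h]
    exact Subalgebra.algebraMap_mem _ n
  | add x y _ _ hx hy => rw [map_add]; exact add_mem hx hy
  | mul x y _ _ hx hy => rw [map_mul]; exact mul_mem hx hy

theorem ssf_famInf_mem {θ : LaurentSeries ℤ} (hθ : θ ∈ Algebra.adjoin ℤ (gensR ℤ M)) (d : ℕ)
    (s : Fin d ⊕ (Fin d × Fin q)) :
    famInf ℤ q (jqModC ℤ) θ d s ∈ Algebra.adjoin ℤ (gensR ℤ (M * q)) := by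
  have h1 := ssf_adjoin_le M q hθ
  have h2 := ssf_jq_mem M q
  have h3 := ssf_jq_q_mem M q
  rcases s with i | ⟨i, j⟩
  · exact pow_mem h1 _
  · exact mul_mem (mul_mem (pow_mem h1 _) (sub_mem h3 (pow_mem h2 _))) (pow_mem h3 _)

theorem ssf_famZero_mem {θ : LaurentSeries ℤ} (hθ : θ ∈ Algebra.adjoin ℤ (gensR ℤ M)) (d : ℕ)
    (s : Fin d ⊕ (Fin d × Fin q)) :
    famZero ℤ q (jqModC ℤ) θ d s ∈ Algebra.adjoin ℤ (gensR ℤ (M * q)) := by
  have h1 := ssf_qExpand_mem M q hθ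
  have h2 := ssf_jq_mem M q
  have h3 := ssf_jq_q_mem M q
  rcases s with i | ⟨i, j⟩
  · exact pow_mem h1 _
  · exact mul_mem (mul_mem (pow_mem h1 _) (sub_mem h2 (pow_mem h3 _))) (pow_mem h2 _)

theorem ssf_dedekindPsi_pos : 0 < dedekindPsi M := by
  classical
  unfold dedekindPsi
  have hM : 0 < M := Nat.pos_of_ne_zero (NeZero.ne M)
  have h1 : (1 : ℕ) ∈ Finset.filter (fun d => Squarefree d) M.divisors := by
    rw [Finset.mem_filter]
    exact ⟨Nat.one_mem_divisors.mpr (NeZero.ne M), squarefree_one⟩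
  calc 0 < M / 1 := by rw [Nat.div_one]; exact hM
    _ ≤ _ := Finset.single_le_sum (f := fun d => M / d) (fun _ _ => Nat.zero_le _) h1

end Fermat.Agent.H66.SS
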