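import Mathlib
import Fermat.Agent.H66.SS.Core
import Fermat.Agent.H66.SS.Family
import Fermat.Agent.H66.KLM.StrongBasis
import Fermat.Agent.H26.DedekindPsi

/-!
# P-SS row 665 (SS-A2), part 4 (helper66): the two-sided `q`-expansion principle, assembly

`modelQExp2_of_leaves` : `ModelQExp2Statement M q jq` from `TwistIndepStatement` (row 664) and the
three leaves `ModelIntegralStatement (M q)`, `ModelFinrankStatement (M q)`, `FrobStatement`.
-/

set_option autoImplicit false
set_option maxSynthPendingDepth 3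
set_option linter.unusedSectionVars false
set_option synthInstance.maxHeartbeats 400000
set_option maxHeartbeats 1600000

noncomputable section

namespace Fermat.Agent.H66.SS

open Polynomial ModularCurve
open Fermat.Agent.H22.KL Fermat.Agent.H27.KLGB Fermat.Agent.H82.SS

section Generalities

variable {R S T : Type*} [CommRing R] [CommRing S] [CommRing T]

theorem ssa_coeffMap_int (f : R →+* S) (Y : LaurentSeries ℤ) :
    coeffMap f (coeffMap (Int.castRingHom R) Y) = coeffMap (Int.castRingHom S) Y := by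
  rw [coeffMap_coeffMap]
  exact coeffMap_congr (RingHom.ext_int _ _) Y

end Generalities

section Model

variable (M q : ℕ) [NeZero M] [NeZero q]
variable (K₁ : Type) [Field K₁] [Algebra ℚ K₁]

/-- an element of the level `M` model field with a prescribed expansion, and its two images at
level `M q` -/
theorem ssa_exists_pair (W : ModelField K₁ (M * q) ≃ₐ[K₁] ModelField K₁ (M * q))
    (hW : IsAtkinLehnerModel K₁ M q W) (y : LaurentSeries K₁)
    (hy : y ∈ laurentBaseChange K₁ (modularFunctionFieldFull M)) :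
    ∃ u v : ModelField K₁ (M * q), (u : LaurentSeries K₁) = y ∧
      (v : LaurentSeries K₁) = qExpand K₁ q y ∧ W u = v ∧ W v = u := by
  refine ⟨heckeAlphaBar K₁ M q ⟨y, hy⟩, heckeBetaBar K₁ M q ⟨y, hy⟩, ?_, ?_, hW.1 _, hW.2 _⟩
  · rw [coe_heckeAlphaBar]
  · rw [coe_heckeBetaBar]

end Model

section Main

/-- the residue field of a local ring in which the prime `q` is not a unit has characteristic
`q` -/
theorem ssa_charP {A₀ : Type} [CommRing A₀] [IsLocalRing A₀] (q : ℕ) (hq : q.Prime)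
    (hqA : ¬ IsUnit ((q : ℕ) : A₀)) : CharP (IsLocalRing.ResidueField A₀) q := by
  have h0 : ((q : ℕ) : IsLocalRing.ResidueField A₀) = 0 := by
    have h1 : IsLocalRing.residue A₀ ((q : ℕ) : A₀) = 0 :=
      (IsLocalRing.residue_eq_zero_iff _).mpr ((IsLocalRing.mem_maximalIdeal _).mpr hqA)
    rwa [map_natCast] at h1
  exact (CharP.charP_iff_prime_eq_zero hq).mpr h0

theorem ssa_card (d q : ℕ) : Fintype.card (Fin d ⊕ (Fin d × Fin q)) = d * (q + 1) := by
  rw [Fintype.card_sum, Fintype.card_prod, Fintype.card_fin, Fintype.card_fin]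
  ring

/-- **The two-sided `q`-expansion principle** (row 665), from the leaves. -/
theorem modelQExp2_of_leaves (M q : ℕ) [NeZero M] [NeZero q] (hq : q.Prime) (hqM : ¬ q ∣ M)
    (hTw : TwistIndepStatement) (hInt : ModelIntegralStatement (M * q))
    (hDeg : ModelFinrankStatement (M * q)) (hFrob : FrobStatement) :
    ModelQExp2Statement M q jq := by
  classical
  intro K₁ _ _ _ A₀ _ _ _ _ _ _ _ hqA ϖ hϖ x hx W hW a b a' b' ha hb hbu ha' hb' hbu' hz
  have : Fact q.Prime := ⟨hq⟩
  obtain ⟨θ, P, hθ, hPm, hPnat, hPθ, -, -, hmin, hall⟩ := goodPrimitive_j_full M q hqM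
  have hn : (minpoly ↥(kJ (ZMod q)) (coeffMap (Int.castRingHom (ZMod q)) θ)).natDegree =
      dedekindPsi M := by rw [hmin, hPm.natDegree_map, hPnat]
  obtain ⟨d, hd⟩ : ∃ d : ℕ, d = dedekindPsi M := ⟨_, rfl⟩
  rw [← hd] at hn
  have hdpos : 0 < d := by rw [hd]; exact ssf_dedekindPsi_pos M
  -- level `M` elements and their images
  have : CharZero K₁ := algebraRat.charZero K₁
  obtain ⟨hθQ, -, -⟩ := hall ℚ
  have hθM : coeffMap (Int.castRingHom K₁) θ ∈
      laurentBaseChange K₁ (modularFunctionFieldFull M) := by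
    rw [← coeffEmb_coeffMap_int]
    exact coeffEmb_mem_laurentBaseChange K₁ hθQ
  have hxM : jqModC K₁ ∈ laurentBaseChange K₁ (modularFunctionFieldFull M) := by
    rw [← coeffEmb_jq]
    exact coeffEmb_mem_laurentBaseChange K₁ (jqModC_mem_full ℚ M)
  obtain ⟨θu, θv, hθu, hθv, hWθu, hWθv⟩ := ssa_exists_pair M q K₁ W hW _ hθM
  obtain ⟨xu, xv, hxu, hxv, hWxu, hWxv⟩ := ssa_exists_pair M q K₁ W hW _ hxM
  have hxxu : x = xu := Subtype.ext (by rw [hx, hxu, coeffEmb_jq])
  -- expansions over `K₁` of the integral series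
  have hθK : coeffMap (Int.castRingHom K₁) θ = (θu : LaurentSeries K₁) := hθu.symm
  have hxK : coeffMap (Int.castRingHom K₁) (jqModC ℤ) = (xu : LaurentSeries K₁) := by
    rw [coeffMap_jqModC, hxu]
  -- the family
  choose e he_exp he_int using
    fun s : Fin d ⊕ (Fin d × Fin q) => hInt K₁ A₀ x hx _ (ssf_famInf_mem M q hθ d s)
  have he_inl : ∀ i : Fin d, e (Sum.inl i) = θu ^ (i : ℕ) := by
    intro i
    apply Subtype.ext
    rw [he_exp, coeffMap_famInf]
    simp only [famInf]
    rw [hθK]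
    rfl
  have he_inr : ∀ (i : Fin d) (j : Fin q),
      e (Sum.inr (i, j)) = θu ^ (i : ℕ) * (xv - xu ^ q) * xv ^ (j : ℕ) := by
    intro i j
    apply Subtype.ext
    rw [he_exp, coeffMap_famInf]
    simp only [famInf]
    rw [hθK, hxK]
    push_cast
    rw [hxv, hxu]
  -- the expansions at `0`
  have hWe : ∀ s, ((W (e s) : ModelField K₁ (M * q)) : LaurentSeries K₁) =
      coeffMap (Int.castRingHom K₁) (famZero ℤ q (jqModC ℤ) θ d s) := by
    rintro (i | ⟨i, j⟩)
    · rw [he_inl, map_pow, hWθu, coeffMap_famZero]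
      simp only [famZero]
      rw [hθK]
      push_cast
      rw [hθv, hθu]
    · rw [he_inr, map_mul, map_mul, map_pow, map_sub, map_pow, map_pow, hWθu, hWxv, hWxu,
        coeffMap_famZero]
      simp only [famZero]
      rw [hθK, hxK]
      push_cast
      rw [hθv, hxv, hθu, hxu]
  -- the two embeddings
  obtain ⟨j₁, hj₁⟩ : ∃ j₁ : ModelField K₁ (M * q) →ₐ[K₁] LaurentSeries K₁,
      ∀ z, j₁ z = (z : LaurentSeries K₁) :=
    ⟨(laurentBaseChange K₁ (modularFunctionFieldFull (M * q))).val, fun _ => rfl⟩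
  obtain ⟨j₂, hj₂⟩ : ∃ j₂ : ModelField K₁ (M * q) →ₐ[K₁] LaurentSeries K₁,
      ∀ z, j₂ z = ((W z : ModelField K₁ (M * q)) : LaurentSeries K₁) :=
    ⟨j₁.comp (W : ModelField K₁ (M * q) →ₐ[K₁] ModelField K₁ (M * q)), fun z => by
      rw [AlgHom.comp_apply, hj₁]
      rfl⟩
  -- the residue field
  have hchar : CharP (IsLocalRing.ResidueField A₀) q := ssa_charP q hq hqA
  -- degree
  have hfin : Module.finrank (chartField A₀ (ModelField K₁ (M * q)) x) (ModelField K₁ (M * q)) =
      Fintype.card (Fin d ⊕ (Fin d × Fin q)) := by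
    rw [hDeg K₁ A₀ x hx, ssa_card, hd]
    exact Fermat.Agent.H26.dedekindPsi_mul_prime_of_not_dvd M q
      (Nat.pos_of_ne_zero (NeZero.ne M)) hq hqM
  have hne : Nonempty (Fin d ⊕ (Fin d × Fin q)) := ⟨Sum.inl ⟨0, hdpos⟩⟩
  -- two-sided Gauss independence
  have hGI : ∀ p : Fin d ⊕ (Fin d × Fin q) → (IsLocalRing.ResidueField A₀)[X],
      ∑ s, aeval (coeffMap (IsLocalRing.residue A₀) (jqModC A₀)) (p s) *
        coeffMap (IsLocalRing.residue A₀)
          (coeffMap (Int.castRingHom A₀) (famInf ℤ q (jqModC ℤ) θ d s)) = 0 →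
      ∑ s, aeval (coeffMap (IsLocalRing.residue A₀) (qExpand A₀ q (jqModC A₀))) (p s) *
        coeffMap (IsLocalRing.residue A₀)
          (coeffMap (Int.castRingHom A₀) (famZero ℤ q (jqModC ℤ) θ d s)) = 0 → ∀ s, p s = 0 := by
    intro p h1 h2
    refine ssq_twoSidedGI hTw (IsLocalRing.ResidueField A₀) q hq
      (jqModC (IsLocalRing.ResidueField A₀))
      (coeffMap (Int.castRingHom (IsLocalRing.ResidueField A₀)) θ) d ?_ ?_ ?_ p ?_ ?_
    · exact fun p hp => Fermat.Agent.H66.KLM.sb_gi q θ d hn (IsLocalRing.ResidueField A₀) p hp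
    · refine ⟨-1, ?_, ?_⟩
      · intro hdvd
        have h3 : (q : ℤ) ∣ 1 := (dvd_neg (a := (q : ℤ)) (b := 1)).mp hdvd
        have h4 : q ∣ 1 := by exact_mod_cast h3
        exact hq.one_lt.ne' (Nat.dvd_one.mp h4)
      · rw [ModularCurve.coeff_jqModC_neg_one]
        exact one_ne_zero
    · have h3 := hFrob (IsLocalRing.ResidueField A₀) q hq hchar (jqModC ℤ)
      rwa [coeffMap_jqModC] at h3
    · rw [← h1]
      refine Finset.sum_congr rfl fun s _ => ?_
      rw [coeffMap_jqModC, ssa_coeffMap_int, coeffMap_famInf, coeffMap_jqModC]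
    · rw [← h2]
      refine Finset.sum_congr rfl fun s _ => ?_
      rw [coeffMap_qExpand, coeffMap_jqModC, ssa_coeffMap_int, coeffMap_famZero, coeffMap_jqModC]
  have hmain := ssc_qexp2 (ι := Fin d ⊕ (Fin d × Fin q)) j₁ j₂ ϖ hϖ x (jqModC A₀)
    (qExpand A₀ q (jqModC A₀))
    (by rw [coeffMap_jqModC, hj₁, hx, coeffEmb_jq])
    (by rw [coeffMap_qExpand, coeffMap_jqModC, hj₂, hxxu, hWxu, hxv])
    (transcendental_model hx) e
    (fun s => coeffMap (Int.castRingHom A₀) (famInf ℤ q (jqModC ℤ) θ d s))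
    (fun s => coeffMap (Int.castRingHom A₀) (famZero ℤ q (jqModC ℤ) θ d s))
    (fun s => by rw [ssa_coeffMap_int, hj₁, he_exp])
    (fun s => by rw [ssa_coeffMap_int, hj₂, hWe])
    he_int hfin hGI a b a' b'
    (fun m => by rw [hj₁]; exact ha m) (fun m => by rw [hj₁]; exact hb m)
    (by simpa only [hj₁] using hbu)
    (fun m => by rw [hj₂]; exact ha' m) (fun m => by rw [hj₂]; exact hb' m)
    (by simpa only [hj₂] using hbu') hz
  exact hmain

end Main

end Fermat.Agent.H66.SS
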