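import Mathlib
import Fermat.Agent.H66.SS.Final
import Fermat.Agent.H3.SSTwist
import Fermat.Agent.H57.SS.ModelFinrank
import Fermat.Agent.H57.SS.Frob

/-!
# P-SS row 665 (SS-A2): the two-sided `q`-expansion principle at `q ‖ N` (helper66)

`modelQExp2_of_int` : `ModelQExp2Statement M q jq` for every prime `q ∤ M`, from the leaf
`ModelIntegralStatement (M q)` (row 700).  Inputs: `H3.SSTwist.twistIndep` (row 664),
`H57.SS.modelFinrank` (row 701), `H57.SS.frob` (row 702), `H27.KLGB.goodPrimitive_j_full`,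
`H82.SS.qexp2_core`.
-/

set_option autoImplicit false

namespace Fermat.Agent.H66.SS

open ModularCurve

theorem modelQExp2_of_int (M q : ℕ) [NeZero M] [NeZero q] (hq : q.Prime) (hqM : ¬ q ∣ M)
    (hInt : ModelIntegralStatement (M * q)) :
    Fermat.Agent.H82.SS.ModelQExp2Statement M q jq :=
  have : NeZero (M * q) := ⟨Nat.mul_ne_zero (NeZero.ne M) (NeZero.ne q)⟩
  modelQExp2_of_leaves M q hq hqM Fermat.Agent.H3.SSTwist.twistIndep hInt
    (Fermat.Agent.H57.SS.modelFinrank (M * q)) Fermat.Agent.H57.SS.frob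

end Fermat.Agent.H66.SS
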