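import Mathlib
import Fermat.Agent.H66.SS.ModelQExp2
import Fermat.Agent.H66.SS.ModelIntegral

/-!
# P-SS row 665 (SS-A2): the two-sided `q`-expansion principle at `q ‖ N`, UNCONDITIONAL (helper66)

`modelQExp2 (M q) (hq : q.Prime) (hqM : ¬ q ∣ M) : Fermat.Agent.H82.SS.ModelQExp2Statement M q jq`.
-/

set_option autoImplicit false

namespace Fermat.Agent.H66.SS

open ModularCurve

/-- **SS-A2, the two-sided `q`-expansion principle** `V_∞ ∩ V_0 ⊆ C(x)` at level `M q`. -/
theorem modelQExp2 (M q : ℕ) [NeZero M] [NeZero q] (hq : q.Prime) (hqM : ¬ q ∣ M) :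
    Fermat.Agent.H82.SS.ModelQExp2Statement M q jq :=
  have : NeZero (M * q) := ⟨Nat.mul_ne_zero (NeZero.ne M) (NeZero.ne q)⟩
  modelQExp2_of_int M q hq hqM (modelIntegral (M * q))

end Fermat.Agent.H66.SS
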