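import Mathlib
import Fermat.Agent.H66.SS.FracCore
import Fermat.Agent.H66.SS.ModelQExp2Final

/-!
# P-SS rows 929 / 942 (FRAC), part 2 (helper66): the core at the model level

`frac_core` : level `M q`, `q` prime, `q ∤ M`.  For `z = a / b = a' / b'` in `V_∞ ∩ V_0`
(quotients of elements with `A₀`-integral expansions at `∞` resp. at `0`, primitive
denominators) there are `a₁, c₁` of LEVEL `M` with `A₀`-integral expansions, the expansion of
`c₁` being primitive, `α a₁, α c₁` integral over `A₀[x]`, such that the expansion of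
`α c₁ * z - α a₁` is `A₀`-integral and vanishes modulo `ϖ`.
-/

set_option autoImplicit false
set_option maxSynthPendingDepth 3
set_option linter.unusedSectionVars false
set_option synthInstance.maxHeartbeats 400000
set_option maxHeartbeats 1600000

noncomputable section

namespace Fermat.Agent.H66.SS

open Polynomial ModularCurve
open Fermat.Agent.H22.KL Fermat.Agent.H27.KLGB Fermat.Agent.H82.SS
open Fermat.Agent.H48.QExp Fermat.Agent.H87.KL

/-- **FRAC, core.** -/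
theorem frac_core (M q : ℕ) [NeZero M] [NeZero q] (hq : q.Prime) (hqM : ¬ q ∣ M)
    (K₁ : Type) [Field K₁] [Algebra ℚ K₁]
    (A₀ : Type) [CommRing A₀] [IsDomain A₀] [IsDiscreteValuationRing A₀]
    [Algebra A₀ K₁] [IsFractionRing A₀ K₁]
    [Algebra A₀ (ModelField K₁ (M * q))] [IsScalarTower A₀ K₁ (ModelField K₁ (M * q))]
    (hqA : ¬ IsUnit ((q : ℕ) : A₀)) (ϖ : A₀) (hϖ : Irreducible ϖ)
    (x : ModelField K₁ (M * q)) (hx : (x : LaurentSeries K₁) = coeffEmb K₁ jq)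
    (W : ModelField K₁ (M * q) ≃ₐ[K₁] ModelField K₁ (M * q)) (hW : IsAtkinLehnerModel K₁ M q W)
    (a b a' b' : ModelField K₁ (M * q))
    (ha : ∀ n : ℤ, (a : LaurentSeries K₁).coeff n ∈ (algebraMap A₀ K₁).range)
    (hb : ∀ n : ℤ, (b : LaurentSeries K₁).coeff n ∈ (algebraMap A₀ K₁).range)
    (hbu : ∃ (n : ℤ) (c : A₀), IsUnit c ∧ algebraMap A₀ K₁ c = (b : LaurentSeries K₁).coeff n)
    (ha' : ∀ n : ℤ, (W a' : LaurentSeries K₁).coeff n ∈ (algebraMap A₀ K₁).range)
    (hb' : ∀ n : ℤ, (W b' : LaurentSeries K₁).coeff n ∈ (algebraMap A₀ K₁).range)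
    (hbu' : ∃ (n : ℤ) (c : A₀), IsUnit c ∧
      algebraMap A₀ K₁ c = (W b' : LaurentSeries K₁).coeff n)
    (hz : a * b' = a' * b) :
    ∃ (a₁ c₁ : ModelField K₁ M) (aA cA sA : LaurentSeries A₀),
      (a₁ : LaurentSeries K₁) = coeffMap (algebraMap A₀ K₁) aA ∧
      (c₁ : LaurentSeries K₁) = coeffMap (algebraMap A₀ K₁) cA ∧
      coeffMap (IsLocalRing.residue A₀) cA ≠ 0 ∧
      heckeAlphaBar K₁ M q a₁ ∈ chartClosure A₀ (ModelField K₁ (M * q)) x ∧
      heckeAlphaBar K₁ M q c₁ ∈ chartClosure A₀ (ModelField K₁ (M * q)) x ∧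
      ((heckeAlphaBar K₁ M q c₁ * (a / b) - heckeAlphaBar K₁ M q a₁ :
        ModelField K₁ (M * q)) : LaurentSeries K₁) = coeffMap (algebraMap A₀ K₁) sA ∧
      coeffMap (IsLocalRing.residue A₀) sA = 0 := by
  classical
  have hMq : NeZero (M * q) := ⟨Nat.mul_ne_zero (NeZero.ne M) (NeZero.ne q)⟩
  have hTw := Fermat.Agent.H3.SSTwist.twistIndep
  have hInt := modelIntegral (M * q)
  have hDeg := Fermat.Agent.H57.SS.modelFinrank (M * q)
  have hFrob := Fermat.Agent.H57.SS.frob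
  have : Fact q.Prime := ⟨hq⟩
  obtain ⟨θ, P, hθ, hPm, hPnat, hPθ, -, -, hmin, hall⟩ := goodPrimitive_j_full M q hqM
  have hn : (minpoly ↥(kJ (ZMod q)) (coeffMap (Int.castRingHom (ZMod q)) θ)).natDegree =
      dedekindPsi M := by rw [hmin, hPm.natDegree_map, hPnat]
  obtain ⟨d, hd⟩ : ∃ d : ℕ, d = dedekindPsi M := ⟨_, rfl⟩
  rw [← hd] at hn
  have hdpos : 0 < d := by rw [hd]; exact ssf_dedekindPsi_pos M
  -- level `M` elements and their images
  have : CharZero K₁ := algebraRat.charZero K₁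
  obtain ⟨hθQ, -, -⟩ := hall ℚ
  have hθM : coeffMap (Int.castRingHom K₁) θ ∈
      laurentBaseChange K₁ (modularFunctionFieldFull M) := by
    rw [← coeffEmb_coeffMap_int]
    exact coeffEmb_mem_laurentBaseChange K₁ hθQ
  have hxM : jqModC K₁ ∈ laurentBaseChange K₁ (modularFunctionFieldFull M) := by
    rw [← coeffEmb_jq]
    exact coeffEmb_mem_laurentBaseChange K₁ (jqModC_mem_full ℚ M)
  set θM : ModelField K₁ M := ⟨_, hθM⟩ with hθMdef
  set xM : ModelField K₁ M := ⟨_, hxM⟩ with hxMdef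
  obtain ⟨θu, θv, hθu, hθv, hWθu, hWθv⟩ := ssa_exists_pair M q K₁ W hW _ hθM
  obtain ⟨xu, xv, hxu, hxv, hWxu, hWxv⟩ := ssa_exists_pair M q K₁ W hW _ hxM
  have hxxu : x = xu := Subtype.ext (by rw [hx, hxu, coeffEmb_jq])
  have hαx : heckeAlphaBar K₁ M q xM = x :=
    Subtype.ext (by rw [coe_heckeAlphaBar, hx, coeffEmb_jq])
  have hαθ : heckeAlphaBar K₁ M q θM = θu :=
    Subtype.ext (by rw [coe_heckeAlphaBar, hθu])
  have hθK : coeffMap (Int.castRingHom K₁) θ = (θu : LaurentSeries K₁) := hθu.symm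
  have hxK : coeffMap (Int.castRingHom K₁) (jqModC ℤ) = (xu : LaurentSeries K₁) := by
    rw [coeffMap_jqModC, hxu]
  -- the family
  choose e he_exp he_int using
    fun s : Fin d ⊕ (Fin d × Fin q) => hInt K₁ A₀ x hx _ (ssf_famInf_mem M q hθ d s)
  have he_inl : ∀ i : Fin d, e (Sum.inl i) = θu ^ (i : ℕ) := by
    intro i
    apply Subtype.ext
    rw [he_exp, coeffMap_famInf]
    simp only [famInf]
    rw [hθK]
    rfl
  have he_inr : ∀ (i : Fin d) (j : Fin q),
      e (Sum.inr (i, j)) = θu ^ (i : ℕ) * (xv - xu ^ q) * xv ^ (j : ℕ) := by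
    intro i j
    apply Subtype.ext
    rw [he_exp, coeffMap_famInf]
    simp only [famInf]
    rw [hθK, hxK]
    push_cast
    rw [hxv, hxu]
  have hWe : ∀ s, ((W (e s) : ModelField K₁ (M * q)) : LaurentSeries K₁) =
      coeffMap (Int.castRingHom K₁) (famZero ℤ q (jqModC ℤ) θ d s) := by
    rintro (i | ⟨i, j⟩)
    · rw [he_inl, map_pow, hWθu, coeffMap_famZero]
      simp only [famZero]
      rw [hθK]
      push_cast
      rw [hθv, hθu]
    · rw [he_inr, map_mul, map_mul, map_pow, map_sub, map_pow, map_pow, hWθu, hWxv, hWxu,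
        coeffMap_famZero]
      simp only [famZero]
      rw [hθK, hxK]
      push_cast
      rw [hθv, hxv, hθu, hxu]
  -- the two embeddings
  obtain ⟨j₁, hj₁⟩ : ∃ j₁ : ModelField K₁ (M * q) →ₐ[K₁] LaurentSeries K₁,
      ∀ z, j₁ z = (z : LaurentSeries K₁) :=
    ⟨(laurentBaseChange K₁ (modularFunctionFieldFull (M * q))).val, fun _ => rfl⟩
  obtain ⟨j₂, hj₂⟩ : ∃ j₂ : ModelField K₁ (M * q) →ₐ[K₁] LaurentSeries K₁,
      ∀ z, j₂ z = ((W z : ModelField K₁ (M * q)) : LaurentSeries K₁) :=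
    ⟨j₁.comp (W : ModelField K₁ (M * q) →ₐ[K₁] ModelField K₁ (M * q)), fun z => by
      rw [AlgHom.comp_apply, hj₁]
      rfl⟩
  have hchar : CharP (IsLocalRing.ResidueField A₀) q := ssa_charP q hq hqA
  have hfin : Module.finrank (chartField A₀ (ModelField K₁ (M * q)) x) (ModelField K₁ (M * q)) =
      Fintype.card (Fin d ⊕ (Fin d × Fin q)) := by
    rw [hDeg K₁ A₀ x hx, ssa_card, hd]
    exact Fermat.Agent.H26.dedekindPsi_mul_prime_of_not_dvd M q
      (Nat.pos_of_ne_zero (NeZero.ne M)) hq hqM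
  have hne : Nonempty (Fin d ⊕ (Fin d × Fin q)) := ⟨Sum.inl ⟨0, hdpos⟩⟩
  have hfrobk : qExpand (IsLocalRing.ResidueField A₀) q (jqModC (IsLocalRing.ResidueField A₀)) =
      jqModC (IsLocalRing.ResidueField A₀) ^ q := by
    have h3 := hFrob (IsLocalRing.ResidueField A₀) q hq hchar (jqModC ℤ)
    rwa [coeffMap_jqModC] at h3
  have hGI : ∀ p : Fin d ⊕ (Fin d × Fin q) → (IsLocalRing.ResidueField A₀)[X],
      ∑ s, aeval (coeffMap (IsLocalRing.residue A₀) (jqModC A₀)) (p s) *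
        coeffMap (IsLocalRing.residue A₀)
          (coeffMap (Int.castRingHom A₀) (famInf ℤ q (jqModC ℤ) θ d s)) = 0 →
      ∑ s, aeval (coeffMap (IsLocalRing.residue A₀) (qExpand A₀ q (jqModC A₀))) (p s) *
        coeffMap (IsLocalRing.residue A₀)
          (coeffMap (Int.castRingHom A₀) (famZero ℤ q (jqModC ℤ) θ d s)) = 0 → ∀ s, p s = 0 := by
    intro p h1 h2
    refine ssq_twoSidedGI hTw (IsLocalRing.ResidueField A₀) q hq
      (jqModC (IsLocalRing.ResidueField A₀))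
      (coeffMap (Int.castRingHom (IsLocalRing.ResidueField A₀)) θ) d ?_ ?_ ?_ p ?_ ?_
    · exact fun p hp => Fermat.Agent.H66.KLM.sb_gi q θ d hn (IsLocalRing.ResidueField A₀) p hp
    · refine ⟨-1, ?_, ?_⟩
      · intro hdvd
        have h3 : (q : ℤ) ∣ 1 := (dvd_neg (a := (q : ℤ)) (b := 1)).mp hdvd
        have h4 : q ∣ 1 := by exact_mod_cast h3
        exact hq.one_lt.ne' (Nat.dvd_one.mp h4)
      · rw [ModularCurve.coeff_jqModC_neg_one]
        exact one_ne_zero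
    · exact hfrobk
    · rw [← h1]
      refine Finset.sum_congr rfl fun s _ => ?_
      rw [coeffMap_jqModC, ssa_coeffMap_int, coeffMap_famInf, coeffMap_jqModC]
    · rw [← h2]
      refine Finset.sum_congr rfl fun s _ => ?_
      rw [coeffMap_qExpand, coeffMap_jqModC, ssa_coeffMap_int, coeffMap_famZero, coeffMap_jqModC]
  have hxA₁ : coeffMap (algebraMap A₀ K₁) (jqModC A₀) = j₁ x := by
    rw [coeffMap_jqModC, hj₁, hx, coeffEmb_jq]
  have hxA₂ : coeffMap (algebraMap A₀ K₁) (qExpand A₀ q (jqModC A₀)) = j₂ x := by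
    rw [coeffMap_qExpand, coeffMap_jqModC, hj₂, hxxu, hWxu, hxv]
  have heA₁ : ∀ s, coeffMap (algebraMap A₀ K₁)
      (coeffMap (Int.castRingHom A₀) (famInf ℤ q (jqModC ℤ) θ d s)) = j₁ (e s) :=
    fun s => by rw [ssa_coeffMap_int, hj₁, he_exp]
  have heA₂ : ∀ s, coeffMap (algebraMap A₀ K₁)
      (coeffMap (Int.castRingHom A₀) (famZero ℤ q (jqModC ℤ) θ d s)) = j₂ (e s) :=
    fun s => by rw [ssa_coeffMap_int, hj₂, hWe]
  -- the normalised expansion
  obtain ⟨h, p, hnd, hexp⟩ := ssc_expansion (ι := Fin d ⊕ (Fin d × Fin q)) j₁ j₂ ϖ hϖ x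
    (jqModC A₀) (qExpand A₀ q (jqModC A₀)) hxA₁ hxA₂ e
    (fun s => coeffMap (Int.castRingHom A₀) (famInf ℤ q (jqModC ℤ) θ d s))
    (fun s => coeffMap (Int.castRingHom A₀) (famZero ℤ q (jqModC ℤ) θ d s))
    heA₁ heA₂ hfin hGI a b a' b'
    (fun m => by rw [hj₁]; exact ha m) (fun m => by rw [hj₁]; exact hb m)
    (by simpa only [hj₁] using hbu)
    (fun m => by rw [hj₂]; exact ha' m) (fun m => by rw [hj₂]; exact hb' m)
    (by simpa only [hj₂] using hbu') hz
  rw [Fintype.sum_sum_type] at hexp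
  -- the level `M` elements
  set c₁ : ModelField K₁ M := aeval xM (h.map (algebraMap A₀ K₁)) with hc₁
  set a₁ : ModelField K₁ M :=
    ∑ i : Fin d, aeval xM ((p (Sum.inl i)).map (algebraMap A₀ K₁)) * θM ^ (i : ℕ) with ha₁
  have hα_aeval : ∀ g : A₀[X],
      heckeAlphaBar K₁ M q (aeval xM (g.map (algebraMap A₀ K₁))) = aeval x g := by
    intro g
    rw [← Polynomial.aeval_algHom_apply, hαx, Polynomial.aeval_map_algebraMap]
  have hαc : heckeAlphaBar K₁ M q c₁ = aeval x h := hα_aeval h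
  have hαa : heckeAlphaBar K₁ M q a₁ =
      ∑ i : Fin d, aeval x (p (Sum.inl i)) * e (Sum.inl i) := by
    rw [ha₁, map_sum]
    refine Finset.sum_congr rfl fun i _ => ?_
    rw [map_mul, map_pow, hα_aeval, hαθ, he_inl]
  have hdiff : heckeAlphaBar K₁ M q c₁ * (a / b) - heckeAlphaBar K₁ M q a₁ =
      ∑ s : Fin d × Fin q, aeval x (p (Sum.inr s)) * e (Sum.inr s) := by
    rw [hαc, hαa, hexp]
    ring
  refine ⟨a₁, c₁,
    ∑ i : Fin d, aeval (jqModC A₀) (p (Sum.inl i)) *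
      coeffMap (Int.castRingHom A₀) (famInf ℤ q (jqModC ℤ) θ d (Sum.inl i)),
    aeval (jqModC A₀) h,
    ∑ s : Fin d × Fin q, aeval (jqModC A₀) (p (Sum.inr s)) *
      coeffMap (Int.castRingHom A₀) (famInf ℤ q (jqModC ℤ) θ d (Sum.inr s)),
    ?_, ?_, ?_, ?_, ?_, ?_, ?_⟩
  · rw [← coe_heckeAlphaBar M q a₁, hαa, ← hj₁, map_sum, map_sum]
    refine Finset.sum_congr rfl fun i _ => ?_
    rw [map_mul, map_mul, map_aeval_eq_coeffMap j₁ x (jqModC A₀) hxA₁, heA₁]
  · rw [← coe_heckeAlphaBar M q c₁, hαc, ← hj₁,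
      map_aeval_eq_coeffMap j₁ x (jqModC A₀) hxA₁]
  · rw [coeffMap_aeval, coeffMap_jqModC]
    intro h0
    apply hnd
    rw [← map_residue_eq_zero_iff hϖ]
    exact (transcendental_iff.mp
      (P2MW.S_ModularCurve_coeff_jqModC_neg_one.ModularCurve.CharLRows.transcendental_jqModC
        (IsLocalRing.ResidueField A₀))) _ h0
  · rw [hαa]
    refine Subalgebra.sum_mem _ fun i _ => ?_
    exact Subalgebra.mul_mem _ ((mem_chartClosure_iff x _).2 (IntX.map x _)) (he_int _)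
  · rw [hαc]
    exact (mem_chartClosure_iff x _).2 (IntX.map x _)
  · rw [hdiff, ← hj₁, map_sum, map_sum]
    refine Finset.sum_congr rfl fun s _ => ?_
    rw [map_mul, map_mul, map_aeval_eq_coeffMap j₁ x (jqModC A₀) hxA₁, heA₁]
  · rw [map_sum]
    refine Finset.sum_eq_zero fun s _ => ?_
    obtain ⟨i, j⟩ := s
    rw [map_mul, ssa_coeffMap_int, coeffMap_famInf, coeffMap_jqModC]
    simp only [famInf]
    rw [hfrobk, sub_self, mul_zero, zero_mul, mul_zero]

end Fermat.Agent.H66.SS
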