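import Mathlib
import Fermat.Agent.H7.SS.GaussSD

/-!
# P-SS rows 929 / 942 (FRAC), part 3 (helper66): calculus in the Gauss valuation ring

Complements to helper7's `InV` / `InM` (`Fermat.Agent.H7.SS.GaussSD`): elements with integral
expansions, ideal properties of `InM`, coefficient language, and the rank-one property
(`fv_exists_pow`: for `t ∈ 𝔪` and any `w` some `w t ^ n` lies in `V`).
-/

set_option autoImplicit false
set_option linter.unusedSectionVars false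

noncomputable section

namespace Fermat.Agent.H66.SS

open ModularCurve
open Fermat.Agent.H7.SS Fermat.Agent.H48.QExp

variable {K₁ : Type} [Field K₁] {A₀ : Type} [CommRing A₀] [IsDomain A₀]
  [IsDiscreteValuationRing A₀] [Algebra A₀ K₁] [IsFractionRing A₀ K₁]
variable (E : IntermediateField K₁ (LaurentSeries K₁))

/-! ### elements with integral expansions -/

theorem fv_inV_of_lift {z : LaurentSeries K₁} (hz : z ∈ E) (zA : LaurentSeries A₀)
    (h : z = gIota K₁ A₀ zA) : InV (A₀ := A₀) E z :=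
  ⟨zA, 1, by rw [← h]; exact hz, by rw [map_one]; exact E.one_mem,
    by rw [map_one]; exact one_ne_zero, by rw [map_one, mul_one, h]⟩

theorem fv_inM_of_lift {z : LaurentSeries K₁} (hz : z ∈ E) (zA : LaurentSeries A₀)
    (h : z = gIota K₁ A₀ zA) (hr : gRho A₀ zA = 0) : InM (A₀ := A₀) E z :=
  ⟨zA, 1, by rw [← h]; exact hz, by rw [map_one]; exact E.one_mem, hr,
    by rw [map_one]; exact one_ne_zero, by rw [map_one, mul_one, h]⟩

theorem fv_not_inM_of_lift {z : LaurentSeries K₁} (zA : LaurentSeries A₀)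
    (h : z = gIota K₁ A₀ zA) (hr : gRho A₀ zA ≠ 0) : ¬ InM (A₀ := A₀) E z := by
  rintro ⟨a, b, -, -, hra, hrb, hab⟩
  have h1 : gIota K₁ A₀ (zA * b) = gIota K₁ A₀ a := by rw [map_mul, ← h, hab]
  have h2 := congrArg (gRho A₀) (gIota_injective K₁ A₀ h1)
  rw [map_mul, hra] at h2
  exact mul_ne_zero hr hrb h2

theorem fv_inV_inv_of_lift {z : LaurentSeries K₁} (hz : z ∈ E) (zA : LaurentSeries A₀)
    (h : z = gIota K₁ A₀ zA) (hr : gRho A₀ zA ≠ 0) : InV (A₀ := A₀) E z⁻¹ := by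
  have hz0 : z ≠ 0 := by rw [h]; exact gIota_ne_zero_of_gRho hr
  exact ⟨1, zA, by rw [map_one]; exact E.one_mem, by rw [← h]; exact hz, hr,
    by rw [map_one, ← h, inv_mul_cancel₀ hz0]⟩

/-! ### ideal properties -/

theorem fv_inM_add {x y : LaurentSeries K₁} (hx : InM (A₀ := A₀) E x)
    (hy : InM (A₀ := A₀) E y) : InM (A₀ := A₀) E (x + y) := by
  obtain ⟨a, b, ha, hb, hra, hrb, hx⟩ := hx
  obtain ⟨c, d, hc, hd, hrc, hrd, hy⟩ := hy
  refine ⟨a * d + c * b, b * d, ?_, ?_, ?_, ?_, ?_⟩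
  · rw [map_add, map_mul, map_mul]; exact E.add_mem (E.mul_mem ha hd) (E.mul_mem hc hb)
  · rw [map_mul]; exact E.mul_mem hb hd
  · rw [map_add, map_mul, map_mul, hra, hrc, zero_mul, zero_mul, add_zero]
  · rw [map_mul]; exact mul_ne_zero hrb hrd
  · rw [map_mul, map_add, map_mul, map_mul, ← hx, ← hy]; ring

theorem fv_inM_mul {x y : LaurentSeries K₁} (hx : InM (A₀ := A₀) E x)
    (hy : InV (A₀ := A₀) E y) : InM (A₀ := A₀) E (x * y) := by
  obtain ⟨a, b, ha, hb, hra, hrb, hx⟩ := hx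
  obtain ⟨c, d, hc, hd, hrd, hy⟩ := hy
  refine ⟨a * c, b * d, ?_, ?_, ?_, ?_, ?_⟩
  · rw [map_mul]; exact E.mul_mem ha hc
  · rw [map_mul]; exact E.mul_mem hb hd
  · rw [map_mul, hra, zero_mul]
  · rw [map_mul]; exact mul_ne_zero hrb hrd
  · rw [map_mul, map_mul, ← hx, ← hy]; ring

theorem fv_inM_neg {x : LaurentSeries K₁} (hx : InM (A₀ := A₀) E x) :
    InM (A₀ := A₀) E (-x) := by
  obtain ⟨a, b, ha, hb, hra, hrb, hx⟩ := hx
  exact ⟨-a, b, by rw [map_neg]; exact E.neg_mem ha, hb, by rw [map_neg, hra, neg_zero], hrb,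
    by rw [map_neg, ← hx, neg_mul]⟩

theorem fv_inV_pow {x : LaurentSeries K₁} (hx : InV (A₀ := A₀) E x) (n : ℕ) :
    InV (A₀ := A₀) E (x ^ n) := by
  induction n with
  | zero => rw [pow_zero]; exact inV_one E
  | succ n ih => rw [pow_succ]; exact InV.mul E ih hx

/-- `ε ≡ 1` implies `ε ^ n ≡ 1` -/
theorem fv_inM_pow_sub_one {x : LaurentSeries K₁} (hx : InM (A₀ := A₀) E (x - 1)) (n : ℕ) :
    InM (A₀ := A₀) E (x ^ n - 1) := by
  induction n with
  | zero => rw [pow_zero, sub_self]; exact inM_zero E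
  | succ n ih =>
    have h1 : x ^ (n + 1) - 1 = (x ^ n - 1) * x + (x - 1) := by ring
    rw [h1]
    exact fv_inM_add E (fv_inM_mul E ih (InM.inV_of_sub_one E hx)) hx

/-! ### coefficient language -/

theorem fv_inV_of_quot {z : E}
    (h : ∃ a b : E, (∀ n : ℤ, (a : LaurentSeries K₁).coeff n ∈ (algebraMap A₀ K₁).range) ∧
      (∀ n : ℤ, (b : LaurentSeries K₁).coeff n ∈ (algebraMap A₀ K₁).range) ∧
      (∃ (n : ℤ) (c : A₀), IsUnit c ∧ algebraMap A₀ K₁ c = (b : LaurentSeries K₁).coeff n) ∧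
      z * b = a) : InV (A₀ := A₀) E (z : LaurentSeries K₁) := by
  have hφ : Function.Injective (algebraMap A₀ K₁) := IsFractionRing.injective A₀ K₁
  obtain ⟨a, b, ha, hb, ⟨m₀, u, hu, hum⟩, hab⟩ := h
  obtain ⟨aA, haA⟩ := exists_coeffMap_eq (algebraMap A₀ K₁) hφ (a : LaurentSeries K₁) ha
  obtain ⟨bA, hbA⟩ := exists_coeffMap_eq (algebraMap A₀ K₁) hφ (b : LaurentSeries K₁) hb
  have hbAu : bA.coeff m₀ = u := by
    apply hφ
    rw [hum, ← hbA, coeffMap_coeff]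
  refine ⟨aA, bA, ?_, ?_, ?_, ?_⟩
  · rw [show gIota K₁ A₀ aA = _ from haA]; exact a.2
  · rw [show gIota K₁ A₀ bA = _ from hbA]; exact b.2
  · apply coeffMap_ne_zero_of_coeff _ bA m₀
    rw [hbAu]
    intro h0
    rw [IsLocalRing.residue_eq_zero_iff] at h0
    exact (IsLocalRing.mem_maximalIdeal u).1 h0 hu
  · rw [show gIota K₁ A₀ aA = _ from haA, show gIota K₁ A₀ bA = _ from hbA, ← hab]
    rfl

theorem fv_inM_of_quot {z : E} {ϖ : A₀} (hϖ : ¬ IsUnit ϖ)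
    (h : ∃ a b : E, (∀ n : ℤ, ∃ c : A₀, algebraMap A₀ K₁ (ϖ * c) = (a : LaurentSeries K₁).coeff n) ∧
      (∀ n : ℤ, (b : LaurentSeries K₁).coeff n ∈ (algebraMap A₀ K₁).range) ∧
      (∃ (n : ℤ) (c : A₀), IsUnit c ∧ algebraMap A₀ K₁ c = (b : LaurentSeries K₁).coeff n) ∧
      z * b = a) : InM (A₀ := A₀) E (z : LaurentSeries K₁) := by
  have hφ : Function.Injective (algebraMap A₀ K₁) := IsFractionRing.injective A₀ K₁
  obtain ⟨a, b, ha, hb, ⟨m₀, u, hu, hum⟩, hab⟩ := h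
  obtain ⟨aA, haA⟩ := exists_coeffMap_eq (algebraMap A₀ K₁) hφ (a : LaurentSeries K₁)
    (fun n => by obtain ⟨c, hc⟩ := ha n; exact ⟨ϖ * c, hc⟩)
  obtain ⟨bA, hbA⟩ := exists_coeffMap_eq (algebraMap A₀ K₁) hφ (b : LaurentSeries K₁) hb
  have hbAu : bA.coeff m₀ = u := by
    apply hφ
    rw [hum, ← hbA, coeffMap_coeff]
  refine ⟨aA, bA, ?_, ?_, ?_, ?_, ?_⟩
  · rw [show gIota K₁ A₀ aA = _ from haA]; exact a.2
  · rw [show gIota K₁ A₀ bA = _ from hbA]; exact b.2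
  · ext n
    rw [coeffMap_coeff, HahnSeries.coeff_zero, IsLocalRing.residue_eq_zero_iff,
      IsLocalRing.mem_maximalIdeal]
    obtain ⟨c, hc⟩ := ha n
    have h1 : aA.coeff n = ϖ * c := by
      apply hφ
      rw [hc, ← haA, coeffMap_coeff]
    rw [h1]
    intro hu'
    exact hϖ (isUnit_of_mul_isUnit_left hu')
  · apply coeffMap_ne_zero_of_coeff _ bA m₀
    rw [hbAu]
    intro h0
    rw [IsLocalRing.residue_eq_zero_iff] at h0
    exact (IsLocalRing.mem_maximalIdeal u).1 h0 hu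
  · rw [show gIota K₁ A₀ aA = _ from haA, show gIota K₁ A₀ bA = _ from hbA, ← hab]
    rfl

theorem fv_inM_exists_quot {z : E} (h : InM (A₀ := A₀) E (z : LaurentSeries K₁)) {ϖ : A₀}
    (hϖ : Irreducible ϖ) :
    ∃ a b : E, (∀ n : ℤ, ∃ c : A₀, algebraMap A₀ K₁ (ϖ * c) = (a : LaurentSeries K₁).coeff n) ∧
      (∀ n : ℤ, (b : LaurentSeries K₁).coeff n ∈ (algebraMap A₀ K₁).range) ∧
      (∃ (n : ℤ) (c : A₀), IsUnit c ∧ algebraMap A₀ K₁ c = (b : LaurentSeries K₁).coeff n) ∧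
      z * b = a := by
  obtain ⟨a, b, ha, hb, hra, hrb, h⟩ := h
  refine ⟨⟨_, ha⟩, ⟨_, hb⟩, fun n => ?_,
    fun n => ⟨b.coeff n, (coeffMap_coeff _ _ _).symm⟩, ?_, Subtype.ext h⟩
  · have h1 : IsLocalRing.residue A₀ (a.coeff n) = 0 := by
      rw [← coeffMap_coeff, show coeffMap (IsLocalRing.residue A₀) a = 0 from hra,
        HahnSeries.coeff_zero]
    rw [IsLocalRing.residue_eq_zero_iff, hϖ.maximalIdeal_eq, Ideal.mem_span_singleton] at h1
    obtain ⟨t, ht⟩ := h1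
    exact ⟨t, by rw [← ht]; exact (coeffMap_coeff _ _ _).symm⟩
  · by_contra hcon
    push Not at hcon
    apply hrb
    ext n
    rw [coeffMap_coeff, HahnSeries.coeff_zero, IsLocalRing.residue_eq_zero_iff,
      IsLocalRing.mem_maximalIdeal]
    intro hu
    exact hcon n (b.coeff n) hu (coeffMap_coeff _ _ _).symm

/-! ### rank one -/

/-- **The Gauss valuation has rank one**: for `t ∈ 𝔪` and any `w ∈ E`, some `w t ^ n` lies in
the valuation ring. -/
theorem fv_exists_pow (hG : HasGNF A₀ E) {ϖ : A₀} (hϖ : Irreducible ϖ) {w t : LaurentSeries K₁}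
    (hw : w ∈ E) (ht : InM (A₀ := A₀) E t) : ∃ n : ℕ, InV (A₀ := A₀) E (w * t ^ n) := by
  have hφ : Function.Injective (algebraMap A₀ K₁) := IsFractionRing.injective A₀ K₁
  by_cases hw0 : w = 0
  · exact ⟨0, by rw [hw0, zero_mul]; exact inV_zero E⟩
  obtain ⟨c, a, b, hc, ha, hb, hra, hrb, h⟩ := hG w hw hw0
  rcases ValuationRing.isInteger_or_isInteger A₀ c with ⟨c₀, hc₀⟩ | ⟨c', hc'⟩
  · refine ⟨0, ?_⟩
    rw [pow_zero, mul_one]
    refine ⟨algebraMap A₀ (LaurentSeries A₀) c₀ * a, b, ?_, hb, hrb, ?_⟩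
    · rw [gIota_algebraMap_mul]
      exact E.mul_mem (E.algebraMap_mem _) ha
    · rw [gIota_algebraMap_mul, hc₀, h]
  · have hc'0 : c' ≠ 0 := by
      rintro rfl
      rw [map_zero] at hc'
      exact inv_ne_zero hc hc'.symm
    obtain ⟨n, hn⟩ := IsDiscreteValuationRing.associated_pow_irreducible hc'0 hϖ
    obtain ⟨u, hu⟩ := hn
    refine ⟨n, ?_⟩
    have hϖ0 : algebraMap A₀ K₁ ϖ ≠ 0 := fun h0 => hϖ.ne_zero ((map_eq_zero_iff _ hφ).1 h0)
    -- `ϖ ^ n w ∈ V`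
    have h1 : InV (A₀ := A₀) E
        (algebraMap K₁ (LaurentSeries K₁) (algebraMap A₀ K₁ ϖ ^ n) * w) := by
      refine ⟨algebraMap A₀ (LaurentSeries A₀) (u : A₀) * a, b, ?_, hb, hrb, ?_⟩
      · rw [gIota_algebraMap_mul]
        exact E.mul_mem (E.algebraMap_mem _) ha
      · rw [gIota_algebraMap_mul, mul_assoc, h, ← mul_assoc, ← map_mul]
        congr 2
        rw [← map_pow, ← hu, map_mul, hc', mul_comm (c⁻¹), mul_assoc, inv_mul_cancel₀ hc,
          mul_one]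
    -- `(ϖ⁻¹ t) ^ n ∈ V`
    have h2 := fv_inV_pow E (InM.inV_div E ht hϖ) n
    have h3 := InV.mul E h1 h2
    have h4 : algebraMap K₁ (LaurentSeries K₁) (algebraMap A₀ K₁ ϖ ^ n) * w *
        (algebraMap K₁ (LaurentSeries K₁) (algebraMap A₀ K₁ ϖ)⁻¹ * t) ^ n = w * t ^ n := by
      have h5 : algebraMap K₁ (LaurentSeries K₁) (algebraMap A₀ K₁ ϖ ^ n) *
          algebraMap K₁ (LaurentSeries K₁) (algebraMap A₀ K₁ ϖ)⁻¹ ^ n = 1 := by
        rw [← map_pow (algebraMap K₁ (LaurentSeries K₁)) ((algebraMap A₀ K₁ ϖ)⁻¹) n, ← map_mul,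
          inv_pow, mul_inv_cancel₀ (pow_ne_zero n hϖ0), map_one]
      calc algebraMap K₁ (LaurentSeries K₁) (algebraMap A₀ K₁ ϖ ^ n) * w *
            (algebraMap K₁ (LaurentSeries K₁) (algebraMap A₀ K₁ ϖ)⁻¹ * t) ^ n
          = (algebraMap K₁ (LaurentSeries K₁) (algebraMap A₀ K₁ ϖ ^ n) *
              algebraMap K₁ (LaurentSeries K₁) (algebraMap A₀ K₁ ϖ)⁻¹ ^ n) * (w * t ^ n) := by
            rw [mul_pow]; ring
        _ = w * t ^ n := by rw [h5, one_mul]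
    rwa [h4] at h3

end Fermat.Agent.H66.SS
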