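import Mathlib
import Fermat.Agent.H66.SS.FracModel
import Fermat.Agent.H66.SS.FracVal
import Fermat.Agent.H55.SS.GaussConverse
import Fermat.Agent.H62.SS.AtkinLehnerModel
import Fermat.Agent.H67.SS.CuspInterfaces
import Fermat.Agent.H45.SS.Model2

/-!
# P-SS rows 929 / 942 (FRAC), helper66: the residue field of `V_∞` is generated by level `M`

* `modelFrac67 M q hq hqM : Fermat.Agent.H67.SS.ModelFracStatement M q` (row 942; `z` in the
  Gauss closure, `InV` / `InM` language);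
* `modelFrac M q hq hqM : Fermat.Agent.H45.ModelFracStatement M q jq` (row 929; `z ∈ V_∞`,
  `SSMaxInfty` language).

Both from `frac_core` (normalised expansion over the two-sided family); for the second one the
element `z ∈ V_∞` is first replaced by `z ε ^ n ∈ V_∞ ∩ V_0`, `ε ≡ 1` modulo `𝔪_∞`, `ε ∈ 𝔪_0`.
-/

set_option autoImplicit false
set_option maxSynthPendingDepth 3
set_option linter.unusedSectionVars false
set_option synthInstance.maxHeartbeats 400000
set_option maxHeartbeats 1600000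

noncomputable section

namespace Fermat.Agent.H66.SS

open Polynomial ModularCurve
open Fermat.Agent.H22.KL Fermat.Agent.H27.KLGB Fermat.Agent.H82.SS
open Fermat.Agent.H48.QExp Fermat.Agent.H87.KL Fermat.Agent.H7.SS

/-- **FRAC** in the form of row 942 (helper67's interface). -/
theorem modelFrac67 (M q : ℕ) [NeZero M] [NeZero q] (hq : q.Prime) (hqM : ¬ q ∣ M) :
    Fermat.Agent.H67.SS.ModelFracStatement M q := by
  intro K₁ _ _ _ A₀ _ _ _ _ _ _ _ hqA ϖ hϖ x hx W hW z hz
  have hφ : Function.Injective (algebraMap A₀ K₁) := IsFractionRing.injective A₀ K₁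
  obtain ⟨⟨a, b, ha, hb, hbu, hab⟩, ⟨a', b', ha', hb', hbu', hab'⟩⟩ :=
    Fermat.Agent.H55.SS.modelGaussConverse M q K₁ A₀ hqA ϖ hϖ x hx W hW z hz
  have hb0 : b ≠ 0 := by
    rintro rfl
    obtain ⟨n, c, hc, hcn⟩ := hbu
    have h0 : algebraMap A₀ K₁ c = 0 := by
      rw [hcn]
      rfl
    exact hc.ne_zero ((map_eq_zero_iff _ hφ).1 h0)
  have hzab : a / b = z := by
    rw [div_eq_iff hb0]
    exact hab.symm
  have hz' : a * b' = a' * b := by
    rw [← hab, ← hab']
    ring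
  obtain ⟨a₁, c₁, aA, cA, sA, haA, hcA, hcr, -, -, hs, hsr⟩ :=
    frac_core M q hq hqM K₁ A₀ hqA ϖ hϖ x hx W hW a b a' b' ha hb hbu ha' hb' hbu' hz'
  rw [hzab] at hs
  exact ⟨a₁, c₁, fv_inV_of_lift _ a₁.2 aA haA, fv_inV_of_lift _ c₁.2 cA hcA,
    fv_not_inM_of_lift _ cA hcA hcr, fv_inM_of_lift _ (Subtype.mem _) sA hs hsr⟩

section Sep

variable (M q : ℕ) [NeZero M] [NeZero q]
variable (K₁ : Type) [Field K₁] [Algebra ℚ K₁]
  (A₀ : Type) [CommRing A₀] [IsDomain A₀] [IsDiscreteValuationRing A₀]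
  [Algebra A₀ K₁] [IsFractionRing A₀ K₁]

/-- **The separating element** `ε = u' / (u + u')`, `u = x_q - x ^ q`, `u' = x - x_q ^ q`:
`ε ≡ 1` modulo `𝔪_∞` and `W ε ∈ 𝔪_∞`. -/
theorem frac_sep (hq : q.Prime) (hqA : ¬ IsUnit ((q : ℕ) : A₀))
    (W : ModelField K₁ (M * q) ≃ₐ[K₁] ModelField K₁ (M * q)) (hW : IsAtkinLehnerModel K₁ M q W) :
    ∃ ε : ModelField K₁ (M * q),
      InM (A₀ := A₀) (laurentBaseChange K₁ (modularFunctionFieldFull (M * q)))
        ((ε - 1 : ModelField K₁ (M * q)) : LaurentSeries K₁) ∧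
      InM (A₀ := A₀) (laurentBaseChange K₁ (modularFunctionFieldFull (M * q)))
        ((W ε : ModelField K₁ (M * q)) : LaurentSeries K₁) := by
  classical
  have hxM : jqModC K₁ ∈ laurentBaseChange K₁ (modularFunctionFieldFull M) := by
    rw [← coeffEmb_jq]
    exact coeffEmb_mem_laurentBaseChange K₁ (jqModC_mem_full ℚ M)
  obtain ⟨xu, xv, hxu, hxv, hWxu, hWxv⟩ := ssa_exists_pair M q K₁ W hW _ hxM
  have hchar : CharP (IsLocalRing.ResidueField A₀) q := ssa_charP q hq hqA
  have hfrobk : qExpand (IsLocalRing.ResidueField A₀) q (jqModC (IsLocalRing.ResidueField A₀)) =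
      jqModC (IsLocalRing.ResidueField A₀) ^ q := by
    have h3 := Fermat.Agent.H57.SS.frob (IsLocalRing.ResidueField A₀) q hq hchar (jqModC ℤ)
    rwa [coeffMap_jqModC] at h3
  set u : ModelField K₁ (M * q) := xv - xu ^ q with hu
  set u' : ModelField K₁ (M * q) := xu - xv ^ q with hu'
  set s : ModelField K₁ (M * q) := u + u' with hs
  have hWu : W u = u' := by rw [hu, map_sub, map_pow, hWxv, hWxu]
  have hWu' : W u' = u := by rw [hu', map_sub, map_pow, hWxv, hWxu]
  have hWs : W s = s := by rw [hs, map_add, hWu, hWu', add_comm]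
  -- expansions
  set uA : LaurentSeries A₀ := qExpand A₀ q (jqModC A₀) - jqModC A₀ ^ q with huA
  set uA' : LaurentSeries A₀ := jqModC A₀ - qExpand A₀ q (jqModC A₀) ^ q with huA'
  have hucoe : (u : LaurentSeries K₁) = gIota K₁ A₀ uA := by
    rw [huA, map_sub, map_pow, coeffMap_qExpand, coeffMap_jqModC, hu]
    show (xv : LaurentSeries K₁) - (xu : LaurentSeries K₁) ^ q = _
    rw [hxv, hxu]
  have hu'coe : (u' : LaurentSeries K₁) = gIota K₁ A₀ uA' := by
    rw [huA', map_sub, map_pow, coeffMap_qExpand, coeffMap_jqModC, hu']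
    show (xu : LaurentSeries K₁) - (xv : LaurentSeries K₁) ^ q = _
    rw [hxv, hxu]
  have hscoe : (s : LaurentSeries K₁) = gIota K₁ A₀ (uA + uA') := by
    rw [map_add, ← hucoe, ← hu'coe]
    rfl
  have hur : gRho A₀ uA = 0 := by
    rw [huA, map_sub, map_pow, coeffMap_qExpand, coeffMap_jqModC, hfrobk, sub_self]
  have hsr : gRho A₀ (uA + uA') ≠ 0 := by
    rw [map_add, hur, zero_add, huA', map_sub, map_pow, coeffMap_qExpand, coeffMap_jqModC]
    intro h0
    have h3 := congrArg (fun y : LaurentSeries (IsLocalRing.ResidueField A₀) => y.coeff (-1)) h0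
    simp only [HahnSeries.coeff_sub, HahnSeries.coeff_zero] at h3
    have hm : ¬ (q : ℤ) ∣ (-1 : ℤ) := by
      intro hdvd
      have h4 : (q : ℤ) ∣ 1 := (dvd_neg (a := (q : ℤ)) (b := 1)).mp hdvd
      have h5 : q ∣ 1 := by exact_mod_cast h4
      exact hq.one_lt.ne' (Nat.dvd_one.mp h5)
    rw [← map_pow, qExpand_coeff_of_not_dvd q _ hm, sub_zero,
      ModularCurve.coeff_jqModC_neg_one] at h3
    exact one_ne_zero h3
  have hs0 : s ≠ 0 := by
    intro h0
    have h1 : (s : LaurentSeries K₁) = 0 := by rw [h0]; rfl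
    rw [hscoe] at h1
    exact gIota_ne_zero_of_gRho (K₁ := K₁) hsr h1
  have huM : InM (A₀ := A₀) (laurentBaseChange K₁ (modularFunctionFieldFull (M * q)))
      (u : LaurentSeries K₁) := fv_inM_of_lift _ u.2 uA hucoe hur
  have hsinv : InV (A₀ := A₀) (laurentBaseChange K₁ (modularFunctionFieldFull (M * q)))
      ((s⁻¹ : ModelField K₁ (M * q)) : LaurentSeries K₁) :=
    fv_inV_inv_of_lift _ s.2 (uA + uA') hscoe hsr
  have hus : InM (A₀ := A₀) (laurentBaseChange K₁ (modularFunctionFieldFull (M * q)))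
      ((u * s⁻¹ : ModelField K₁ (M * q)) : LaurentSeries K₁) := fv_inM_mul _ huM hsinv
  refine ⟨u' * s⁻¹, ?_, ?_⟩
  · have h1 : u' * s⁻¹ - 1 = -(u * s⁻¹) := by
      have h2 : u' = s - u := by rw [hs]; ring
      rw [h2, sub_mul, mul_inv_cancel₀ hs0]
      ring
    rw [h1]
    exact fv_inM_neg _ hus
  · rw [map_mul, map_inv₀, hWu', hWs]
    exact hus

end Sep

/-- **FRAC** in the form of row 929 (helper45's interface). -/
theorem modelFrac (M q : ℕ) [NeZero M] [NeZero q] (hq : q.Prime) (hqM : ¬ q ∣ M) :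
    Fermat.Agent.H45.ModelFracStatement M q jq := by
  intro K₁ _ _ _ A₀ _ _ _ _ _ _ _ hqA ϖ hϖ x hx z hzq
  have hφ : Function.Injective (algebraMap A₀ K₁) := IsFractionRing.injective A₀ K₁
  have hcop : Nat.Coprime M q := ((Nat.Prime.coprime_iff_not_dvd hq).2 hqM).symm
  obtain ⟨W, hW⟩ := Fermat.Agent.H62.SS.modelAtkinLehnerExists M q hcop K₁
  have hG := hasGNF_model K₁ A₀ (M * q)
  -- `z ∈ V_∞`
  have hzV : InV (A₀ := A₀) (laurentBaseChange K₁ (modularFunctionFieldFull (M * q)))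
      (z : LaurentSeries K₁) := fv_inV_of_quot _ hzq
  -- the separating element
  obtain ⟨ε, hε1, hWε⟩ := frac_sep M q K₁ A₀ hq hqA W hW
  have hεV : InV (A₀ := A₀) (laurentBaseChange K₁ (modularFunctionFieldFull (M * q)))
      (ε : LaurentSeries K₁) := InM.inV_of_sub_one _ hε1
  obtain ⟨n, hn⟩ := fv_exists_pow (laurentBaseChange K₁ (modularFunctionFieldFull (M * q))) hG hϖ
    (w := ((W z : ModelField K₁ (M * q)) : LaurentSeries K₁))
    (t := ((W ε : ModelField K₁ (M * q)) : LaurentSeries K₁)) (Subtype.mem _) hWε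
  -- `z' = z ε ^ n`
  set z' : ModelField K₁ (M * q) := z * ε ^ n with hz'
  have hz'V : InV (A₀ := A₀) (laurentBaseChange K₁ (modularFunctionFieldFull (M * q)))
      (z' : LaurentSeries K₁) := InV.mul _ hzV (fv_inV_pow _ hεV n)
  have hWz'V : InV (A₀ := A₀) (laurentBaseChange K₁ (modularFunctionFieldFull (M * q)))
      ((W z' : ModelField K₁ (M * q)) : LaurentSeries K₁) := by
    rw [hz', map_mul, map_pow]
    exact hn
  have hdiff : InM (A₀ := A₀) (laurentBaseChange K₁ (modularFunctionFieldFull (M * q)))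
      ((z' - z : ModelField K₁ (M * q)) : LaurentSeries K₁) := by
    have h1 : z' - z = (ε ^ n - 1) * z := by rw [hz']; ring
    rw [h1]
    exact fv_inM_mul _ (fv_inM_pow_sub_one _ hε1 n) hzV
  -- quotient forms
  obtain ⟨a, b, ha, hb, hbu, hab⟩ := InV.exists_quot _ hz'V
  obtain ⟨a₂, b₂, ha₂, hb₂, hbu₂, hab₂⟩ := InV.exists_quot _ hWz'V
  have hb0 : b ≠ 0 := by
    rintro rfl
    obtain ⟨n, c, hc, hcn⟩ := hbu
    have h0 : algebraMap A₀ K₁ c = 0 := by
      rw [hcn]
      rfl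
    exact hc.ne_zero ((map_eq_zero_iff _ hφ).1 h0)
  have hzab : a / b = z' := by
    rw [div_eq_iff hb0]
    exact hab.symm
  have h3 : z' * W.symm b₂ = W.symm a₂ := by
    rw [← hab₂, map_mul, W.symm_apply_apply]
  have hrel : a * W.symm b₂ = W.symm a₂ * b := by
    rw [← hab, ← h3]
    ring
  obtain ⟨a₁, c₁, aA, cA, sA, haA, hcA, hcr, hαa, hαc, hs, hsr⟩ :=
    frac_core M q hq hqM K₁ A₀ hqA ϖ hϖ x hx W hW a b (W.symm a₂) (W.symm b₂) ha hb hbu
      (by rw [W.apply_symm_apply]; exact ha₂) (by rw [W.apply_symm_apply]; exact hb₂)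
      (by rw [W.apply_symm_apply]; exact hbu₂) hrel
  rw [hzab] at hs
  have hαcoe : ((heckeAlphaBar K₁ M q c₁ : ModelField K₁ (M * q)) : LaurentSeries K₁) =
      gIota K₁ A₀ cA := by rw [coe_heckeAlphaBar, hcA]
  refine ⟨a₁, c₁, hαa, hαc, ?_, ?_⟩
  · intro hSS
    exact fv_not_inM_of_lift (laurentBaseChange K₁ (modularFunctionFieldFull (M * q))) cA hαcoe hcr
      (fv_inM_of_quot _ hϖ.not_isUnit hSS)
  · have h1 : InM (A₀ := A₀) (laurentBaseChange K₁ (modularFunctionFieldFull (M * q)))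
        ((heckeAlphaBar K₁ M q c₁ * z' - heckeAlphaBar K₁ M q a₁ : ModelField K₁ (M * q)) :
          LaurentSeries K₁) := fv_inM_of_lift _ (Subtype.mem _) sA hs hsr
    have h2 : InV (A₀ := A₀) (laurentBaseChange K₁ (modularFunctionFieldFull (M * q)))
        ((heckeAlphaBar K₁ M q c₁ : ModelField K₁ (M * q)) : LaurentSeries K₁) :=
      fv_inV_of_lift _ (Subtype.mem _) cA hαcoe
    have h4 : z * heckeAlphaBar K₁ M q c₁ - heckeAlphaBar K₁ M q a₁ =
        -(z' - z) * heckeAlphaBar K₁ M q c₁ +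
          (heckeAlphaBar K₁ M q c₁ * z' - heckeAlphaBar K₁ M q a₁) := by ring
    have h5 : InM (A₀ := A₀) (laurentBaseChange K₁ (modularFunctionFieldFull (M * q)))
        ((z * heckeAlphaBar K₁ M q c₁ - heckeAlphaBar K₁ M q a₁ : ModelField K₁ (M * q)) :
          LaurentSeries K₁) := by
      rw [h4]
      exact fv_inM_add _ (fv_inM_mul _ (fv_inM_neg _ hdiff) h2) h1
    exact fv_inM_exists_quot _ h5 hϖ

end Fermat.Agent.H66.SS
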