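import Mathlib
import Fermat.Agent.H66.SS.Frac
import Fermat.Agent.H41.SS.OrdInterfaces

/-!
# P-SS row 959 (FRAC, helper41's form), helper66

* `frac_main` : FRAC with explicit lifts: for `z ∈ V_∞` (level `M q`) there are `a₁, c₁` of level
  `M` with `A₀`-integral expansions `aA`, `cA`, `cA` primitive, `α a₁, α c₁` integral over
  `A₀[x]`, and `z * α c₁ - α a₁ ∈ 𝔪_∞`.
* `modelFrac41 M q hq hqM : Fermat.Agent.H41.SS.ModelFracStatement M q` : for `z ∈ V_∞(E)` there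
  is `z' ∈ V_∞(E')` with `z - z' ∈ 𝔪_∞(E)`  (`z' = a₁ / c₁`).
-/

set_option autoImplicit false
set_option maxSynthPendingDepth 3
set_option linter.unusedSectionVars false
set_option linter.style.haveILetI false
set_option synthInstance.maxHeartbeats 400000
set_option maxHeartbeats 1600000

noncomputable section

namespace Fermat.Agent.H66.SS

open Polynomial ModularCurve
open Fermat.Agent.H22.KL Fermat.Agent.H27.KLGB Fermat.Agent.H82.SS
open Fermat.Agent.H48.QExp Fermat.Agent.H87.KL Fermat.Agent.H7.SS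

/-- **FRAC, main form** (explicit lifts). -/
theorem frac_main (M q : ℕ) [NeZero M] [NeZero q] (hq : q.Prime) (hqM : ¬ q ∣ M)
    (K₁ : Type) [Field K₁] [Algebra ℚ K₁] [FiniteDimensional ℚ K₁]
    (A₀ : Type) [CommRing A₀] [IsDomain A₀] [IsDiscreteValuationRing A₀]
    [Algebra A₀ K₁] [IsFractionRing A₀ K₁]
    [Algebra A₀ (ModelField K₁ (M * q))] [IsScalarTower A₀ K₁ (ModelField K₁ (M * q))]
    (hqA : ¬ IsUnit ((q : ℕ) : A₀)) (ϖ : A₀) (hϖ : Irreducible ϖ)
    (x : ModelField K₁ (M * q)) (hx : (x : LaurentSeries K₁) = coeffEmb K₁ jq)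
    (z : ModelField K₁ (M * q))
    (hzV : InV (A₀ := A₀) (laurentBaseChange K₁ (modularFunctionFieldFull (M * q)))
      (z : LaurentSeries K₁)) :
    ∃ (a₁ c₁ : ModelField K₁ M) (aA cA : LaurentSeries A₀),
      (a₁ : LaurentSeries K₁) = gIota K₁ A₀ aA ∧
      (c₁ : LaurentSeries K₁) = gIota K₁ A₀ cA ∧
      gRho A₀ cA ≠ 0 ∧
      heckeAlphaBar K₁ M q a₁ ∈ chartClosure A₀ (ModelField K₁ (M * q)) x ∧
      heckeAlphaBar K₁ M q c₁ ∈ chartClosure A₀ (ModelField K₁ (M * q)) x ∧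
      InM (A₀ := A₀) (laurentBaseChange K₁ (modularFunctionFieldFull (M * q)))
        ((z * heckeAlphaBar K₁ M q c₁ - heckeAlphaBar K₁ M q a₁ : ModelField K₁ (M * q)) :
          LaurentSeries K₁) := by
  have hφ : Function.Injective (algebraMap A₀ K₁) := IsFractionRing.injective A₀ K₁
  have hcop : Nat.Coprime M q := ((Nat.Prime.coprime_iff_not_dvd hq).2 hqM).symm
  obtain ⟨W, hW⟩ := Fermat.Agent.H62.SS.modelAtkinLehnerExists M q hcop K₁
  have hG := hasGNF_model K₁ A₀ (M * q)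
  obtain ⟨ε, hε1, hWε⟩ := frac_sep M q K₁ A₀ hq hqA W hW
  have hεV : InV (A₀ := A₀) (laurentBaseChange K₁ (modularFunctionFieldFull (M * q)))
      (ε : LaurentSeries K₁) := InM.inV_of_sub_one _ hε1
  obtain ⟨n, hn⟩ := fv_exists_pow (laurentBaseChange K₁ (modularFunctionFieldFull (M * q))) hG hϖ
    (w := ((W z : ModelField K₁ (M * q)) : LaurentSeries K₁))
    (t := ((W ε : ModelField K₁ (M * q)) : LaurentSeries K₁)) (Subtype.mem _) hWε
  set z' : ModelField K₁ (M * q) := z * ε ^ n with hz'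
  have hz'V : InV (A₀ := A₀) (laurentBaseChange K₁ (modularFunctionFieldFull (M * q)))
      (z' : LaurentSeries K₁) := InV.mul _ hzV (fv_inV_pow _ hεV n)
  have hWz'V : InV (A₀ := A₀) (laurentBaseChange K₁ (modularFunctionFieldFull (M * q)))
      ((W z' : ModelField K₁ (M * q)) : LaurentSeries K₁) := by
    rw [hz', map_mul, map_pow]
    exact hn
  have hdiff : InM (A₀ := A₀) (laurentBaseChange K₁ (modularFunctionFieldFull (M * q)))
      ((z' - z : ModelField K₁ (M * q)) : LaurentSeries K₁) := by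
    have h1 : z' - z = (ε ^ n - 1) * z := by rw [hz']; ring
    rw [h1]
    exact fv_inM_mul _ (fv_inM_pow_sub_one _ hε1 n) hzV
  obtain ⟨a, b, ha, hb, hbu, hab⟩ := InV.exists_quot _ hz'V
  obtain ⟨a₂, b₂, ha₂, hb₂, hbu₂, hab₂⟩ := InV.exists_quot _ hWz'V
  have hb0 : b ≠ 0 := by
    rintro rfl
    obtain ⟨n, c, hc, hcn⟩ := hbu
    have h0 : algebraMap A₀ K₁ c = 0 := by
      rw [hcn]
      rfl
    exact hc.ne_zero ((map_eq_zero_iff _ hφ).1 h0)
  have hzab : a / b = z' := by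
    rw [div_eq_iff hb0]
    exact hab.symm
  have h3 : z' * W.symm b₂ = W.symm a₂ := by
    rw [← hab₂, map_mul, W.symm_apply_apply]
  have hrel : a * W.symm b₂ = W.symm a₂ * b := by
    rw [← hab, ← h3]
    ring
  obtain ⟨a₁, c₁, aA, cA, sA, haA, hcA, hcr, hαa, hαc, hs, hsr⟩ :=
    frac_core M q hq hqM K₁ A₀ hqA ϖ hϖ x hx W hW a b (W.symm a₂) (W.symm b₂) ha hb hbu
      (by rw [W.apply_symm_apply]; exact ha₂) (by rw [W.apply_symm_apply]; exact hb₂)
      (by rw [W.apply_symm_apply]; exact hbu₂) hrel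
  rw [hzab] at hs
  have hαcoe : ((heckeAlphaBar K₁ M q c₁ : ModelField K₁ (M * q)) : LaurentSeries K₁) =
      gIota K₁ A₀ cA := by rw [coe_heckeAlphaBar, hcA]
  refine ⟨a₁, c₁, aA, cA, haA, hcA, hcr, hαa, hαc, ?_⟩
  have h1 : InM (A₀ := A₀) (laurentBaseChange K₁ (modularFunctionFieldFull (M * q)))
      ((heckeAlphaBar K₁ M q c₁ * z' - heckeAlphaBar K₁ M q a₁ : ModelField K₁ (M * q)) :
        LaurentSeries K₁) := fv_inM_of_lift _ (Subtype.mem _) sA hs hsr
  have h2 : InV (A₀ := A₀) (laurentBaseChange K₁ (modularFunctionFieldFull (M * q)))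
      ((heckeAlphaBar K₁ M q c₁ : ModelField K₁ (M * q)) : LaurentSeries K₁) :=
    fv_inV_of_lift _ (Subtype.mem _) cA hαcoe
  have h4 : z * heckeAlphaBar K₁ M q c₁ - heckeAlphaBar K₁ M q a₁ =
      -(z' - z) * heckeAlphaBar K₁ M q c₁ +
        (heckeAlphaBar K₁ M q c₁ * z' - heckeAlphaBar K₁ M q a₁) := by ring
  rw [h4]
  exact fv_inM_add _ (fv_inM_mul _ (fv_inM_neg _ hdiff) h2) h1

/-- **FRAC** in the form of row 959 (helper41's interface): the residue field of `V_∞(E)` is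
the residue field of `V_∞(E')`. -/
theorem modelFrac41 (M q : ℕ) [NeZero M] [NeZero q] (hq : q.Prime) (hqM : ¬ q ∣ M) :
    Fermat.Agent.H41.SS.ModelFracStatement M q := by
  intro K₁ _ _ _ A₀ _ _ _ _ _ hqA z hz
  have hMq : NeZero (M * q) := ⟨Nat.mul_ne_zero (NeZero.ne M) (NeZero.ne q)⟩
  letI : Algebra A₀ (ModelField K₁ (M * q)) :=
    ((algebraMap K₁ (ModelField K₁ (M * q))).comp (algebraMap A₀ K₁)).toAlgebra
  haveI : IsScalarTower A₀ K₁ (ModelField K₁ (M * q)) :=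
    IsScalarTower.of_algebraMap_eq (fun _ => rfl)
  obtain ⟨ϖ, hϖ⟩ := IsDiscreteValuationRing.exists_irreducible A₀
  have : CharZero K₁ := algebraRat.charZero K₁
  have hxMq : jqModC K₁ ∈ laurentBaseChange K₁ (modularFunctionFieldFull (M * q)) := by
    rw [← coeffEmb_jq]
    exact coeffEmb_mem_laurentBaseChange K₁ (jqModC_mem_full ℚ (M * q))
  -- `z` is an element of the model field
  have hzE : z ∈ laurentBaseChange K₁ (modularFunctionFieldFull (M * q)) := by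
    obtain ⟨a, b, ha, hb, hrb, hab⟩ := hz
    have hb0 : gIota K₁ A₀ b ≠ 0 := gIota_ne_zero_of_gRho hrb
    have h1 : z = gIota K₁ A₀ a * (gIota K₁ A₀ b)⁻¹ := by
      rw [← hab, mul_assoc, mul_inv_cancel₀ hb0, mul_one]
    rw [h1]
    exact mul_mem ha (inv_mem hb)
  obtain ⟨a₁, c₁, aA, cA, haA, hcA, hcr, -, -, hM⟩ :=
    frac_main M q hq hqM K₁ A₀ hqA ϖ hϖ ⟨jqModC K₁, hxMq⟩ (by rw [coeffEmb_jq]) ⟨z, hzE⟩ hz
  have hc0 : (c₁ : LaurentSeries K₁) ≠ 0 := by
    rw [hcA]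
    exact gIota_ne_zero_of_gRho hcr
  have hcE : (c₁ : LaurentSeries K₁) ∈ laurentBaseChange K₁ (modularFunctionFieldFull (M * q)) := by
    rw [← coe_heckeAlphaBar M q c₁]
    exact Subtype.mem _
  refine ⟨(a₁ : LaurentSeries K₁) * (c₁ : LaurentSeries K₁)⁻¹, ?_, ?_⟩
  · refine ⟨aA, cA, by rw [← haA]; exact a₁.2, by rw [← hcA]; exact c₁.2, hcr, ?_⟩
    rw [← hcA, ← haA, mul_assoc, inv_mul_cancel₀ hc0, mul_one]
  · have h1 : z - (a₁ : LaurentSeries K₁) * (c₁ : LaurentSeries K₁)⁻¹ =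
        (z * (c₁ : LaurentSeries K₁) - (a₁ : LaurentSeries K₁)) * (c₁ : LaurentSeries K₁)⁻¹ := by
      field_simp
    rw [h1]
    refine fv_inM_mul _ ?_ (fv_inV_inv_of_lift _ hcE cA hcA hcr)
    have h2 : (((⟨z, hzE⟩ : ModelField K₁ (M * q)) * heckeAlphaBar K₁ M q c₁ -
        heckeAlphaBar K₁ M q a₁ : ModelField K₁ (M * q)) : LaurentSeries K₁) =
        z * (c₁ : LaurentSeries K₁) - (a₁ : LaurentSeries K₁) := by
      rw [← coe_heckeAlphaBar M q c₁, ← coe_heckeAlphaBar M q a₁]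
      rfl
    rw [← h2]
    exact hM

end Fermat.Agent.H66.SS
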