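/-
P-SS row 887 (SSH-13 CHART-TRANSFER), helper66.

`chartTransfer : Fermat.Agent.H45.ChartTransferStatement` (unconditional): a maximal ideal
`𝔪 ∋ ϖ` of `B(y⁻¹)` with `y⁻¹ ∉ 𝔪` has the same places as the maximal ideal
`𝔪' = {s ∈ B(y) | ∃ k, y⁻¹ ^ k * s ∈ 𝔪}` of `B(y)`.
-/
import Fermat.Agent.H45.SS.Model

set_option autoImplicit false
set_option linter.unusedSectionVars false
set_option linter.style.haveILetI false

noncomputable section

namespace Fermat.Agent.H66.CT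

open Polynomial
open Fermat.Agent.H22.KL
open Fermat.Agent.H45

section Img

variable {A : Type} [CommRing A] {E : Type} [Field E] [Algebra A E]

/-- the image in `E` of an ideal of a subalgebra of `E` -/
def ctImg (B : Subalgebra A E) (I : Ideal B) : Set E := {z | ∃ h : z ∈ B, (⟨z, h⟩ : B) ∈ I}

variable {B : Subalgebra A E} {I : Ideal B}

theorem ctImg_coe (s : B) : (s : E) ∈ ctImg B I ↔ s ∈ I :=
  ⟨fun ⟨_, h⟩ => h, fun h => ⟨s.2, h⟩⟩

theorem ctImg_mem {z : E} (h : z ∈ ctImg B I) : z ∈ B := h.1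

theorem ctImg_zero : (0 : E) ∈ ctImg B I :=
  (ctImg_coe (0 : B)).mpr I.zero_mem

theorem ctImg_add {a b : E} (ha : a ∈ ctImg B I) (hb : b ∈ ctImg B I) : a + b ∈ ctImg B I := by
  obtain ⟨ha1, ha2⟩ := ha
  obtain ⟨hb1, hb2⟩ := hb
  exact (ctImg_coe (⟨a, ha1⟩ + ⟨b, hb1⟩ : B)).mpr (I.add_mem ha2 hb2)

theorem ctImg_mul_left {b z : E} (hb : b ∈ B) (hz : z ∈ ctImg B I) : b * z ∈ ctImg B I := by
  obtain ⟨hz1, hz2⟩ := hz
  exact (ctImg_coe (⟨b, hb⟩ * ⟨z, hz1⟩ : B)).mpr (I.mul_mem_left _ hz2)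

theorem ctImg_mul_right {b z : E} (hb : b ∈ B) (hz : z ∈ ctImg B I) : z * b ∈ ctImg B I := by
  rw [mul_comm]
  exact ctImg_mul_left hb hz

theorem ctImg_neg {a : E} (ha : a ∈ ctImg B I) : -a ∈ ctImg B I := by
  have := ctImg_mul_left (I := I) (B.neg_mem B.one_mem) ha
  simpa using this

theorem ctImg_sub {a b : E} (ha : a ∈ ctImg B I) (hb : b ∈ ctImg B I) : a - b ∈ ctImg B I := by
  rw [sub_eq_add_neg]
  exact ctImg_add ha (ctImg_neg hb)

theorem ctImg_prime [hI : I.IsPrime] {a b : E} (ha : a ∈ B) (hb : b ∈ B)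
    (h : a * b ∈ ctImg B I) : a ∈ ctImg B I ∨ b ∈ ctImg B I := by
  obtain ⟨h1, h2⟩ := h
  have h3 : (⟨a, ha⟩ * ⟨b, hb⟩ : B) ∈ I := h2
  rcases hI.mem_or_mem h3 with h4 | h4
  · exact Or.inl ⟨ha, h4⟩
  · exact Or.inr ⟨hb, h4⟩

theorem ctImg_one_notMem (hI : I ≠ ⊤) : (1 : E) ∉ ctImg B I := by
  intro h
  apply hI
  rw [Ideal.eq_top_iff_one]
  exact (ctImg_coe (1 : B)).mp h

theorem ctImg_of_pow_mul [hI : I.IsPrime] {u : E} (hu : u ∈ B) (hun : u ∉ ctImg B I)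
    (k : ℕ) {z : E} (hz : z ∈ B) (h : u ^ k * z ∈ ctImg B I) : z ∈ ctImg B I := by
  induction k with
  | zero => simpa using h
  | succ n ih =>
    apply ih
    have h1 : u * (u ^ n * z) ∈ ctImg B I := by
      have : u * (u ^ n * z) = u ^ (n + 1) * z := by ring
      rw [this]
      exact h
    rcases ctImg_prime hu (B.mul_mem (B.pow_mem hu n) hz) h1 with h2 | h2
    · exact absurd h2 hun
    · exact h2

theorem ctImg_pow_notMem [hI : I.IsPrime] {u : E} (hu : u ∈ B) (hun : u ∉ ctImg B I)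
    (k : ℕ) : u ^ k ∉ ctImg B I := by
  intro h
  have h1 : u ^ k * 1 ∈ ctImg B I := by rwa [mul_one]
  exact ctImg_one_notMem hI.ne_top (ctImg_of_pow_mul hu hun k B.one_mem h1)

end Img

section Transfer

variable {A : Type} [CommRing A] {E : Type} [Field E] [Algebra A E]

theorem ct_aeval_mem_chartRing (x : E) (p : A[X]) : aeval x p ∈ chartRing A E x :=
  (Fermat.Agent.H85.klc_mem_chartRing_iff x _).mpr ⟨p, rfl⟩

theorem ct_chartRing_le (x : E) {z : E} (hz : z ∈ chartRing A E x) : z ∈ chartClosure A E x := by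
  rw [Fermat.Agent.H85.klc_mem_chartClosure_iff]
  exact isIntegral_algebraMap (x := (⟨z, hz⟩ : ↥(chartRing A E x)))

theorem ct_aeval_mem (x : E) (p : A[X]) : aeval x p ∈ chartClosure A E x :=
  ct_chartRing_le x (ct_aeval_mem_chartRing x p)

theorem ct_self_mem (x : E) : x ∈ chartClosure A E x := by
  have := ct_aeval_mem (A := A) x X
  rwa [aeval_X] at this

/-- the transferred set: `s` with `y⁻¹ ^ k * s ∈ 𝔪` for some `k` -/
def ctSet (y : E) (𝔪 : Ideal (chartClosure A E y⁻¹)) : Set E :=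
  {s | ∃ k : ℕ, y⁻¹ ^ k * s ∈ ctImg (chartClosure A E y⁻¹) 𝔪}

variable {y : E} {𝔪 : Ideal (chartClosure A E y⁻¹)}

theorem ctSet_zero : (0 : E) ∈ ctSet y 𝔪 := ⟨0, by rw [mul_zero]; exact ctImg_zero⟩

theorem ctSet_add {a b : E} (ha : a ∈ ctSet y 𝔪) (hb : b ∈ ctSet y 𝔪) : a + b ∈ ctSet y 𝔪 := by
  obtain ⟨k, hk⟩ := ha
  obtain ⟨l, hl⟩ := hb
  refine ⟨k + l, ?_⟩
  have h1 : y⁻¹ ^ (k + l) * (a + b) = y⁻¹ ^ l * (y⁻¹ ^ k * a) + y⁻¹ ^ k * (y⁻¹ ^ l * b) := by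
    ring
  rw [h1]
  have hu := ct_self_mem (A := A) y⁻¹
  exact ctImg_add (ctImg_mul_left (Subalgebra.pow_mem _ hu l) hk)
    (ctImg_mul_left (Subalgebra.pow_mem _ hu k) hl)

theorem ctSet_mul (hy : y ≠ 0) {c s : E} (hc : c ∈ chartClosure A E y) (hs : s ∈ ctSet y 𝔪) :
    c * s ∈ ctSet y 𝔪 := by
  obtain ⟨k, hk⟩ := hs
  obtain ⟨j, hj⟩ := Fermat.Agent.H85.klc_overlap hy c hc
  refine ⟨j + k, ?_⟩
  have h1 : y⁻¹ ^ (j + k) * (c * s) = (y⁻¹ ^ j * c) * (y⁻¹ ^ k * s) := by ring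
  rw [h1]
  exact ctImg_mul_left hj hk

/-- the transferred ideal of `B(y)` -/
def ctIdeal (y : E) (hy : y ≠ 0) (𝔪 : Ideal (chartClosure A E y⁻¹)) :
    Ideal (chartClosure A E y) where
  carrier := {s | (s : E) ∈ ctSet y 𝔪}
  add_mem' := fun {a b} ha hb => by
    show ((a + b : chartClosure A E y) : E) ∈ ctSet y 𝔪
    rw [Subalgebra.coe_add]
    exact ctSet_add ha hb
  zero_mem' := by
    show ((0 : chartClosure A E y) : E) ∈ ctSet y 𝔪
    rw [Subalgebra.coe_zero]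
    exact ctSet_zero
  smul_mem' := fun c s hs => by
    show ((c • s : chartClosure A E y) : E) ∈ ctSet y 𝔪
    rw [smul_eq_mul, Subalgebra.coe_mul]
    exact ctSet_mul hy c.2 hs

theorem mem_ctIdeal (hy : y ≠ 0) (s : chartClosure A E y) :
    s ∈ ctIdeal y hy 𝔪 ↔ (s : E) ∈ ctSet y 𝔪 := Iff.rfl

/-- membership in the transferred set can be tested with any admissible exponent -/
theorem ctSet_all [h𝔪 : 𝔪.IsPrime] (hun : y⁻¹ ∉ ctImg (chartClosure A E y⁻¹) 𝔪) {s : E}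
    (hs : s ∈ ctSet y 𝔪) (j : ℕ) (hj : y⁻¹ ^ j * s ∈ chartClosure A E y⁻¹) :
    y⁻¹ ^ j * s ∈ ctImg (chartClosure A E y⁻¹) 𝔪 := by
  obtain ⟨k, hk⟩ := hs
  have hu := ct_self_mem (A := A) y⁻¹
  refine ctImg_of_pow_mul hu hun k hj ?_
  have h1 : y⁻¹ ^ k * (y⁻¹ ^ j * s) = y⁻¹ ^ j * (y⁻¹ ^ k * s) := by ring
  rw [h1]
  exact ctImg_mul_left (Subalgebra.pow_mem _ hu j) hk

theorem ctSet_one_notMem [h𝔪 : 𝔪.IsPrime] (hun : y⁻¹ ∉ ctImg (chartClosure A E y⁻¹) 𝔪) :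
    (1 : E) ∉ ctSet y 𝔪 := by
  rintro ⟨k, hk⟩
  rw [mul_one] at hk
  exact ctImg_pow_notMem (ct_self_mem (A := A) y⁻¹) hun k hk

theorem ctSet_self_notMem [h𝔪 : 𝔪.IsPrime] (hy : y ≠ 0)
    (hun : y⁻¹ ∉ ctImg (chartClosure A E y⁻¹) 𝔪) : y ∉ ctSet y 𝔪 := by
  rintro ⟨k, hk⟩
  have hu := ct_self_mem (A := A) y⁻¹
  have h1 : y⁻¹ * (y⁻¹ ^ k * y) ∈ ctImg (chartClosure A E y⁻¹) 𝔪 := ctImg_mul_left hu hk
  have h2 : y⁻¹ * (y⁻¹ ^ k * y) = y⁻¹ ^ k := by
    field_simp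
  rw [h2] at h1
  exact ctImg_pow_notMem hu hun k h1

end Transfer

section Relation

variable {A : Type} [CommRing A] {E : Type} [Field E] [Algebra A E]

/-- if `t ∈ B(x)` is an inverse of `x` modulo the ideal `I` of `B(x)`, then some polynomial
`P` over `A` with constant coefficient `1` has `P(x) ∈ I` -/
theorem ct_rel_of_integral (x : E) {I : Ideal (chartClosure A E x)} {t : E}
    (ht : t ∈ chartClosure A E x) (hxt : x * t - 1 ∈ ctImg (chartClosure A E x) I) :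
    ∃ P : A[X], P.coeff 0 = 1 ∧ aeval x P ∈ ctImg (chartClosure A E x) I := by
  classical
  obtain ⟨Q, hQm, hQr⟩ := (Fermat.Agent.H85.klc_mem_chartClosure_iff x t).mp ht
  set n := Q.natDegree with hn
  have hc : ∀ i, ∃ p : A[X], aeval x p = ((Q.coeff i : ↥(chartRing A E x)) : E) :=
    fun i => (Fermat.Agent.H85.klc_mem_chartRing_iff x _).mp (Q.coeff i).2
  choose p hp using hc
  -- elements of `B(x)`
  set xB : chartClosure A E x := ⟨x, ct_self_mem x⟩ with hxB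
  set tB : chartClosure A E x := ⟨t, ht⟩ with htB
  set cB : ℕ → chartClosure A E x := fun i => ⟨aeval x (p i), ct_aeval_mem x (p i)⟩ with hcB
  have hsum0 : ∑ i ∈ Finset.range (n + 1), cB i * tB ^ i = 0 := by
    apply Subtype.ext
    rw [AddSubmonoidClass.coe_finsetSum, Subalgebra.coe_zero]
    rw [Polynomial.eval₂_eq_sum_range] at hQr
    rw [← hQr]
    refine Finset.sum_congr rfl fun i _ => ?_
    rw [Subalgebra.coe_mul, Subalgebra.coe_pow]
    show aeval x (p i) * t ^ i = _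
    rw [hp i]
    rfl
  have hxtI : xB * tB - 1 ∈ I := (ctImg_coe (xB * tB - 1)).mp hxt
  have hπ : Ideal.Quotient.mk I (xB * tB) = 1 := by
    have := Ideal.Quotient.eq_zero_iff_mem.mpr hxtI
    rw [map_sub, map_one, sub_eq_zero] at this
    exact this
  have hI : (∑ i ∈ Finset.range (n + 1), cB i * xB ^ (n - i)) ∈ I := by
    rw [← Ideal.Quotient.eq_zero_iff_mem, map_sum]
    have h1 : ∀ i ∈ Finset.range (n + 1), Ideal.Quotient.mk I (cB i * xB ^ (n - i))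
        = Ideal.Quotient.mk I (xB ^ n * (cB i * tB ^ i)) := by
      intro i hi
      have hi' : i ≤ n := Nat.lt_succ_iff.mp (Finset.mem_range.mp hi)
      have h2 : xB ^ n * (cB i * tB ^ i) = cB i * xB ^ (n - i) * (xB * tB) ^ i := by
        rw [mul_pow]
        have h3 : xB ^ n = xB ^ (n - i) * xB ^ i := by
          rw [← pow_add]
          congr 1
          omega
        rw [h3]
        ring
      rw [h2, map_mul _ (cB i * xB ^ (n - i)), map_pow, hπ, one_pow, mul_one]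
    rw [Finset.sum_congr rfl h1, ← map_sum, ← Finset.mul_sum, hsum0, mul_zero, map_zero]
  refine ⟨1 + ∑ i ∈ Finset.range n, p i * X ^ (n - i), ?_, ?_⟩
  · rw [Polynomial.coeff_add, Polynomial.coeff_one_zero, Polynomial.finsetSum_coeff,
      Finset.sum_eq_zero, add_zero]
    intro i hi
    have hi' : i < n := Finset.mem_range.mp hi
    rw [Polynomial.coeff_mul_X_pow', if_neg (by omega)]
  · have hcoe : aeval x (1 + ∑ i ∈ Finset.range n, p i * X ^ (n - i))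
        = ((∑ i ∈ Finset.range (n + 1), cB i * xB ^ (n - i) : chartClosure A E x) : E) := by
      rw [AddSubmonoidClass.coe_finsetSum, Finset.sum_range_succ, map_add, map_one, map_sum,
        add_comm]
      congr 1
      · refine Finset.sum_congr rfl fun i _ => ?_
        rw [map_mul, map_pow, aeval_X, Subalgebra.coe_mul, Subalgebra.coe_pow]
      · rw [Subalgebra.coe_mul, Subalgebra.coe_pow, Nat.sub_self, pow_zero, mul_one]
        show (1 : E) = aeval x (p n)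
        rw [hp n, hn, Polynomial.coeff_natDegree, hQm.leadingCoeff]
        rfl
    rw [hcoe]
    exact (ctImg_coe _).mpr hI

/-- make the leading coefficient a unit -/
theorem ct_strip [IsDomain A] [IsDiscreteValuationRing A] {ϖ : A} (hϖ : Irreducible ϖ) (x : E)
    {I : Ideal (chartClosure A E x)} (hϖI : algebraMap A (chartClosure A E x) ϖ ∈ I) :
    ∀ (n : ℕ) (P : A[X]), P.natDegree ≤ n → IsUnit (P.coeff 0) →
      aeval x P ∈ ctImg (chartClosure A E x) I →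
      ∃ P' : A[X], IsUnit P'.leadingCoeff ∧ aeval x P' ∈ ctImg (chartClosure A E x) I := by
  intro n
  induction n with
  | zero =>
    intro P hdeg h0 hP
    refine ⟨P, ?_, hP⟩
    rw [Polynomial.leadingCoeff, Nat.le_zero.mp hdeg]
    exact h0
  | succ n ih =>
    intro P hdeg h0 hP
    by_cases hlc : IsUnit P.leadingCoeff
    · exact ⟨P, hlc, hP⟩
    by_cases hdeg' : P.natDegree ≤ n
    · exact ih P hdeg' h0 hP
    have hd : P.natDegree = n + 1 := by omega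
    have hmem : P.leadingCoeff ∈ IsLocalRing.maximalIdeal A :=
      (IsLocalRing.mem_maximalIdeal _).mpr hlc
    rw [hϖ.maximalIdeal_eq, Ideal.mem_span_singleton] at hmem
    obtain ⟨c, hc⟩ := hmem
    refine ih P.eraseLead ?_ ?_ ?_
    · have := Polynomial.eraseLead_natDegree_le P
      omega
    · rw [Polynomial.eraseLead_coeff_of_ne 0 (by omega)]
      exact h0
    · have h1 : aeval x P.eraseLead = aeval x P - aeval x (C P.leadingCoeff * X ^ P.natDegree) := by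
        rw [← map_sub]
        congr 1
        exact eq_sub_of_add_eq (Polynomial.eraseLead_add_C_mul_X_pow P)
      rw [h1]
      refine ctImg_sub hP ?_
      rw [map_mul, map_pow, aeval_X, aeval_C, hc, map_mul, mul_assoc]
      refine ctImg_mul_right (Subalgebra.mul_mem _ (Subalgebra.algebraMap_mem _ c)
        (Subalgebra.pow_mem _ (ct_self_mem x) _)) ?_
      exact (ctImg_coe (algebraMap A (chartClosure A E x) ϖ)).mpr hϖI

variable {y : E} {𝔪 : Ideal (chartClosure A E y⁻¹)}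

/-- from a relation with unit leading coefficient for `y⁻¹` modulo `𝔪`: `y` is invertible
modulo the transferred ideal -/
theorem ct_inv_of_rel (hy : y ≠ 0) (P : A[X]) (hP : IsUnit P.leadingCoeff)
    (hPM : aeval y⁻¹ P ∈ ctImg (chartClosure A E y⁻¹) 𝔪) :
    ∃ w ∈ chartClosure A E y, y * w - 1 ∈ ctSet y 𝔪 := by
  have hrev : aeval y P.reverse * y⁻¹ ^ P.natDegree = aeval y⁻¹ P := by
    letI : Invertible y⁻¹ := invertibleOfNonzero (inv_ne_zero hy)
    have h := Polynomial.eval₂_reverse_mul_pow (algebraMap A E) y⁻¹ P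
    rw [invOf_eq_inv, inv_inv] at h
    exact h
  have hQ : aeval y P.reverse ∈ ctSet y 𝔪 := ⟨P.natDegree, by rw [mul_comm, hrev]; exact hPM⟩
  obtain ⟨c', hc'⟩ := hP.exists_left_inv
  have hdec : aeval y P.reverse = aeval y P.reverse.divX * y + algebraMap A E P.leadingCoeff := by
    conv_lhs => rw [← Polynomial.divX_mul_X_add P.reverse]
    rw [map_add, map_mul, aeval_X, aeval_C, Polynomial.coeff_zero_reverse]
  refine ⟨-(algebraMap A E c') * aeval y P.reverse.divX,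
    Subalgebra.mul_mem _ (Subalgebra.neg_mem _ (Subalgebra.algebraMap_mem _ c'))
      (ct_aeval_mem y _), ?_⟩
  have h1 : y * (-(algebraMap A E c') * aeval y P.reverse.divX) - 1
      = -(algebraMap A E c') * aeval y P.reverse := by
    rw [hdec]
    have h2 : algebraMap A E c' * algebraMap A E P.leadingCoeff = 1 := by
      rw [← map_mul, hc', map_one]
    linear_combination h2
  rw [h1]
  exact ctSet_mul hy (Subalgebra.neg_mem _ (Subalgebra.algebraMap_mem _ c')) hQ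

/-- `y` is invertible modulo the transferred ideal -/
theorem ct_exists_inv [IsDomain A] [IsDiscreteValuationRing A] {ϖ : A} (hϖ : Irreducible ϖ)
    (hy : y ≠ 0) (h𝔪 : 𝔪.IsMaximal)
    (hϖ𝔪 : algebraMap A (chartClosure A E y⁻¹) ϖ ∈ 𝔪)
    (hun : y⁻¹ ∉ ctImg (chartClosure A E y⁻¹) 𝔪) :
    ∃ w ∈ chartClosure A E y, y * w - 1 ∈ ctSet y 𝔪 := by
  have hu := ct_self_mem (A := A) y⁻¹
  have hun' : (⟨y⁻¹, hu⟩ : chartClosure A E y⁻¹) ∉ 𝔪 := fun h => hun ⟨hu, h⟩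
  obtain ⟨t, i, hi, hti⟩ := h𝔪.exists_inv hun'
  have hxt : y⁻¹ * (t : E) - 1 ∈ ctImg (chartClosure A E y⁻¹) 𝔪 := by
    have h1 : y⁻¹ * (t : E) - 1 = ((-i : chartClosure A E y⁻¹) : E) := by
      have h2 := congrArg (fun z : chartClosure A E y⁻¹ => (z : E)) hti
      simp only [Subalgebra.coe_add, Subalgebra.coe_mul, Subalgebra.coe_one] at h2
      rw [Subalgebra.coe_neg]
      linear_combination h2
    rw [h1]
    exact (ctImg_coe _).mpr (𝔪.neg_mem hi)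
  obtain ⟨P, hP0, hPM⟩ := ct_rel_of_integral y⁻¹ t.2 hxt
  obtain ⟨P', hP'lc, hP'M⟩ := ct_strip hϖ y⁻¹ hϖ𝔪 P.natDegree P le_rfl
    (by rw [hP0]; exact isUnit_one) hPM
  exact ct_inv_of_rel hy P' hP'lc hP'M

end Relation

section Maximal

variable {A : Type} [CommRing A] {E : Type} [Field E] [Algebra A E]
variable {y : E} {𝔪 : Ideal (chartClosure A E y⁻¹)}

theorem ctIdeal_ne_top [h𝔪 : 𝔪.IsPrime] (hy : y ≠ 0)
    (hun : y⁻¹ ∉ ctImg (chartClosure A E y⁻¹) 𝔪) : (1 : chartClosure A E y) ∉ ctIdeal y hy 𝔪 := by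
  intro h
  exact ctSet_one_notMem hun ((mem_ctIdeal hy _).mp h)

theorem ctIdeal_pi (hy : y ≠ 0) {ϖ : A}
    (hϖ𝔪 : algebraMap A (chartClosure A E y⁻¹) ϖ ∈ 𝔪) :
    algebraMap A (chartClosure A E y) ϖ ∈ ctIdeal y hy 𝔪 := by
  rw [mem_ctIdeal]
  refine ⟨0, ?_⟩
  have h1 := (ctImg_coe (algebraMap A (chartClosure A E y⁻¹) ϖ)).mpr hϖ𝔪
  rw [Subalgebra.coe_algebraMap] at h1
  rw [pow_zero, one_mul, Subalgebra.coe_algebraMap]
  exact h1

/-- the transferred ideal is maximal -/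
theorem ctIdeal_isMaximal [IsDomain A] [IsDiscreteValuationRing A] {ϖ : A} (hϖ : Irreducible ϖ)
    (hy : y ≠ 0) (h𝔪 : 𝔪.IsMaximal)
    (hϖ𝔪 : algebraMap A (chartClosure A E y⁻¹) ϖ ∈ 𝔪)
    (hun : y⁻¹ ∉ ctImg (chartClosure A E y⁻¹) 𝔪) : (ctIdeal y hy 𝔪).IsMaximal := by
  haveI : 𝔪.IsPrime := h𝔪.isPrime
  rw [Ideal.isMaximal_iff]
  refine ⟨ctIdeal_ne_top hy hun, fun J s hJ hs hsJ => ?_⟩
  obtain ⟨w, hw, hyw⟩ := ct_exists_inv hϖ hy h𝔪 hϖ𝔪 hun
  obtain ⟨k, hk⟩ := Fermat.Agent.H85.klc_overlap hy (s : E) s.2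
  have hkn : (⟨y⁻¹ ^ k * (s : E), hk⟩ : chartClosure A E y⁻¹) ∉ 𝔪 := fun h =>
    hs ((mem_ctIdeal hy s).mpr ⟨k, ⟨hk, h⟩⟩)
  obtain ⟨t', i, hi, hti⟩ := h𝔪.exists_inv hkn
  obtain ⟨j, hj⟩ := Fermat.Agent.H85.klc_overlap (inv_ne_zero hy) (t' : E) t'.2
  rw [inv_inv] at hj
  have hrel : (t' : E) * (y⁻¹ ^ k * (s : E)) + (i : E) = 1 := by
    have h2 := congrArg (fun z : chartClosure A E y⁻¹ => (z : E)) hti
    simpa only [Subalgebra.coe_add, Subalgebra.coe_mul, Subalgebra.coe_one] using h2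
  set T : chartClosure A E y := ⟨y ^ j * (t' : E), hj⟩ with hT
  set Y : chartClosure A E y := ⟨y, ct_self_mem y⟩ with hY
  set W : chartClosure A E y := ⟨w, hw⟩ with hW
  have h1 : s * T - Y ^ (j + k) ∈ J := by
    apply hJ
    rw [mem_ctIdeal]
    refine ⟨j + k, ?_⟩
    have h3 : y⁻¹ ^ (j + k) * (((s * T - Y ^ (j + k) : chartClosure A E y)) : E)
        = ((-i : chartClosure A E y⁻¹) : E) := by
      rw [Subalgebra.coe_sub, Subalgebra.coe_mul, Subalgebra.coe_pow, Subalgebra.coe_neg]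
      show y⁻¹ ^ (j + k) * ((s : E) * (y ^ j * (t' : E)) - y ^ (j + k)) = -(i : E)
      have h4 : y⁻¹ ^ (j + k) * y ^ (j + k) = 1 := by
        rw [← mul_pow, inv_mul_cancel₀ hy, one_pow]
      have h5 : y⁻¹ ^ j * y ^ j = 1 := by
        rw [← mul_pow, inv_mul_cancel₀ hy, one_pow]
      have h6 : y⁻¹ ^ (j + k) * ((s : E) * (y ^ j * (t' : E)) - y ^ (j + k))
          = (y⁻¹ ^ j * y ^ j) * ((t' : E) * (y⁻¹ ^ k * (s : E))) - y⁻¹ ^ (j + k) * y ^ (j + k) := by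
        rw [pow_add]
        ring
      rw [h6, h4, h5]
      linear_combination hrel
    rw [h3]
    exact (ctImg_coe _).mpr (𝔪.neg_mem hi)
  have h2 : (Y * W) ^ (j + k) - 1 ∈ J := by
    apply hJ
    have h3 : Y * W - 1 ∈ ctIdeal y hy 𝔪 := by
      rw [mem_ctIdeal]
      exact hyw
    have h4 : Y * W - 1 ∣ (Y * W) ^ (j + k) - 1 := by
      have := sub_dvd_pow_sub_pow (Y * W) 1 (j + k)
      rwa [one_pow] at this
    exact Ideal.mem_of_dvd _ h4 h3
  have h3 : (1 : chartClosure A E y)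
      = (s * T - (s * T - Y ^ (j + k))) * W ^ (j + k) - ((Y * W) ^ (j + k) - 1) := by
    ring
  rw [h3]
  exact J.sub_mem (J.mul_mem_right _ (J.sub_mem (J.mul_mem_right _ hsJ) h1)) h2

end Maximal

section Places

variable {A : Type} [CommRing A] {E : Type} [Field E] [Algebra A E]
variable {y : E} {𝔪 : Ideal (chartClosure A E y⁻¹)}

theorem ct_inv_mem {V : ValuationSubring E} {u : E} (hu : u ∈ V) (hn : u ∉ V.nonunits) :
    u⁻¹ ∈ V := by
  rw [← V.valuation_le_one_iff] at hu ⊢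
  rw [V.mem_nonunits_iff, not_lt] at hn
  rw [map_inv₀, le_antisymm hu hn, inv_one]

theorem ct_mul_mem_nonunits {V : ValuationSubring E} {a b : E} (ha : a ∈ V)
    (hb : b ∈ V.nonunits) : a * b ∈ V.nonunits := by
  rw [ValuationSubring.mem_nonunits_iff_exists_mem_maximalIdeal] at hb ⊢
  obtain ⟨hb1, hb2⟩ := hb
  exact ⟨V.mul_mem _ _ ha hb1, Ideal.mul_mem_left _ (⟨a, ha⟩ : V) hb2⟩

/-- the two maximal ideals have the same places -/
theorem ct_centred_iff (hy : y ≠ 0) [h𝔪 : 𝔪.IsPrime]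
    (hun : y⁻¹ ∉ ctImg (chartClosure A E y⁻¹) 𝔪) (V : ValuationSubring E) :
    CentredAt A E y⁻¹ 𝔪 V ↔ CentredAt A E y (ctIdeal y hy 𝔪) V := by
  have hu := ct_self_mem (A := A) y⁻¹
  constructor
  · rintro ⟨⟨hPl, huV⟩, hc⟩
    have hunV : y⁻¹ ∉ V.nonunits := fun h => hun ⟨hu, hc ⟨y⁻¹, hu⟩ h⟩
    have hyV : y ∈ V := by
      have := ct_inv_mem huV hunV
      rwa [inv_inv] at this
    refine ⟨⟨hPl, hyV⟩, fun s hs => ?_⟩
    obtain ⟨k, hk⟩ := Fermat.Agent.H85.klc_overlap hy (s : E) s.2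
    rw [mem_ctIdeal]
    refine ⟨k, ⟨hk, ?_⟩⟩
    exact hc ⟨y⁻¹ ^ k * (s : E), hk⟩ (ct_mul_mem_nonunits (V.pow_mem huV k) hs)
  · rintro ⟨⟨hPl, hyV⟩, hc⟩
    have hynV : y ∉ V.nonunits := fun h =>
      ctSet_self_notMem hy hun ((mem_ctIdeal hy _).mp (hc ⟨y, ct_self_mem y⟩ h))
    have huV : y⁻¹ ∈ V := ct_inv_mem hyV hynV
    refine ⟨⟨hPl, huV⟩, fun t ht => ?_⟩
    obtain ⟨k, hk⟩ := Fermat.Agent.H85.klc_overlap (inv_ne_zero hy) (t : E) t.2
    rw [inv_inv] at hk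
    have h1 : (⟨y ^ k * (t : E), hk⟩ : chartClosure A E y) ∈ ctIdeal y hy 𝔪 :=
      hc ⟨y ^ k * (t : E), hk⟩ (ct_mul_mem_nonunits (V.pow_mem hyV k) ht)
    have h2 : y⁻¹ ^ k * (y ^ k * (t : E)) = (t : E) := by
      rw [← mul_assoc, ← mul_pow, inv_mul_cancel₀ hy, one_pow, one_mul]
    have h3 := ctSet_all hun ((mem_ctIdeal hy _).mp h1) k (by rw [h2]; exact t.2)
    rw [h2] at h3
    exact (ctImg_coe t).mp h3

end Places

/-- **CHART TRANSFER** (row SSH-13), unconditional. -/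
theorem chartTransfer : ChartTransferStatement := by
  intro A _ _ _ E₀ _ _ _ _hinj ϖ hϖ y hy _hfd 𝔪 h𝔪 hϖ𝔪 hs
  have hy0 : y ≠ 0 := by
    rintro rfl
    exact hy isAlgebraic_zero
  obtain ⟨s, hs1, hs2⟩ := hs
  have hun : y⁻¹ ∉ ctImg (chartClosure A E₀ y⁻¹) 𝔪 := by
    rintro ⟨h1, h2⟩
    apply hs2
    have : s = ⟨y⁻¹, h1⟩ := Subtype.ext hs1
    rw [this]
    exact h2
  haveI : 𝔪.IsPrime := h𝔪.isPrime
  exact ⟨ctIdeal y hy0 𝔪, ctIdeal_isMaximal hϖ hy0 h𝔪 hϖ𝔪 hun, ctIdeal_pi hy0 hϖ𝔪,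
    fun V => ct_centred_iff hy0 hun V⟩

end Fermat.Agent.H66.CT
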