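import Mathlib

/-!
# P-SS, level-9 twin of row 963 (SS-HM9-BASICS), generic part (Mathlib only; helper66)

If `y` is integral over `R₀`, `3` is invertible in `R₀` and
`y h⁹ (h² + 9 h + 27) = (h + 9)³ (h³ + 243 h² + 2187 h + 6561)³ =: N(h)` in a field `E`, then
`h` and `1 / (h (h² + 9 h + 27))` are integral over `R₀`:
* `h` is a root of the monic polynomial `N(T) - y T⁹ (T² + 9 T + 27)`;
* `N(T) = 3³⁰ + T b(T)`, hence `3³⁰ / h = y h⁸ (h² + 9 h + 27) - b(h)`;
* `N(T) = 3¹⁸ + (T² + 9 T + 27) a(T)`, hence `3¹⁸ / (h² + 9 h + 27) = y h⁹ - a(h)`.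
-/

set_option autoImplicit false
set_option linter.unusedSectionVars false
set_option linter.style.haveILetI false
set_option maxHeartbeats 1000000

noncomputable section

namespace Fermat.Agent.H66.SSHaupt9

open Polynomial

section Generic

variable {R₀ E : Type*} [CommRing R₀] [Field E] [Algebra R₀ E]

/-- A root of a monic polynomial with coefficients integral over `R₀` is integral over `R₀`. -/
theorem isIntegral_of_monic_root9 (z : E) (p : (integralClosure R₀ E)[X]) (hp : p.Monic)
    (hz : eval₂ (algebraMap (integralClosure R₀ E) E) z p = 0) : IsIntegral R₀ z :=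
  isIntegral_trans (A := integralClosure R₀ E) z ⟨p, hp, hz⟩

theorem isIntegral_haupt9 (y h : E) (hy : IsIntegral R₀ y)
    (hrel : y * h ^ 9 * (h ^ 2 + 9 * h + 27)
      = (h + 9) ^ 3 * (h ^ 3 + 243 * h ^ 2 + 2187 * h + 6561) ^ 3) : IsIntegral R₀ h := by
  set yB : integralClosure R₀ E := ⟨y, hy⟩ with hyB
  refine isIntegral_of_monic_root9 h
    ((X + C 9) ^ 3 * (X ^ 3 + C 243 * X ^ 2 + C 2187 * X + C 6561) ^ 3
      - C yB * X ^ 9 * (X ^ 2 + C 9 * X + C 27)) (by monicity!) ?_
  simp only [eval₂_sub, eval₂_pow, eval₂_add, eval₂_mul, eval₂_X, eval₂_C, eval₂_ofNat, map_ofNat]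
  have : algebraMap (integralClosure R₀ E) E yB = y := rfl
  rw [this]
  linear_combination -hrel

/-- `3³⁰ / h` is integral -/
theorem isIntegral_haupt9_inv (y h : E) (hy : IsIntegral R₀ y) (h0 : h ≠ 0)
    (hrel : y * h ^ 9 * (h ^ 2 + 9 * h + 27)
      = (h + 9) ^ 3 * (h ^ 3 + 243 * h ^ 2 + 2187 * h + 6561) ^ 3) :
    IsIntegral R₀ (205891132094649 / h) := by
  have hh : IsIntegral R₀ h := isIntegral_haupt9 y h hy hrel
  have hn : ∀ n : ℕ, IsIntegral R₀ ((n : ℕ) : E) := fun n => isIntegral_natCast n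
  have key : 205891132094649 / h = y * h ^ 8 * (h ^ 2 + 9 * h + 27)
      - (274521509459532 + 167763144669714 * h + 61381352595204 * h ^ 2
        + 14780479075839 * h ^ 3 + 2426801943096 * h ^ 4 + 272112672348 * h ^ 5
        + 20241524808 * h ^ 6 + 930553191 * h ^ 7 + 22695228 * h ^ 8 + 203634 * h ^ 9
        + 756 * h ^ 10 + h ^ 11) := by
    rw [div_eq_iff h0]
    linear_combination -hrel
  rw [key]
  have h9 : IsIntegral R₀ (9 : E) := by exact_mod_cast hn 9
  have h27 : IsIntegral R₀ (27 : E) := by exact_mod_cast hn 27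
  refine IsIntegral.sub ((hy.mul (hh.pow 8)).mul (((hh.pow 2).add (h9.mul hh)).add h27)) ?_
  have c0 : IsIntegral R₀ (274521509459532 : E) := by exact_mod_cast hn 274521509459532
  have c1 : IsIntegral R₀ (167763144669714 : E) := by exact_mod_cast hn 167763144669714
  have c2 : IsIntegral R₀ (61381352595204 : E) := by exact_mod_cast hn 61381352595204
  have c3 : IsIntegral R₀ (14780479075839 : E) := by exact_mod_cast hn 14780479075839
  have c4 : IsIntegral R₀ (2426801943096 : E) := by exact_mod_cast hn 2426801943096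
  have c5 : IsIntegral R₀ (272112672348 : E) := by exact_mod_cast hn 272112672348
  have c6 : IsIntegral R₀ (20241524808 : E) := by exact_mod_cast hn 20241524808
  have c7 : IsIntegral R₀ (930553191 : E) := by exact_mod_cast hn 930553191
  have c8 : IsIntegral R₀ (22695228 : E) := by exact_mod_cast hn 22695228
  have c9 : IsIntegral R₀ (203634 : E) := by exact_mod_cast hn 203634
  have c10 : IsIntegral R₀ (756 : E) := by exact_mod_cast hn 756
  exact (((((((((((c0.add (c1.mul hh)).add (c2.mul (hh.pow 2))).add (c3.mul (hh.pow 3))).add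
    (c4.mul (hh.pow 4))).add (c5.mul (hh.pow 5))).add (c6.mul (hh.pow 6))).add
    (c7.mul (hh.pow 7))).add (c8.mul (hh.pow 8))).add (c9.mul (hh.pow 9))).add
    (c10.mul (hh.pow 10))).add (hh.pow 11))

/-- `3¹⁸ / (h² + 9 h + 27)` is integral -/
theorem isIntegral_haupt9_inv' (y h : E) (hy : IsIntegral R₀ y)
    (hD : h ^ 2 + 9 * h + 27 ≠ 0)
    (hrel : y * h ^ 9 * (h ^ 2 + 9 * h + 27)
      = (h + 9) ^ 3 * (h ^ 3 + 243 * h ^ 2 + 2187 * h + 6561) ^ 3) :
    IsIntegral R₀ (387420489 / (h ^ 2 + 9 * h + 27)) := by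
  have hh : IsIntegral R₀ h := isIntegral_haupt9 y h hy hrel
  have hn : ∀ n : ℕ, IsIntegral R₀ ((n : ℕ) : E) := fun n => isIntegral_natCast n
  have key : 387420489 / (h ^ 2 + 9 * h + 27) = y * h ^ 9
      - (7625583136080 + 7625602267956 * h + 3389153374890 * h ^ 2 + 861235924194 * h ^ 3
        + 134822310489 * h ^ 4 + 13043156463 * h ^ 5 + 737109396 * h ^ 6 + 20903103 * h ^ 7
        + 196884 * h ^ 8 + 747 * h ^ 9 + h ^ 10) := by
    rw [div_eq_iff hD]
    linear_combination -hrel
  rw [key]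
  refine IsIntegral.sub (hy.mul (hh.pow 9)) ?_
  have c0 : IsIntegral R₀ (7625583136080 : E) := by exact_mod_cast hn 7625583136080
  have c1 : IsIntegral R₀ (7625602267956 : E) := by exact_mod_cast hn 7625602267956
  have c2 : IsIntegral R₀ (3389153374890 : E) := by exact_mod_cast hn 3389153374890
  have c3 : IsIntegral R₀ (861235924194 : E) := by exact_mod_cast hn 861235924194
  have c4 : IsIntegral R₀ (134822310489 : E) := by exact_mod_cast hn 134822310489
  have c5 : IsIntegral R₀ (13043156463 : E) := by exact_mod_cast hn 13043156463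
  have c6 : IsIntegral R₀ (737109396 : E) := by exact_mod_cast hn 737109396
  have c7 : IsIntegral R₀ (20903103 : E) := by exact_mod_cast hn 20903103
  have c8 : IsIntegral R₀ (196884 : E) := by exact_mod_cast hn 196884
  have c9 : IsIntegral R₀ (747 : E) := by exact_mod_cast hn 747
  exact ((((((((((c0.add (c1.mul hh)).add (c2.mul (hh.pow 2))).add (c3.mul (hh.pow 3))).add
    (c4.mul (hh.pow 4))).add (c5.mul (hh.pow 5))).add (c6.mul (hh.pow 6))).add
    (c7.mul (hh.pow 7))).add (c8.mul (hh.pow 8))).add (c9.mul (hh.pow 9))).add (hh.pow 10))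

/-- `h` and `1 / (h (h² + 9 h + 27))` are integral over `R₀` (`3` invertible in `R₀`;
`79766443076872509863361 = 3⁴⁸`). -/
theorem isIntegral_haupt9_unit (c : R₀) (hc : c * 79766443076872509863361 = 1) (y h : E) (hy : IsIntegral R₀ y)
    (h0 : h ≠ 0) (hD : h ^ 2 + 9 * h + 27 ≠ 0)
    (hrel : y * h ^ 9 * (h ^ 2 + 9 * h + 27)
      = (h + 9) ^ 3 * (h ^ 3 + 243 * h ^ 2 + 2187 * h + 6561) ^ 3) :
    IsIntegral R₀ h ∧ ∃ u : E, IsIntegral R₀ u ∧ u * (h * (h ^ 2 + 9 * h + 27)) = 1 := by
  refine ⟨isIntegral_haupt9 y h hy hrel,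
    algebraMap R₀ E c * ((205891132094649 / h) * (387420489 / (h ^ 2 + 9 * h + 27))), ?_, ?_⟩
  · exact isIntegral_algebraMap.mul
      ((isIntegral_haupt9_inv y h hy h0 hrel).mul (isIntegral_haupt9_inv' y h hy hD hrel))
  · have h1 : algebraMap R₀ E c * 79766443076872509863361 = 1 := by
      have := congrArg (algebraMap R₀ E) hc
      rw [map_mul, map_ofNat, map_one] at this
      exact this
    have e1 : (205891132094649 : E) / h * h = 205891132094649 := div_mul_cancel₀ _ h0
    have e2 : (387420489 : E) / (h ^ 2 + 9 * h + 27) * (h ^ 2 + 9 * h + 27) = 387420489 :=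
      div_mul_cancel₀ _ hD
    linear_combination
      (algebraMap R₀ E c * (387420489 / (h ^ 2 + 9 * h + 27) * (h ^ 2 + 9 * h + 27))) * e1
      + (algebraMap R₀ E c * 205891132094649) * e2 + h1

end Generic

end Fermat.Agent.H66.SSHaupt9
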