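import Mathlib
import Fermat.Agent.H31.SS.CrossInterfaces9
import Fermat.Agent.H66.SS.ModelIntegral
import Fermat.Agent.H2.KLBRModel
import Fermat.Agent.H22.ES.KLFinalJ
import Fermat.Agent.H66.SS.Haupt9Generic

/-!
# P-SS, level-9 twin of row 963 (SS-HM9-BASICS, helper66): `ModelHauptBasicsH9Statement M q`

`H = α(H_M)`, `H_q = β(H_M)` for the Hauptmodul `H_M = h9S` of level `9 ∣ M` in the model field
of level `M`; `j(t^q) = β(j) = W j` is integral over `A₀[j]`; the relation
`j H⁹ (H² + 9 H + 27) = (H + 9)³ (H³ + 243 H² + 2187 H + 6561)³` (and its image under `β`) gives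
the integrality of `H`, `H_q` and of `1 / (H (H² + 9 H + 27))`,
`1 / (H_q (H_q² + 9 H_q + 27))` (`3` is a unit of `A₀`).
-/

set_option autoImplicit false
set_option linter.unusedSectionVars false
set_option linter.style.haveILetI false
set_option maxHeartbeats 1000000
set_option synthInstance.maxHeartbeats 400000

noncomputable section

namespace Fermat.Agent.H66.SSHaupt9

open Polynomial ModularCurve AlgebraicCurve
open Fermat.Agent.H22.KL Fermat.Agent.H82.SS Fermat.Agent.H31.SS

/-- `W_q` preserves `B(j)` (level `M q`; generic in the auxiliary level). -/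
theorem atkinLehner_preserves_chartClosure (M q : ℕ) [NeZero M] [NeZero q]
    (K₁ : Type) [Field K₁] [Algebra ℚ K₁] [FiniteDimensional ℚ K₁]
    (A₀ : Type) [CommRing A₀] [IsDomain A₀] [IsDiscreteValuationRing A₀]
    [Algebra A₀ K₁] [IsFractionRing A₀ K₁]
    [Algebra A₀ (ModelField K₁ (M * q))] [IsScalarTower A₀ K₁ (ModelField K₁ (M * q))]
    (x : ModelField K₁ (M * q)) (hx : (x : LaurentSeries K₁) = coeffEmb K₁ jq)
    (W : ModelField K₁ (M * q) ≃ₐ[K₁] ModelField K₁ (M * q)) (hW : IsAtkinLehnerModel K₁ M q W) :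
    ∀ s ∈ chartClosure A₀ (ModelField K₁ (M * q)) x,
      W s ∈ chartClosure A₀ (ModelField K₁ (M * q)) x := by
  set jM : ModelField K₁ M :=
    ⟨coeffEmb K₁ jq, coeffEmb_mem_laurentBaseChange K₁ (jq_mem_full' M)⟩ with hjM
  set xq : ModelField K₁ (M * q) := heckeBetaBar K₁ M q jM with hxq
  have hxα : x = heckeAlphaBar K₁ M q jM := Subtype.ext (by rw [hx, coe_heckeAlphaBar])
  have hmem : ∀ z : ModelField K₁ (M * q), z ∈ chartClosure A₀ (ModelField K₁ (M * q)) x ↔
      IsIntegral ↥(chartRing A₀ (ModelField K₁ (M * q)) x) z := by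
    intro z
    unfold chartClosure
    rw [Subalgebra.mem_restrictScalars, mem_integralClosure_iff]
  have hxqint : IsIntegral ↥(chartRing A₀ (ModelField K₁ (M * q)) x) xq := by
    rw [← hmem, Fermat.Agent.H87.KL.mem_chartClosure_iff]
    refine Fermat.Agent.H66.SS.smi_gen x hx xq q ?_
    rw [hxq, coe_heckeBetaBar]
    show qExpand K₁ q (coeffEmb K₁ jq) = _
    rw [Fermat.Agent.H27.KLGB.coeffEmb_jq]
  intro s hs
  rw [hmem] at hs ⊢
  obtain ⟨p, hp, hps⟩ := hs
  have hWx : W x = xq := by rw [hxα, hW.1]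
  have hWa : ∀ a : A₀, W (algebraMap A₀ (ModelField K₁ (M * q)) a) =
      algebraMap A₀ (ModelField K₁ (M * q)) a := by
    intro a
    rw [IsScalarTower.algebraMap_apply A₀ K₁ (ModelField K₁ (M * q)), W.commutes]
  have hWR : ∀ r : ↥(chartRing A₀ (ModelField K₁ (M * q)) x),
      IsIntegral ↥(chartRing A₀ (ModelField K₁ (M * q)) x) (W (r : ModelField K₁ (M * q))) := by
    rintro ⟨r, hr⟩
    show IsIntegral ↥(chartRing A₀ (ModelField K₁ (M * q)) x) (W r)
    unfold chartRing at hr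
    induction hr using Algebra.adjoin_induction with
    | mem z hz =>
      rw [Set.mem_singleton_iff] at hz
      subst hz
      rw [hWx]
      exact hxqint
    | algebraMap a =>
      rw [hWa]
      have : algebraMap A₀ (ModelField K₁ (M * q)) a =
          algebraMap ↥(chartRing A₀ (ModelField K₁ (M * q)) x) (ModelField K₁ (M * q))
            (algebraMap A₀ ↥(chartRing A₀ (ModelField K₁ (M * q)) x) a) := rfl
      rw [this]
      exact isIntegral_algebraMap
    | add a b _ _ ha hb =>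
      rw [map_add]
      exact ha.add hb
    | mul a b _ _ ha hb =>
      rw [map_mul]
      exact ha.mul hb
  set φ : ↥(chartRing A₀ (ModelField K₁ (M * q)) x) →+*
      ↥(integralClosure ↥(chartRing A₀ (ModelField K₁ (M * q)) x) (ModelField K₁ (M * q))) :=
    RingHom.codRestrict
      ((W : ModelField K₁ (M * q) →+* ModelField K₁ (M * q)).comp
        (algebraMap ↥(chartRing A₀ (ModelField K₁ (M * q)) x) (ModelField K₁ (M * q))))
      (integralClosure ↥(chartRing A₀ (ModelField K₁ (M * q)) x)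
        (ModelField K₁ (M * q))).toSubring
      (fun r => hWR r) with hφ
  refine isIntegral_of_monic_root9 (W s) (p.map φ) (hp.map φ) ?_
  rw [eval₂_map]
  have hcomp : (algebraMap
      ↥(integralClosure ↥(chartRing A₀ (ModelField K₁ (M * q)) x) (ModelField K₁ (M * q)))
      (ModelField K₁ (M * q))).comp φ =
      (W : ModelField K₁ (M * q) →+* ModelField K₁ (M * q)).comp
        (algebraMap ↥(chartRing A₀ (ModelField K₁ (M * q)) x) (ModelField K₁ (M * q))) := rfl
  rw [hcomp]
  have h3 := Polynomial.hom_eval₂ p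
    (algebraMap ↥(chartRing A₀ (ModelField K₁ (M * q)) x) (ModelField K₁ (M * q)))
    (W : ModelField K₁ (M * q) →+* ModelField K₁ (M * q)) s
  rw [hps, map_zero] at h3
  exact h3.symm

/-- **SS-HM9-BASICS** (level-9 twin of row 963). -/
theorem modelHauptBasicsH9 (M q : ℕ) [NeZero M] [NeZero q] (h9 : 9 ∣ M) (hq : q.Prime)
    (hq3 : q ≠ 3) (_hqM : ¬ q ∣ M) : ModelHauptBasicsH9Statement M q := by
  intro K₁ _ _ _ A₀ _ _ _ _ _ _ _ hqA x hx W hW
  -- the level-`M` elements
  set jM : ModelField K₁ M :=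
    ⟨coeffEmb K₁ jq, coeffEmb_mem_laurentBaseChange K₁ (jq_mem_full' M)⟩ with hjM
  set HM : ModelField K₁ M := ⟨h9S K₁, h9S_mem_laurentBaseChange K₁ M h9⟩ with hHM
  have hrelM : jM * HM ^ 9 * (HM ^ 2 + 9 * HM + 27)
      = (HM + 9) ^ 3 * (HM ^ 3 + 243 * HM ^ 2 + 2187 * HM + 6561) ^ 3 := by
    apply (IntermediateField.val (laurentBaseChange K₁ (modularFunctionFieldFull M))).injective
    simp only [map_mul, map_pow, map_add, map_ofNat]
    show coeffEmb K₁ jq * h9S K₁ ^ 9 * (h9S K₁ ^ 2 + 9 * h9S K₁ + 27)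
      = (h9S K₁ + 9) ^ 3 * (h9S K₁ ^ 3 + 243 * h9S K₁ ^ 2 + 2187 * h9S K₁ + 6561) ^ 3
    rw [Fermat.Agent.H27.KLGB.coeffEmb_jq]
    exact h9_j K₁
  have hHM0 : HM ≠ 0 := fun h => h9S_ne_zero K₁ (congrArg Subtype.val h)
  have hHMD : HM ^ 2 + 9 * HM + 27 ≠ 0 := by
    intro h
    apply h9S_quad_ne_zero K₁
    have := congrArg
      (IntermediateField.val (laurentBaseChange K₁ (modularFunctionFieldFull M))) h
    simp only [map_add, map_mul, map_pow, map_ofNat, map_zero] at this
    exact this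
  -- the level-`M q` elements
  set H : ModelField K₁ (M * q) := heckeAlphaBar K₁ M q HM with hH
  set Hq : ModelField K₁ (M * q) := heckeBetaBar K₁ M q HM with hHq
  set xq : ModelField K₁ (M * q) := heckeBetaBar K₁ M q jM with hxq
  have hxα : x = heckeAlphaBar K₁ M q jM := Subtype.ext (by rw [hx, coe_heckeAlphaBar])
  have hrel : x * H ^ 9 * (H ^ 2 + 9 * H + 27)
      = (H + 9) ^ 3 * (H ^ 3 + 243 * H ^ 2 + 2187 * H + 6561) ^ 3 := by
    have := congrArg (heckeAlphaBar K₁ M q) hrelM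
    simp only [map_mul, map_pow, map_add, map_ofNat] at this
    rw [hxα]
    exact this
  have hrelq : xq * Hq ^ 9 * (Hq ^ 2 + 9 * Hq + 27)
      = (Hq + 9) ^ 3 * (Hq ^ 3 + 243 * Hq ^ 2 + 2187 * Hq + 6561) ^ 3 := by
    have := congrArg (heckeBetaBar K₁ M q) hrelM
    simp only [map_mul, map_pow, map_add, map_ofNat] at this
    exact this
  have hH0 : H ≠ 0 := (map_ne_zero (heckeAlphaBar K₁ M q)).mpr hHM0
  have hHq0 : Hq ≠ 0 := (map_ne_zero (heckeBetaBar K₁ M q)).mpr hHM0
  have hHD : H ^ 2 + 9 * H + 27 ≠ 0 := by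
    have := (map_ne_zero (heckeAlphaBar K₁ M q)).mpr hHMD
    rwa [map_add, map_add, map_mul, map_pow, map_ofNat, map_ofNat] at this
  have hHqD : Hq ^ 2 + 9 * Hq + 27 ≠ 0 := by
    have := (map_ne_zero (heckeBetaBar K₁ M q)).mpr hHMD
    rwa [map_add, map_add, map_mul, map_pow, map_ofNat, map_ofNat] at this
  -- membership in `B(x)` is integrality over `A₀[x]`
  have hmem : ∀ z : ModelField K₁ (M * q), z ∈ chartClosure A₀ (ModelField K₁ (M * q)) x ↔
      IsIntegral ↥(chartRing A₀ (ModelField K₁ (M * q)) x) z := by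
    intro z
    unfold chartClosure
    rw [Subalgebra.mem_restrictScalars, mem_integralClosure_iff]
  have hxint : IsIntegral ↥(chartRing A₀ (ModelField K₁ (M * q)) x) x := by
    have : x = algebraMap ↥(chartRing A₀ (ModelField K₁ (M * q)) x) (ModelField K₁ (M * q))
        ⟨x, Algebra.self_mem_adjoin_singleton A₀ x⟩ := rfl
    rw [this]
    exact isIntegral_algebraMap
  have hxqint : IsIntegral ↥(chartRing A₀ (ModelField K₁ (M * q)) x) xq := by
    rw [← hmem, Fermat.Agent.H87.KL.mem_chartClosure_iff]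
    refine Fermat.Agent.H66.SS.smi_gen x hx xq q ?_
    rw [hxq, coe_heckeBetaBar]
    show qExpand K₁ q (coeffEmb K₁ jq) = _
    rw [Fermat.Agent.H27.KLGB.coeffEmb_jq]
  -- `3` is a unit of `A₀`
  have h3u : IsUnit (((3 ^ 48 : ℕ) : ℕ) : A₀) := by
    apply Fermat.Agent.H2.klbr_isUnit_natCast_of_coprime hqA
    apply Nat.Coprime.pow_left
    rw [Nat.coprime_primes Nat.prime_three hq]
    exact fun h => hq3 h.symm
  obtain ⟨c₀, hc₀⟩ := h3u.exists_left_inv
  have h348 : (3 ^ 48 : ℕ) = 79766443076872509863361 := by norm_num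
  rw [h348] at hc₀
  have hc : algebraMap A₀ ↥(chartRing A₀ (ModelField K₁ (M * q)) x) c₀
      * 79766443076872509863361 = 1 := by
    have := congrArg (algebraMap A₀ ↥(chartRing A₀ (ModelField K₁ (M * q)) x)) hc₀
    rw [map_mul, map_one, map_natCast, Nat.cast_ofNat] at this
    exact this
  obtain ⟨hHint, u, huint, hu⟩ := isIntegral_haupt9_unit _ hc x H hxint hH0 hHD hrel
  obtain ⟨hHqint, uq, huqint, huq⟩ := isIntegral_haupt9_unit _ hc xq Hq hxqint hHq0 hHqD hrelq
  refine ⟨atkinLehner_preserves_chartClosure M q K₁ A₀ x hx W hW, H, Hq, u, uq, ?_, ?_,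
    (hmem H).2 hHint, (hmem Hq).2 hHqint, (hmem u).2 huint,
    (hmem uq).2 huqint, hu, huq, hW.1 HM, hW.2 HM⟩
  · rw [hH, coe_heckeAlphaBar]
  · rw [hHq, coe_heckeBetaBar]

end Fermat.Agent.H66.SSHaupt9
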