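import Fermat.Agent.H35.KLGB.Tower

/-!
# P-SS, level-9 twins (helper66): the GENERALISED tower step for good bases

`goodBasis_tower_gen` : let `A` be a discrete valuation ring with uniformiser `ϖ`, `E ⊇ A` a
field of characteristic zero, `j, t ∈ E` with `t` transcendental over `A` and
`j * D(t) = R(t)` for monic `R, D ∈ A[X]`, `deg D < deg R`, with a Bezout relation
`a D + b R = 1` in `A[X]`.  Then `GoodBasis A E ϖ j → GoodBasis A E ϖ t`.

This generalises `Fermat.Agent.H35.KLGB.goodBasis_tower` (the case `D = X ^ e`, where the Bezout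
relation is the unit constant coefficient of `R`); the proof is the same, with the multiplicative
set `{D(t) ^ k}` instead of `{t ^ k}`: `A[j] ⊆ A[t, D(t)⁻¹] = A[j, t]`.

Application (`GoodBasisH9`): `t₃ (H₉² + 9 H₉ + 27) = H₉³`.
-/

set_option autoImplicit false
set_option linter.style.haveILetI false
set_option linter.unusedSectionVars false

noncomputable section

namespace Fermat.Agent.H66.TG

open Fermat.Agent.H91 Fermat.Agent.H22.KL Polynomial
open Fermat.Agent.H67.KLConn (PiDvd)
open Fermat.Agent.H35.KLGB

section TowerFacts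

variable {A : Type} [CommRing A] {E : Type} [Field E] [Algebra A E] {j t : E}
  {R D : A[X]}

/-- `t` is integral over `A[j]` when `j D(t) = R(t)` with `R` monic, `deg D < deg R` -/
theorem tg_isIntegral_t (hR : R.Monic) (hdeg : D.natDegree < R.natDegree)
    (hrel : j * aeval t D = aeval t R) : IsIntegral ↥(chartRing A E j) t := by
  set jj : ↥(chartRing A E j) := ⟨j, Algebra.self_mem_adjoin_singleton A j⟩ with hjj
  refine ⟨R.map (algebraMap A ↥(chartRing A E j))
    - C jj * D.map (algebraMap A ↥(chartRing A E j)), ?_, ?_⟩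
  · refine Polynomial.Monic.sub_of_left (hR.map _) ?_
    have h1 : (C jj * D.map (algebraMap A ↥(chartRing A E j))).degree
        ≤ (D.natDegree : WithBot ℕ) := by
      refine (Polynomial.degree_mul_le _ _).trans ?_
      have h2 : (C jj : (↥(chartRing A E j))[X]).degree ≤ 0 := Polynomial.degree_C_le
      have h3 : (D.map (algebraMap A ↥(chartRing A E j))).degree ≤ (D.natDegree : WithBot ℕ) :=
        (Polynomial.degree_map_le).trans Polynomial.degree_le_natDegree
      calc (C jj : (↥(chartRing A E j))[X]).degree
            + (D.map (algebraMap A ↥(chartRing A E j))).degree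
          ≤ 0 + (D.natDegree : WithBot ℕ) := add_le_add h2 h3
        _ = (D.natDegree : WithBot ℕ) := zero_add _
    refine h1.trans_lt ?_
    rw [Polynomial.degree_eq_natDegree (hR.map _).ne_zero, hR.natDegree_map]
    exact WithBot.coe_lt_coe.mpr hdeg
  · rw [Polynomial.eval₂_sub, Polynomial.eval₂_map, Polynomial.eval₂_mul, Polynomial.eval₂_C,
      Polynomial.eval₂_map, ← IsScalarTower.algebraMap_eq,
      ← Polynomial.aeval_def, ← Polynomial.aeval_def, ← hrel]
    exact sub_self _

theorem tg_le_chartClosure (hR : R.Monic) (hdeg : D.natDegree < R.natDegree)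
    (hrel : j * aeval t D = aeval t R) :
    Algebra.adjoin A ({j, t} : Set E) ≤ chartClosure A E j := by
  refine Algebra.adjoin_le ?_
  intro y hy
  rcases hy with rfl | hy
  · have h : IsIntegral ↥(chartRing A E y) y :=
      isIntegral_algebraMap (R := ↥(chartRing A E y)) (A := E)
        (x := ⟨y, Algebra.self_mem_adjoin_singleton A y⟩)
    exact h
  · rw [Set.mem_singleton_iff] at hy
    subst hy
    exact tg_isIntegral_t hR hdeg hrel

/-- the Bezout relation evaluated at `t` -/
theorem tg_bezout_eval (a b : A[X]) (hbez : a * D + b * R = 1)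
    (hrel : j * aeval t D = aeval t R) :
    aeval t D * (aeval t a + aeval t b * j) = 1 := by
  have h1 : aeval t (a * D + b * R) = (1 : E) := by rw [hbez, map_one]
  rw [map_add, map_mul, map_mul, ← hrel] at h1
  rw [← h1]
  ring

theorem tg_aeval_ne_zero (a b : A[X]) (hbez : a * D + b * R = 1)
    (hrel : j * aeval t D = aeval t R) : aeval t D ≠ 0 := by
  intro h0
  have h := tg_bezout_eval a b hbez hrel
  rw [h0, zero_mul] at h
  exact zero_ne_one h

/-- `D(t)⁻¹ ∈ A[j, t]` from the Bezout relation -/
theorem tg_inv_mem (a b : A[X]) (hbez : a * D + b * R = 1)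
    (hrel : j * aeval t D = aeval t R) :
    (aeval t D)⁻¹ ∈ Algebra.adjoin A ({j, t} : Set E) := by
  have hjm : j ∈ Algebra.adjoin A ({j, t} : Set E) := Algebra.subset_adjoin (by simp)
  have hinv : (aeval t D)⁻¹ = aeval t a + aeval t b * j :=
    (eq_inv_of_mul_eq_one_right (tg_bezout_eval a b hbez hrel)).symm
  rw [hinv]
  refine Subalgebra.add_mem _ ?_ (Subalgebra.mul_mem _ ?_ hjm)
  · exact Algebra.adjoin_mono (by simp) (Polynomial.aeval_mem_adjoin_singleton A t)
  · exact Algebra.adjoin_mono (by simp) (Polynomial.aeval_mem_adjoin_singleton A t)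

/-- elements of `A[j]` become elements of `A[t]` after multiplication by a power of `D(t)` -/
theorem tg_scale (hrel : j * aeval t D = aeval t R) :
    ∀ c ∈ chartRing A E j, ∃ k : ℕ, aeval t D ^ k * c ∈ chartRing A E t := by
  intro c hc
  have hgm : aeval t D ∈ chartRing A E t := Polynomial.aeval_mem_adjoin_singleton A t
  induction hc using Algebra.adjoin_induction with
  | mem y hy =>
    rw [Set.mem_singleton_iff] at hy
    subst hy
    refine ⟨1, ?_⟩
    rw [pow_one, mul_comm, hrel]
    exact Polynomial.aeval_mem_adjoin_singleton A t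
  | algebraMap a =>
    refine ⟨0, ?_⟩
    rw [pow_zero, one_mul]
    exact Subalgebra.algebraMap_mem _ a
  | add y z _ _ hy hz =>
    obtain ⟨k, hk⟩ := hy
    obtain ⟨l, hl⟩ := hz
    refine ⟨k + l, ?_⟩
    have h1 : aeval t D ^ (k + l) * (y + z)
        = aeval t D ^ l * (aeval t D ^ k * y) + aeval t D ^ k * (aeval t D ^ l * z) := by
      rw [pow_add]; ring
    rw [h1]
    exact Subalgebra.add_mem _ (Subalgebra.mul_mem _ (Subalgebra.pow_mem _ hgm _) hk)
      (Subalgebra.mul_mem _ (Subalgebra.pow_mem _ hgm _) hl)
  | mul y z _ _ hy hz =>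
    obtain ⟨k, hk⟩ := hy
    obtain ⟨l, hl⟩ := hz
    refine ⟨k + l, ?_⟩
    have h1 : aeval t D ^ (k + l) * (y * z) = (aeval t D ^ k * y) * (aeval t D ^ l * z) := by
      rw [pow_add]; ring
    rw [h1]
    exact Subalgebra.mul_mem _ hk hl

end TowerFacts

section TowerMain

variable (A : Type) [CommRing A] [IsDomain A] [IsDiscreteValuationRing A]
  (E : Type) [Field E] [Algebra A E] [CharZero E]

theorem tg_chartField_le {j t : E} {R D : A[X]} (hD0 : aeval t D ≠ 0)
    (hrel : j * aeval t D = aeval t R) : chartField A E j ≤ chartField A E t := by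
  have hjm : j ∈ chartField A E t := by
    have h1 : j = aeval t R / aeval t D := by
      rw [← hrel, mul_div_assoc, div_self hD0, mul_one]
    rw [h1]
    exact div_mem (Subfield.subset_closure (Polynomial.aeval_mem_adjoin_singleton A t))
      (Subfield.subset_closure (Polynomial.aeval_mem_adjoin_singleton A t))
  have key : ∀ y, y ∈ Algebra.adjoin A ({j} : Set E) → y ∈ chartField A E t := by
    intro y hy
    induction hy using Algebra.adjoin_induction with
    | mem z hz =>
      rw [Set.mem_singleton_iff] at hz
      subst hz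
      exact hjm
    | algebraMap a =>
      exact Subfield.subset_closure (Subalgebra.algebraMap_mem _ a)
    | add y z _ _ hy hz => exact add_mem hy hz
    | mul y z _ _ hy hz => exact mul_mem hy hz
  exact Subfield.closure_le.mpr key

variable {A E}

/-- `ϖ` does not divide a power of `D(t)`, `D` monic -/
theorem tg_not_dvd_pow {t : E} (ht : Transcendental A t) {ϖ : A} (hϖ : Irreducible ϖ)
    {D : A[X]} (hD : D.Monic) (a : ℕ) :
    ¬ (algebraMap A ↥(chartRing A E t) ϖ) ∣
      (⟨aeval t D, Polynomial.aeval_mem_adjoin_singleton A t⟩ : ↥(chartRing A E t)) ^ a := by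
  intro h
  have h1 := (chart_prime ht hϖ).dvd_of_dvd_pow h
  obtain ⟨r, hr⟩ := h1
  obtain ⟨p, rfl⟩ := (chartEquiv ht).surjective r
  have h2 : (chartEquiv ht) D = (chartEquiv ht) (C ϖ * p) := by
    rw [map_mul, chartEquiv_C ht, ← hr]
    apply Subtype.ext
    rw [chartEquiv_coe ht]
  have h3 := (chartEquiv ht).injective h2
  have h4 := congrArg (fun q => Polynomial.coeff q D.natDegree) h3
  simp only [coeff_C_mul] at h4
  rw [Polynomial.coeff_natDegree, hD.leadingCoeff] at h4
  exact hϖ.not_isUnit (IsUnit.of_mul_eq_one _ h4.symm)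

variable (A E)

/-- **KL-GB, generalised tower step.**  Let `j, t ∈ E` with `t` transcendental over the discrete
valuation ring `A` and `j * D(t) = R(t)` for monic `R, D ∈ A[X]` with `deg D < deg R` and a
Bezout relation `a D + b R = 1`.  A good basis of `E` in the chart `j` gives a good basis of `E`
in the chart `t`. -/
theorem goodBasis_tower_gen
    (ϖ : A) (hϖ : Irreducible ϖ) (j t : E) (ht : Transcendental A t)
    (R D : A[X]) (hR : R.Monic) (hD : D.Monic) (hdeg : D.natDegree < R.natDegree)
    (a b : A[X]) (hbez : a * D + b * R = 1) (hrel : j * aeval t D = aeval t R)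
    (hGB : GoodBasis A E ϖ j) : GoodBasis A E ϖ t := by
  classical
  have hD0 : aeval t D ≠ 0 := tg_aeval_ne_zero a b hbez hrel
  have hintt : IsIntegral ↥(chartRing A E j) t := tg_isIntegral_t hR hdeg hrel
  have hj : Transcendental A j := tower_transcendental ht hintt
  have hle : chartField A E j ≤ chartField A E t := tg_chartField_le A E hD0 hrel
  have hS3 := tg_le_chartClosure hR hdeg hrel
  -- instances for `j`
  letI algj : Algebra ↥(chartRing A E j) ↥(chartField A E j) := chartAlgebra A E j
  haveI towj : IsScalarTower ↥(chartRing A E j) ↥(chartField A E j) E := chartTower A E j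
  haveI fracj : IsFractionRing ↥(chartRing A E j) ↥(chartField A E j) := chartFraction A E j
  haveI icj : IsIntegrallyClosed ↥(chartRing A E j) := chart_isIntegrallyClosed hj
  -- instances for `t`
  letI algt : Algebra ↥(chartRing A E t) ↥(chartField A E t) := chartAlgebra A E t
  haveI towt : IsScalarTower ↥(chartRing A E t) ↥(chartField A E t) E := chartTower A E t
  haveI fract : IsFractionRing ↥(chartRing A E t) ↥(chartField A E t) := chartFraction A E t
  haveI ict : IsIntegrallyClosed ↥(chartRing A E t) := chart_isIntegrallyClosed ht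
  haveI noet : IsNoetherianRing ↥(chartRing A E t) := chart_isNoetherianRing ht
  haveI ufmt : UniqueFactorizationMonoid ↥(chartRing A E t) := chart_ufm ht
  haveI pirt : IsPrincipalIdealRing
      (↥(chartRing A E t) ⧸ Ideal.span {algebraMap A ↥(chartRing A E t) ϖ}) :=
    chart_quot_pir ht hϖ
  -- the tower of fields
  letI algK : Algebra ↥(chartField A E j) ↥(chartField A E t) := subfieldAlgebra hle
  haveI towK : IsScalarTower ↥(chartField A E j) ↥(chartField A E t) E := subfieldTower hle
  obtain ⟨n, bs, hb, hd⟩ := hGB
  haveI fdj : FiniteDimensional ↥(chartField A E j) E := Module.Finite.of_basis bs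
  haveI fdt : FiniteDimensional ↥(chartField A E t) E :=
    FiniteDimensional.right ↥(chartField A E j) ↥(chartField A E t) E
  have hpj := chart_prime hj hϖ
  have hpt := chart_prime ht hϖ
  -- Step 1: good basis at `(ϖ)` for `j` in abstract form
  have h1 : HasGoodBasisAt ↥(chartRing A E j) ↥(chartField A E j) E
      (Ideal.span {algebraMap A ↥(chartRing A E j) ϖ}) := by
    refine hasGoodBasisAt_of_basis bs hb _ ?_
    rintro ⟨r, hr⟩
    apply hd
    refine ⟨r.1, r.2, ?_⟩
    rw [pow_one]
    refine hr.trans ?_
    rw [map_mul, Algebra.smul_def]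
    rfl
  have h2 := h1.traceNondegAt_span hpj
  -- Step 2: the tower step for the trace form
  set gD : ↥(chartRing A E t) := ⟨aeval t D, Polynomial.aeval_mem_adjoin_singleton A t⟩ with hgD
  have h3 : TraceNondegAt ↥(chartRing A E t) ↥(chartField A E t) E
      (Ideal.span {algebraMap A ↥(chartRing A E t) ϖ}) := by
    have hpp : algebraMap ↥(chartRing A E j) E (algebraMap A ↥(chartRing A E j) ϖ)
        = algebraMap ↥(chartRing A E t) E (algebraMap A ↥(chartRing A E t) ϖ) :=
      (subalg_algebraMap_base (chartRing A E j) ϖ).trans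
        (subalg_algebraMap_base (chartRing A E t) ϖ).symm
    refine traceNondegAt_tower (R₁ := ↥(chartRing A E j)) (K₁ := ↥(chartField A E j))
      (R₂ := ↥(chartRing A E t)) (K₂ := ↥(chartField A E t)) (E := E)
      (p₁ := algebraMap A ↥(chartRing A E j) ϖ) (p₂ := algebraMap A ↥(chartRing A E t) ϖ)
      hpt hpp gD (tg_not_dvd_pow ht hϖ hD) ?_ ?_ ?_ h2
    · -- (a)
      intro x hx
      have hx' : IsIntegral ↥(integralClosure ↥(chartRing A E j) E) x := by
        obtain ⟨a', ha'⟩ := exists_pow_smul_isIntegral (S₁ := ↥(chartRing A E t))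
          (S₂ := ↥(integralClosure ↥(chartRing A E j) E)) (E := E) 1
          (fun c => ⟨0, ⟨c.1, hS3 (Algebra.adjoin_mono (by simp) c.2)⟩, by
            rw [pow_zero, map_one, one_mul]; rfl⟩) hx
        rwa [one_pow, one_smul] at ha'
      exact isIntegral_trans x hx'
    · -- (b)
      intro y hy
      refine exists_pow_smul_isIntegral (S₁ := ↥(chartRing A E j))
        (S₂ := ↥(chartRing A E t)) (E := E) _ (fun c => ?_) hy
      obtain ⟨k, hk⟩ := tg_scale hrel c.1 c.2
      refine ⟨k, ⟨_, hk⟩, ?_⟩
      rw [map_pow]
      rfl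
    · -- (c)
      letI algjt : Algebra ↥(chartRing A E j) ↥(chartField A E t) :=
        subalgAlgebraComp (chartRing A E j) (chartField A E j) (chartField A E t)
          (chartRing_le_chartField A E j) hle
      haveI : IsScalarTower ↥(chartRing A E j) ↥(chartField A E j) ↥(chartField A E t) :=
        subalgTowerComp (chartRing A E j) (chartField A E j) (chartField A E t)
          (chartRing_le_chartField A E j) hle
      haveI : IsScalarTower ↥(chartRing A E j) ↥(chartField A E t) E :=
        subalgTowerComp' (chartRing A E j) (chartField A E j) (chartField A E t)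
          (chartRing_le_chartField A E j) hle
      haveI : FiniteDimensional ↥(chartField A E j) ↥(chartField A E t) :=
        FiniteDimensional.left ↥(chartField A E j) ↥(chartField A E t) E
      intro r a'
      have hz : IsIntegral ↥(chartRing A E j)
          (algebraMap ↥(chartRing A E t) ↥(chartField A E t) r /
            algebraMap ↥(chartRing A E t) ↥(chartField A E t) gD ^ a') := by
        rw [← isIntegral_algebraMap_iff (algebraMap ↥(chartField A E t) E).injective]
        have himg := subalg_div_pow_coe (chartRing A E t) (chartField A E t)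
          (chartRing_le_chartField A E t) r gD a'
        rw [himg]
        exact hS3 (Subalgebra.mul_mem _ (Algebra.adjoin_mono (by simp) r.2)
          (Subalgebra.pow_mem _ (tg_inv_mem a b hbez hrel) a'))
      exact IsIntegrallyClosed.isIntegral_iff.mp
        (Algebra.isIntegral_trace (R := ↥(chartRing A E j)) (L := ↥(chartField A E j)) hz)
  -- Step 3: a good basis for `t`
  haveI : CharZero ↥(chartField A E t) :=
    RingHom.charZero (algebraMap ↥(chartField A E t) E)
  haveI : Algebra.IsSeparable ↥(chartField A E t) E :=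
    Algebra.IsAlgebraic.isSeparable_of_perfectField
  haveI : Module.Finite ↥(chartRing A E t) ↥(integralClosure ↥(chartRing A E t) E) :=
    IsIntegralClosure.finite ↥(chartRing A E t) ↥(chartField A E t) E _
  have h4 := hasGoodBasisAt_of_traceNondegAt hpt h3
  obtain ⟨m, c, hc, hdc⟩ := exists_basis_of_hasGoodBasisAt h4
  refine ⟨m, c, hc, ?_⟩
  rintro ⟨r, hr, hrd⟩
  apply hdc
  refine ⟨⟨r, hr⟩, ?_⟩
  rw [pow_one] at hrd
  refine hrd.trans ?_
  rw [map_mul, Algebra.smul_def]
  rfl

end TowerMain

end Fermat.Agent.H66.TG
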