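import Fermat.Agent.H27.KLGB.ModelTower
import Fermat.Agent.H31.SS.Haupt9Member
import Fermat.Agent.H31.SS.Haupt9Field
import Fermat.Agent.H1.ESD.T3Rat
import Fermat.Agent.H98.KL.LaurentConst
import Fermat.Agent.H66.SS.TowerGen

/-!
# P-SS, level-9 twin of row 960 (helper66): the good basis statement in the chart `H₉`

`modelGoodBasis_h9 (N ℓ) (hl : ℓ.Prime) (hN : ¬ ℓ ∣ N) (h3 : ℓ ≠ 3) :
    ModelGoodBasisStatement N ℓ (h9S ℚ)`

(`h9S` = Hauptmodul of level 9 of helper31, `Fermat.Agent.H31.SS.h9S`; no hypothesis `9 ∣ N` is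
needed: the statement quantifies over the elements `x` of the model field with expansion `H₉`,
and then `t₃ = x³ / (x² + 9 x + 27)` lies in the model field as well).

Proof: the generalised tower step `Fermat.Agent.H66.TG.goodBasis_tower_gen` from the chart `t₃`
(landed: `H27.KLGB.modelGoodBasis_t3`) to the chart `H₉`, with the relation
`t₃ (H₉² + 9 H₉ + 27) = H₉³` (`h9_cube`) and the Bezout relation
`(2 X² - 9 X + 27) (X² + 9 X + 27) - (2 X + 9) X³ = 729`, `729 = 3⁶` a unit for `ℓ ≠ 3`.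
-/

set_option autoImplicit false
set_option linter.style.haveILetI false
set_option linter.unusedSectionVars false
set_option linter.unusedVariables false
set_option synthInstance.maxHeartbeats 400000
set_option maxHeartbeats 1000000

noncomputable section

open ModularCurve Polynomial IntermediateField
open Fermat.Agent.H22.KL Fermat.Agent.H67.KLConn

namespace Fermat.Agent.H66.SS

/-- `H₉ + c` is not algebraic over the constants. -/
theorem h9S_add_not_isAlgebraic (K₁ : Type) [Field K₁] (c : K₁) :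
    ¬ IsAlgebraic K₁ (Fermat.Agent.H31.SS.h9S K₁ + algebraMap K₁ (LaurentSeries K₁) c) := by
  intro h
  obtain ⟨d, hd⟩ := Fermat.Agent.H98.KL.exists_const_of_isAlgebraic _ h
  have h1 := congrArg (fun z : LaurentSeries K₁ => z.coeff (-1)) hd
  simp only [HahnSeries.coeff_add, Fermat.Agent.H31.SS.h9S_coeff_neg_one,
    Fermat.Agent.H98.KL.algebraMap_eq_C, HahnSeries.C_apply] at h1
  rw [HahnSeries.coeff_single_of_ne (by norm_num), HahnSeries.coeff_single_of_ne (by norm_num),
    add_zero] at h1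
  exact zero_ne_one h1

/-- **KL-M-TR in the chart `H₉`**: the Hauptmodul of level 9 is transcendental over `A₀`. -/
theorem modelTranscendental_h9 (N : ℕ) :
    ModelTranscendentalStatement N (Fermat.Agent.H31.SS.h9S ℚ) := by
  intro K₁ _ _ A₀ _ _ _ _ _ _ x hx halg
  have halgK : IsAlgebraic K₁ x := (IsFractionRing.isAlgebraic_iff A₀ K₁ _).mp halg
  have halgL : IsAlgebraic K₁ (algebraMap (ModelField K₁ N) (LaurentSeries K₁) x) :=
    halgK.algebraMap (A := LaurentSeries K₁)
  have hιx : algebraMap (ModelField K₁ N) (LaurentSeries K₁) x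
      = Fermat.Agent.H31.SS.h9S K₁ := by
    show (x : LaurentSeries K₁) = _
    rw [hx, Fermat.Agent.H31.SS.coeffEmb_h9S]
  rw [hιx] at halgL
  have h := h9S_add_not_isAlgebraic K₁ 0
  rw [map_zero, add_zero] at h
  exact h halgL

/-- the Bezout relation between `X² + 9 X + 27` and `X³` over a ring in which `729 u = 1` -/
theorem bezout_h9 {A : Type} [CommRing A] (u : A) (hu : u * 729 = 1) :
    (C u * (2 * X ^ 2 - 9 * X + 27) : A[X]) * (X ^ 2 + 9 * X + 27)
      + (- (C u * (2 * X + 9))) * X ^ 3 = 1 := by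
  have h1 : (C u * (2 * X ^ 2 - 9 * X + 27) : A[X]) * (X ^ 2 + 9 * X + 27)
      + (- (C u * (2 * X + 9))) * X ^ 3 = C u * 729 := by ring
  rw [h1]
  have h2 : (729 : A[X]) = C (729 : A) := (map_ofNat (C : A →+* A[X]) 729).symm
  rw [h2, ← C_mul, hu, C_1]

/-- **SS-HM9-GB**: the good basis statement in the chart `H₉` (Hauptmodul of level 9), for every
prime `ℓ ≠ 3`, `ℓ ∤ N`. -/
theorem modelGoodBasis_h9 (N ℓ : ℕ) [NeZero N] (hl : ℓ.Prime) (hN : ¬ ℓ ∣ N) (h3 : ℓ ≠ 3) :
    ModelGoodBasisStatement N ℓ (Fermat.Agent.H31.SS.h9S ℚ) := by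
  classical
  intro K₁ _ _ _ A₀ _ _ _ _ _ _ _ hℓ ϖ hϖ x hx
  haveI : CharZero K₁ := algebraRat.charZero K₁
  haveI : CharZero (ModelField K₁ N) :=
    charZero_of_injective_algebraMap (algebraMap K₁ (ModelField K₁ N)).injective
  set ι : ModelField K₁ N →+* LaurentSeries K₁ :=
    algebraMap (ModelField K₁ N) (LaurentSeries K₁) with hι
  have hιinj : Function.Injective ι := FaithfulSMul.algebraMap_injective _ _
  have hιx : ι x = Fermat.Agent.H31.SS.h9S K₁ := by
    show (x : LaurentSeries K₁) = _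
    rw [hx, Fermat.Agent.H31.SS.coeffEmb_h9S]
  -- `x` is transcendental
  have hxtr : Transcendental A₀ x := by
    intro halg
    exact modelTranscendental_h9 N K₁ A₀ x hx halg
  -- the quadratic factor
  set dE : ModelField K₁ N := x ^ 2 + 9 * x + 27 with hdE
  have hιd : ι dE = Fermat.Agent.H31.SS.h9S K₁ ^ 2 + 9 * Fermat.Agent.H31.SS.h9S K₁ + 27 := by
    rw [hdE, map_add, map_add, map_mul, map_pow, hιx, map_ofNat, map_ofNat]
  have hd0 : dE ≠ 0 := by
    intro h0
    have h1 : ι dE = 0 := by rw [h0, map_zero]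
    rw [hιd] at h1
    exact Fermat.Agent.H31.SS.h9S_quad_ne_zero K₁ h1
  -- `t₃` in the model field
  set t3E : ModelField K₁ N := x ^ 3 / dE with ht3E
  have hrel0 : t3E * dE = x ^ 3 := by
    rw [ht3E, div_mul_cancel₀ _ hd0]
  have hιt3 : ι t3E = Fermat.Agent.H1.ESD.t3 K₁ := by
    have h1 : ι t3E * ι dE = ι x ^ 3 := by
      rw [← map_mul, hrel0, map_pow]
    rw [hιx, Fermat.Agent.H31.SS.h9_cube K₁, hιd] at h1
    exact mul_right_cancel₀ (Fermat.Agent.H31.SS.h9S_quad_ne_zero K₁) h1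
  have hGB3 : GoodBasis A₀ (ModelField K₁ N) ϖ t3E :=
    Fermat.Agent.H27.KLGB.modelGoodBasis_t3 N ℓ hl hN h3 K₁ A₀ hℓ ϖ hϖ t3E (by
      show ι t3E = _
      rw [hιt3, Fermat.Agent.H1.ESD.coeffEmb_t3])
  -- the unit `729`
  have h729 : IsUnit ((729 : ℤ) : A₀) := by
    have h4 := Fermat.Agent.H27.KLGB.not_dvd_pow_of_prime_ne hl Nat.prime_three h3 6
    have h5 := Fermat.Agent.H27.KLGB.isUnit_intCast_of_not_dvd ℓ hl hℓ ((3 : ℤ) ^ 6)
      (by exact_mod_cast h4)
    have h6 : ((3 : ℤ) ^ 6 : ℤ) = 729 := by norm_num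
    rwa [h6] at h5
  obtain ⟨u, hu⟩ := h729.exists_left_inv
  have hu' : u * (729 : A₀) = 1 := by
    rw [← hu]
    push_cast
    rfl
  -- the polynomials
  have hDm : (X ^ 2 + 9 * X + 27 : A₀[X]).Monic := by
    have h1 : (X ^ 2 + 9 * X + 27 : A₀[X]) = X ^ 2 + (C 9 * X + C 27) := by
      simp only [map_ofNat]; ring
    rw [h1]
    refine Polynomial.monic_X_pow_add ?_
    refine (Polynomial.degree_add_le _ _).trans_lt ?_
    rw [max_lt_iff]
    constructor
    · exact (Polynomial.degree_C_mul_X_le _).trans_lt (by norm_num)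
    · exact (Polynomial.degree_C_le).trans_lt (by norm_num)
  have hDdeg : (X ^ 2 + 9 * X + 27 : A₀[X]).natDegree = 2 := by
    have h1 : (X ^ 2 + 9 * X + 27 : A₀[X]) = X ^ 2 + (C 9 * X + C 27) := by
      simp only [map_ofNat]; ring
    rw [h1]
    have hlt : (C 9 * X + C 27 : A₀[X]).degree < ((X : A₀[X]) ^ 2).degree := by
      rw [Polynomial.degree_X_pow]
      refine (Polynomial.degree_add_le _ _).trans_lt ?_
      rw [max_lt_iff]
      constructor
      · exact (Polynomial.degree_C_mul_X_le _).trans_lt (by norm_num)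
      · exact (Polynomial.degree_C_le).trans_lt (by norm_num)
    rw [Polynomial.natDegree_add_eq_left_of_degree_lt hlt, Polynomial.natDegree_X_pow]
  have hRm : (X ^ 3 : A₀[X]).Monic := Polynomial.monic_X_pow 3
  have hRdeg : (X ^ 3 : A₀[X]).natDegree = 3 := Polynomial.natDegree_X_pow 3
  have hrel : t3E * Polynomial.aeval x (X ^ 2 + 9 * X + 27 : A₀[X])
      = Polynomial.aeval x (X ^ 3 : A₀[X]) := by
    have h1 : Polynomial.aeval x (X ^ 2 + 9 * X + 27 : A₀[X]) = dE := by
      rw [hdE]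
      simp only [map_add, map_mul, map_pow, Polynomial.aeval_X, map_ofNat]
    rw [h1, hrel0, map_pow, Polynomial.aeval_X]
  exact Fermat.Agent.H66.TG.goodBasis_tower_gen A₀ (ModelField K₁ N) ϖ hϖ t3E x hxtr
    (X ^ 3) (X ^ 2 + 9 * X + 27) hRm hDm (by rw [hDdeg, hRdeg]; norm_num)
    (C u * (2 * X ^ 2 - 9 * X + 27)) (- (C u * (2 * X + 9))) (bezout_h9 u hu') hrel hGB3

end Fermat.Agent.H66.SS
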